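/-
helper63 (P-S41, block (4) "Poincare duality", part PD1): the abstract coset model.

`X` is a finite `G`-set, `K` a field, `M = X → K` with the action `act` of `Gateway/A2`.
For two elements `s u : G` with `s * s` acting trivially we put
  `cyc = range (s - 1) ⊓ range (u - 1)`   (the cycles on the dual graph),
and construct a skew-symmetric bilinear form `form` on `cyc` with
  `form y x = ⟪m₁ - m₂, y⟫`   whenever   `x = (s - 1) m₁ = (u - 1) m₂`,
whose radical is exactly `(s - 1) (M ^ (s⁻¹ u))` (the loops around the cusps).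
Everything is finite dimensional linear algebra; no assumption on the characteristic.
-/
import Fermat.Agent.Gateway.A2.Operators

set_option autoImplicit false

noncomputable section

namespace Fermat.Agent.S41.PD

open Fermat.Agent.Gateway.A2

section Form

variable {G : Type*} [Group G] {X : Type*} [MulAction G X] [Fintype X] (K : Type*) [Field K]

/-- the standard bilinear form `⟪m, n⟫ = ∑ x, m x * n x` on `X → K`. -/
def ip : LinearMap.BilinForm K (X → K) :=
  LinearMap.mk₂ K (fun m n => ∑ x, m x * n x)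
    (fun m m' n => by simp only [Pi.add_apply, add_mul, Finset.sum_add_distrib])
    (fun c m n => by simp only [Pi.smul_apply, smul_eq_mul, mul_assoc, Finset.mul_sum])
    (fun m n n' => by simp only [Pi.add_apply, mul_add, Finset.sum_add_distrib])
    (fun c m n => by
      simp only [Pi.smul_apply, smul_eq_mul, Finset.mul_sum]
      exact Finset.sum_congr rfl fun x _ => by ring)

theorem ip_apply (m n : X → K) : ip K m n = ∑ x, m x * n x := rfl

theorem ip_comm (m n : X → K) : ip K m n = ip K n m := by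
  simp only [ip_apply, mul_comm]

theorem ip_isSymm : (ip K (X := X)).IsSymm := ⟨fun m n => ip_comm K m n⟩

theorem ip_isRefl : (ip K (X := X)).IsRefl := (ip_isSymm K).isRefl

theorem ip_single [DecidableEq X] (m : X → K) (x : X) : ip K m (Pi.single x 1) = m x := by
  rw [ip_apply, Finset.sum_eq_single x]
  · simp
  · intro y _ hy
    simp [hy]
  · intro h
    exact absurd (Finset.mem_univ x) h

theorem eq_zero_of_ip_eq_zero (m : X → K) (h : ∀ n, ip K m n = 0) : m = 0 := by
  classical
  funext x
  rw [← ip_single K m x, h]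
  rfl

theorem ip_nondegenerate : (ip K (X := X)).Nondegenerate := by
  refine ⟨fun m h => eq_zero_of_ip_eq_zero K m h, fun n h => ?_⟩
  exact eq_zero_of_ip_eq_zero K n fun m => by rw [ip_comm]; exact h m

theorem ip_act (g : G) (m n : X → K) : ip K (act K g m) (act K g n) = ip K m n := by
  simp only [ip_apply, act_apply]
  exact Fintype.sum_equiv (MulAction.toPerm g⁻¹) _ _ fun x => rfl

theorem ip_act_left (g : G) (m n : X → K) : ip K (act K g m) n = ip K m (act K g⁻¹ n) := by
  rw [← ip_act K g⁻¹ (act K g m) n, act_inv_act]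

theorem ip_opA_left (g : G) (m n : X → K) : ip K (opA K g m) n = ip K m (opA K g⁻¹ n) := by
  simp only [opA_apply, map_sub, LinearMap.sub_apply, ip_act_left]

theorem ip_opA_right (g : G) (m n : X → K) : ip K m (opA K g n) = ip K (opA K g⁻¹ m) n := by
  rw [ip_opA_left, inv_inv]

omit [Fintype X] in
/-- invariants of `g⁻¹` and of `g` coincide. -/
theorem ker_opA_inv (g : G) :
    LinearMap.ker (opA K g⁻¹ (X := X)) = LinearMap.ker (opA K g (X := X)) := by
  ext m
  simp only [LinearMap.mem_ker, opA_apply, sub_eq_zero]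
  constructor
  · intro h
    have := congrArg (act K g) h
    rw [act_act_inv] at this
    exact this.symm
  · intro h
    have := congrArg (act K g⁻¹) h
    rw [act_inv_act] at this
    exact this.symm

omit [Fintype X] in
theorem mem_ker_opA {g : G} {m : X → K} : m ∈ LinearMap.ker (opA K g) ↔ act K g m = m := by
  rw [LinearMap.mem_ker, opA_apply, sub_eq_zero]

/-- `range (g - 1)ᗮ = M ^ g`. -/
theorem orthogonal_range_opA (g : G) :
    (ip K).orthogonal (LinearMap.range (opA K g (X := X))) = LinearMap.ker (opA K g) := by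
  ext n
  rw [LinearMap.BilinForm.mem_orthogonal_iff, ← ker_opA_inv K g, LinearMap.mem_ker]
  constructor
  · intro h
    apply eq_zero_of_ip_eq_zero K
    intro m
    rw [ip_comm, ← ip_opA_left]
    exact h _ ⟨m, rfl⟩
  · rintro h _ ⟨m, rfl⟩
    show ip K (opA K g m) n = 0
    rw [ip_opA_left, h]
    exact map_zero _

/-- `(M ^ g)ᗮ = range (g - 1)`. -/
theorem orthogonal_ker_opA (g : G) :
    (ip K).orthogonal (LinearMap.ker (opA K g (X := X))) = LinearMap.range (opA K g) := by
  rw [← orthogonal_range_opA K g,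
    LinearMap.BilinForm.orthogonal_orthogonal (ip_nondegenerate K) (ip_isRefl K)]

theorem orthogonal_sup (U W : Submodule K (X → K)) :
    (ip K).orthogonal (U ⊔ W) = (ip K).orthogonal U ⊓ (ip K).orthogonal W := by
  apply le_antisymm
  · exact le_inf (LinearMap.BilinForm.orthogonal_le le_sup_left)
      (LinearMap.BilinForm.orthogonal_le le_sup_right)
  · rintro n ⟨hU, hW⟩
    rw [LinearMap.BilinForm.mem_orthogonal_iff]
    intro m hm
    obtain ⟨a, ha, b, hb, rfl⟩ := Submodule.mem_sup.mp hm
    have h1 : ip K a n = 0 := (LinearMap.BilinForm.mem_orthogonal_iff.mp hU) a ha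
    have h2 : ip K b n = 0 := (LinearMap.BilinForm.mem_orthogonal_iff.mp hW) b hb
    show ip K (a + b) n = 0
    rw [map_add, LinearMap.add_apply, h1, h2, add_zero]

variable (s u : G)

/-- the space of cycles: `range (s - 1) ⊓ range (u - 1)`. -/
def cyc : Submodule K (X → K) := LinearMap.range (opA K s) ⊓ LinearMap.range (opA K u)

theorem cyc_eq_orthogonal :
    cyc K s u (X := X) =
      (ip K).orthogonal (LinearMap.ker (opA K s (X := X)) ⊔ LinearMap.ker (opA K u)) := by
  rw [orthogonal_sup, orthogonal_ker_opA, orthogonal_ker_opA]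
  rfl

/-- `cycᗮ = M ^ s + M ^ u`. -/
theorem orthogonal_cyc :
    (ip K).orthogonal (cyc K s u (X := X)) =
      LinearMap.ker (opA K s (X := X)) ⊔ LinearMap.ker (opA K u) := by
  rw [cyc_eq_orthogonal,
    LinearMap.BilinForm.orthogonal_orthogonal (ip_nondegenerate K) (ip_isRefl K)]

theorem ip_eq_zero_of_mem_ker_of_mem_range {g : G} {f y : X → K}
    (hf : f ∈ LinearMap.ker (opA K g)) (hy : y ∈ LinearMap.range (opA K g)) : ip K f y = 0 := by
  have h : f ∈ (ip K).orthogonal (LinearMap.range (opA K g (X := X))) := by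
    rw [orthogonal_range_opA]; exact hf
  have h' : ip K y f = 0 := (LinearMap.BilinForm.mem_orthogonal_iff.mp h) y hy
  rw [ip_comm]
  exact h'

/-- the functional `y ↦ ⟪m₁ - m₂, y⟫` on cycles depends only on `(s - 1) m₁` and `(u - 1) m₂`. -/
theorem ip_sub_eq_of_opA_eq {m₁ m₂ m₁' m₂' y : X → K} (hy : y ∈ cyc K s u)
    (h₁ : opA K s m₁ = opA K s m₁') (h₂ : opA K u m₂ = opA K u m₂') :
    ip K (m₁ - m₂) y = ip K (m₁' - m₂') y := by
  have e1 : m₁ - m₁' ∈ LinearMap.ker (opA K s) := by
    rw [LinearMap.mem_ker, map_sub, h₁, sub_self]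
  have e2 : m₂ - m₂' ∈ LinearMap.ker (opA K u) := by
    rw [LinearMap.mem_ker, map_sub, h₂, sub_self]
  have z1 := ip_eq_zero_of_mem_ker_of_mem_range K e1 hy.1
  have z2 := ip_eq_zero_of_mem_ker_of_mem_range K e2 hy.2
  have hz : ip K ((m₁ - m₁') - (m₂ - m₂')) y = 0 := by
    rw [map_sub, LinearMap.sub_apply, z1, z2, sub_zero]
  have : m₁ - m₂ = (m₁' - m₂') + ((m₁ - m₁') - (m₂ - m₂')) := by abel
  rw [this, map_add, LinearMap.add_apply, hz, add_zero]

/-- a chosen `m₁` with `(s - 1) m₁ = x`. -/
def pre₁ (x : cyc K s u (X := X)) : X → K := Classical.choose x.2.1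

/-- a chosen `m₂` with `(u - 1) m₂ = x`. -/
def pre₂ (x : cyc K s u (X := X)) : X → K := Classical.choose x.2.2

omit [Fintype X] in
theorem opA_pre₁ (x : cyc K s u (X := X)) : opA K s (pre₁ K s u x) = x :=
  Classical.choose_spec x.2.1

omit [Fintype X] in
theorem opA_pre₂ (x : cyc K s u (X := X)) : opA K u (pre₂ K s u x) = x :=
  Classical.choose_spec x.2.2

/-- the intersection form on cycles: `form y x = ⟪m₁ - m₂, y⟫` for `x = (s-1) m₁ = (u-1) m₂`. -/
def form : cyc K s u (X := X) →ₗ[K] cyc K s u (X := X) →ₗ[K] K :=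
  LinearMap.mk₂ K (fun y x => ip K (pre₁ K s u x - pre₂ K s u x) (y : X → K))
    (fun y y' x => by
      simp only [Submodule.coe_add, map_add])
    (fun c y x => by
      simp only [Submodule.coe_smul, map_smul, smul_eq_mul])
    (fun y x x' => by
      have h := ip_sub_eq_of_opA_eq K s u (m₁ := pre₁ K s u (x + x')) (m₂ := pre₂ K s u (x + x'))
        (m₁' := pre₁ K s u x + pre₁ K s u x') (m₂' := pre₂ K s u x + pre₂ K s u x') y.2
        (by rw [opA_pre₁, map_add, opA_pre₁, opA_pre₁, Submodule.coe_add])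
        (by rw [opA_pre₂, map_add, opA_pre₂, opA_pre₂, Submodule.coe_add])
      rw [h]
      have : pre₁ K s u x + pre₁ K s u x' - (pre₂ K s u x + pre₂ K s u x')
          = (pre₁ K s u x - pre₂ K s u x) + (pre₁ K s u x' - pre₂ K s u x') := by abel
      rw [this, map_add, LinearMap.add_apply])
    (fun c y x => by
      have h := ip_sub_eq_of_opA_eq K s u (m₁ := pre₁ K s u (c • x)) (m₂ := pre₂ K s u (c • x))
        (m₁' := c • pre₁ K s u x) (m₂' := c • pre₂ K s u x) y.2
        (by rw [opA_pre₁, map_smul, opA_pre₁, Submodule.coe_smul])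
        (by rw [opA_pre₂, map_smul, opA_pre₂, Submodule.coe_smul])
      rw [h, ← smul_sub, map_smul, LinearMap.smul_apply])

theorem form_eq (x y : cyc K s u (X := X)) (m₁ m₂ : X → K) (h₁ : opA K s m₁ = x)
    (h₂ : opA K u m₂ = x) : form K s u y x = ip K (m₁ - m₂) (y : X → K) := by
  show ip K (pre₁ K s u x - pre₂ K s u x) (y : X → K) = _
  exact ip_sub_eq_of_opA_eq K s u y.2 (by rw [opA_pre₁, h₁]) (by rw [opA_pre₂, h₂])

/-- the form is skew-symmetric as soon as `s * s` acts trivially. -/
theorem form_skew (hs : ∀ m : X → K, act K s (act K s m) = m) (x y : cyc K s u (X := X)) :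
    form K s u x y = - form K s u y x := by
  obtain ⟨m₁, hm₁⟩ := x.2.1
  obtain ⟨m₂, hm₂⟩ := x.2.2
  obtain ⟨n₁, hn₁⟩ := y.2.1
  obtain ⟨n₂, hn₂⟩ := y.2.2
  rw [form_eq K s u y x n₁ n₂ hn₁ hn₂, form_eq K s u x y m₁ m₂ hm₁ hm₂]
  set xx : X → K := (x : X → K) with hxx
  set yy : X → K := (y : X → K) with hyy
  -- `s⁻¹` acts as `s`
  have hsinv : ∀ m : X → K, act K s⁻¹ m = act K s m := by
    intro m
    have := congrArg (act K s⁻¹) (hs m)
    rw [act_inv_act] at this
    exact this.symm
  have hopinv : ∀ m : X → K, opA K s⁻¹ m = opA K s m := by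
    intro m
    rw [opA_apply, opA_apply, hsinv]
  -- `s x = - x`
  have hsx : opA K s xx = -(2 : K) • xx := by
    rw [← hm₁, opA_apply, opA_apply, map_sub, hs]
    funext z
    simp only [Pi.sub_apply, Pi.smul_apply, smul_eq_mul]
    ring
  -- the four terms
  have t1 : ip K m₁ yy = ip K xx n₁ := by
    rw [← hn₁, ip_opA_right, hopinv, hm₁]
  have t2 : ip K m₂ yy = - ip K xx (act K u n₂) := by
    rw [← hn₂, ip_opA_right]
    have : opA K u⁻¹ m₂ = - act K u⁻¹ xx := by
      rw [← hm₂, opA_apply, opA_apply, map_sub, act_inv_act]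
      abel
    rw [this, map_neg, LinearMap.neg_apply, ip_act_left, inv_inv]
  have t3 : ip K xx yy = -(2 : K) * ip K xx n₁ := by
    rw [← hn₁, ip_opA_right, hopinv, hsx, map_smul, LinearMap.smul_apply, smul_eq_mul]
  have t4 : ip K xx yy = ip K xx (act K u n₂) - ip K xx n₂ := by
    rw [← hn₂, opA_apply, map_sub]
  rw [map_sub, LinearMap.sub_apply, map_sub, LinearMap.sub_apply, t1, t2, ip_comm K n₁ xx,
    ip_comm K n₂ xx]
  linear_combination t3 - t4

/-- the loops around the cusps: `(s - 1) (M ^ (s⁻¹ u))`. -/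
def bdry : Submodule K (X → K) := (LinearMap.ker (opA K (s⁻¹ * u))).map (opA K s)

omit [Fintype X] in
theorem opA_eq_of_mem_ker {n : X → K} (hn : n ∈ LinearMap.ker (opA K (s⁻¹ * u))) :
    opA K s n = opA K u n := by
  rw [mem_ker_opA] at hn
  have h : act K u n = act K s n := by
    have : act K u n = act K (s * (s⁻¹ * u)) n := by rw [mul_inv_cancel_left]
    rw [this, act_mul, hn]
  rw [opA_apply, opA_apply, h]

omit [Fintype X] in
theorem bdry_le_cyc : bdry K s u (X := X) ≤ cyc K s u := by
  rintro _ ⟨n, hn, rfl⟩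
  exact ⟨⟨n, rfl⟩, ⟨n, (opA_eq_of_mem_ker K s u hn).symm⟩⟩

/-- the (right) radical of the form is exactly the space of boundary loops. -/
theorem form_radical (x : cyc K s u (X := X)) :
    (∀ y, form K s u y x = 0) ↔ (x : X → K) ∈ bdry K s u := by
  obtain ⟨m₁, hm₁⟩ := x.2.1
  obtain ⟨m₂, hm₂⟩ := x.2.2
  constructor
  · intro h
    have hmem : m₁ - m₂ ∈ (ip K).orthogonal (cyc K s u (X := X)) := by
      rw [LinearMap.BilinForm.mem_orthogonal_iff]
      intro y hy
      show ip K y (m₁ - m₂) = 0
      rw [ip_comm, ← form_eq K s u x ⟨y, hy⟩ m₁ m₂ hm₁ hm₂]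
      exact h ⟨y, hy⟩
    rw [orthogonal_cyc] at hmem
    obtain ⟨fs, hfs, fu, hfu, hsum⟩ := Submodule.mem_sup.mp hmem
    refine ⟨m₁ - fs, ?_, ?_⟩
    · have e1 : opA K s (m₁ - fs) = x := by
        rw [map_sub, LinearMap.mem_ker.mp hfs, sub_zero, hm₁]
      have e2 : opA K u (m₁ - fs) = x := by
        have : m₁ - fs = m₂ + fu := by
          have h2 : m₁ = (fs + fu) + m₂ := by rw [hsum]; abel
          rw [h2]; abel
        rw [this, map_add, LinearMap.mem_ker.mp hfu, add_zero, hm₂]
      have e3 : act K s (m₁ - fs) = act K u (m₁ - fs) := by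
        have := e1.trans e2.symm
        rw [opA_apply, opA_apply] at this
        exact sub_left_injective this
      show m₁ - fs ∈ LinearMap.ker (opA K (s⁻¹ * u))
      rw [mem_ker_opA, act_mul, ← e3, act_inv_act]
    · rw [map_sub, LinearMap.mem_ker.mp hfs, sub_zero, hm₁]
  · rintro ⟨n, hn, hnx⟩ y
    rw [form_eq K s u x y n n hnx ((opA_eq_of_mem_ker K s u hn).symm.trans hnx), sub_self,
      map_zero, LinearMap.zero_apply]

/-- boundary loops as a subspace of the cycles. -/
def bdryC : Submodule K (cyc K s u (X := X)) := (bdry K s u).comap (cyc K s u).subtype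

omit [Fintype X] in
theorem mem_bdryC {x : cyc K s u (X := X)} : x ∈ bdryC K s u ↔ (x : X → K) ∈ bdry K s u :=
  Iff.rfl

theorem form_eq_zero_of_mem_bdryC_right {x : cyc K s u (X := X)} (hx : x ∈ bdryC K s u)
    (y : cyc K s u (X := X)) : form K s u y x = 0 :=
  (form_radical K s u x).2 hx y

theorem form_eq_zero_of_mem_bdryC_left (hs : ∀ m : X → K, act K s (act K s m) = m)
    {y : cyc K s u (X := X)} (hy : y ∈ bdryC K s u) (x : cyc K s u (X := X)) :
    form K s u y x = 0 := by
  rw [form_skew K s u hs, form_eq_zero_of_mem_bdryC_right K s u hy, neg_zero]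

/-- the space `V` of parabolic classes in the model: cycles modulo boundary loops. -/
abbrev parV : Type _ := cyc K s u (X := X) ⧸ bdryC K s u

/-- the intersection form on `V = cyc / bdry`. -/
def formV (hs : ∀ m : X → K, act K s (act K s m) = m) :
    parV K s u (X := X) →ₗ[K] parV K s u (X := X) →ₗ[K] K :=
  (bdryC K s u).liftQ
    { toFun := fun y => (bdryC K s u).liftQ (form K s u y) fun x hx =>
        LinearMap.mem_ker.mpr (form_eq_zero_of_mem_bdryC_right K s u hx y)
      map_add' := fun y y' => by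
        apply Submodule.linearMap_qext
        ext x
        simp
      map_smul' := fun c y => by
        apply Submodule.linearMap_qext
        ext x
        simp }
    (fun y hy => by
      rw [LinearMap.mem_ker]
      apply Submodule.linearMap_qext
      ext x
      simpa using form_eq_zero_of_mem_bdryC_left K s u hs hy x)

theorem formV_mk (hs : ∀ m : X → K, act K s (act K s m) = m) (x y : cyc K s u (X := X)) :
    formV K s u hs (Submodule.Quotient.mk y) (Submodule.Quotient.mk x) = form K s u y x := rfl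

theorem formV_skew (hs : ∀ m : X → K, act K s (act K s m) = m) (a b : parV K s u (X := X)) :
    formV K s u hs a b = - formV K s u hs b a := by
  obtain ⟨x, rfl⟩ := Submodule.Quotient.mk_surjective _ a
  obtain ⟨y, rfl⟩ := Submodule.Quotient.mk_surjective _ b
  rw [formV_mk, formV_mk, form_skew K s u hs]

/-- the form on `V` is nondegenerate (on the right). -/
theorem formV_right_nondegenerate (hs : ∀ m : X → K, act K s (act K s m) = m)
    (b : parV K s u (X := X)) (h : ∀ a, formV K s u hs a b = 0) : b = 0 := by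
  obtain ⟨x, rfl⟩ := Submodule.Quotient.mk_surjective _ b
  rw [Submodule.Quotient.mk_eq_zero, mem_bdryC, ← form_radical]
  intro y
  rw [← formV_mk K s u hs]
  exact h _

/-- the form on `V` is nondegenerate (on the left). -/
theorem formV_left_nondegenerate (hs : ∀ m : X → K, act K s (act K s m) = m)
    (a : parV K s u (X := X)) (h : ∀ b, formV K s u hs a b = 0) : a = 0 := by
  apply formV_right_nondegenerate K s u hs a
  intro b
  rw [formV_skew, h, neg_zero]

end Form

end Fermat.Agent.S41.PD
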