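/-
helper63 (P-S41, block (4) "Poincare duality", part PD2): bridge between the characters
`A2.homPE K Γ K` of a finite index subgroup `Γ ≤ SL(2, ℤ)` (with `-1 ∈ Γ`) and the abstract coset
model of `Model.lean`, with `s = S`, `u = S * T` (so that `s⁻¹ * u = T`).
-/
import Fermat.Agent.S41.PD.Model
import Fermat.Agent.Gateway.A2.OrbitSum
import Fermat.Agent.Gateway.A2.SL2Z

set_option autoImplicit false

noncomputable section

namespace Fermat.Agent.S41.PD

open Fermat.Agent.Gateway.A2 Module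

section Invariants

variable {G : Type*} [Group G] {X : Type*} [MulAction G X] (K : Type*) [Field K]

/-- restriction of a `g`-invariant function to orbit representatives. -/
def orbRestr (g : G) :
    LinearMap.ker (opA K g (X := X)) →ₗ[K]
      (MulAction.orbitRel.Quotient (Subgroup.zpowers g) X → K) where
  toFun f o := (f : X → K) (Quotient.out o)
  map_add' _ _ := rfl
  map_smul' _ _ := rfl

theorem apply_zpowers_smul {g : G} {f : X → K} (hf : f ∈ LinearMap.ker (opA K g))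
    (h : Subgroup.zpowers g) (x : X) : f ((h : G) • x) = f x := by
  rw [mem_ker_opA] at hf
  have hinv : ∀ y : X, f (g⁻¹ • y) = f y := fun y => by
    have := congrFun hf y
    rwa [act_apply] at this
  have hfw : ∀ y : X, f (g • y) = f y := fun y => by
    have := hinv (g • y)
    rw [inv_smul_smul] at this
    exact this.symm
  obtain ⟨h, ⟨k, rfl⟩⟩ := h
  show f ((g ^ k) • x) = f x
  induction k using Int.induction_on generalizing x with
  | zero => simp
  | succ n ih =>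
    rw [zpow_add_one, mul_smul, ih, hfw]
  | pred n ih =>
    rw [zpow_sub_one, mul_smul, ih, hinv]

theorem orbRestr_injective (g : G) : Function.Injective (orbRestr K g (X := X)) := by
  intro f₁ f₂ h
  apply Subtype.ext
  funext x
  set o : MulAction.orbitRel.Quotient (Subgroup.zpowers g) X := Quotient.mk'' x with ho
  have hx : (MulAction.orbitRel (Subgroup.zpowers g) X) (Quotient.out o) x :=
    Quotient.exact' (Quotient.out_eq' o)
  rw [MulAction.orbitRel_apply] at hx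
  obtain ⟨h', hh'⟩ := hx
  have e1 := apply_zpowers_smul K f₁.2 h' x
  have e2 := apply_zpowers_smul K f₂.2 h' x
  have hh'' : ((h' : G) • x) = Quotient.out o := hh'
  rw [hh''] at e1 e2
  rw [← e1, ← e2]
  exact congrFun h o

/-- pull-back of a function on orbits to an invariant function. -/
def orbPull (g : G) :
    (MulAction.orbitRel.Quotient (Subgroup.zpowers g) X → K) →ₗ[K]
      LinearMap.ker (opA K g (X := X)) where
  toFun c := ⟨fun x => c (Quotient.mk'' x), by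
    rw [mem_ker_opA]
    funext x
    rw [act_apply]
    congr 1
    apply Quotient.sound'
    rw [MulAction.orbitRel_apply]
    exact ⟨⟨g⁻¹, Subgroup.inv_mem _ (Subgroup.mem_zpowers g)⟩, rfl⟩⟩
  map_add' _ _ := rfl
  map_smul' _ _ := rfl

theorem orbPull_injective (g : G) : Function.Injective (orbPull K g (X := X)) := by
  intro c₁ c₂ h
  funext o
  obtain ⟨x, rfl⟩ := Quotient.mk''_surjective o
  exact congrFun (congrArg Subtype.val h) x

theorem finrank_ker_opA [Finite X] (g : G) :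
    finrank K (LinearMap.ker (opA K g (X := X))) = orbNum g X := by
  classical
  have : Finite (MulAction.orbitRel.Quotient (Subgroup.zpowers g) X) := Quotient.finite _
  have : Fintype X := Fintype.ofFinite X
  have h1 := LinearMap.finrank_le_finrank_of_injective (orbRestr_injective K g (X := X))
  have h2 := LinearMap.finrank_le_finrank_of_injective (orbPull_injective K g (X := X))
  rw [finrank_fun_eq_natCard] at h1 h2
  unfold orbNum
  omega

/-- vectors with vanishing orbit sums are exactly the coboundaries. -/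
theorem perKer_eq_range_opA [Finite X] (g : G) :
    perKer K g (X := X) = LinearMap.range (opA K g) := by
  classical
  have : Fintype X := Fintype.ofFinite X
  symm
  apply Submodule.eq_of_le_of_finrank_le (range_opA_le_perKer K g)
  have h1 := finrank_perKer_add_le K g (X := X)
  have h2 := finrank_range_opA_add K g (X := X)
  rw [finrank_ker_opA] at h2
  omega

end Invariants

section SL2

open scoped MatrixGroups
open ModularGroup Matrix

variable (K : Type*) [Field K] (Γ : Subgroup SL(2, ℤ))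

theorem S_mul_S : (S : SL(2, ℤ)) * S = -1 := by
  ext i j
  fin_cases i <;> fin_cases j <;> simp [coe_S, Matrix.mul_apply, Fin.sum_univ_two]

theorem neg_one_smul_coset (hneg : (-1 : SL(2, ℤ)) ∈ Γ) (x : SL(2, ℤ) ⧸ Γ) :
    (-1 : SL(2, ℤ)) • x = x := by
  obtain ⟨g, rfl⟩ := QuotientGroup.mk_surjective x
  show (((-1 : SL(2, ℤ)) * g : SL(2, ℤ)) : SL(2, ℤ) ⧸ Γ) = (g : SL(2, ℤ) ⧸ Γ)
  rw [QuotientGroup.eq]
  have h : ((-1 : SL(2, ℤ)) * g)⁻¹ * g = -1 := by
    have h1 : (-1 : SL(2, ℤ)) * g = g * (-1) := by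
      ext i j
      simp
    rw [h1, _root_.mul_inv_rev, mul_assoc, inv_mul_cancel, mul_one]
    ext i j
    fin_cases i <;> fin_cases j <;> simp
  rw [h]
  exact hneg

theorem act_S_act_S (hneg : (-1 : SL(2, ℤ)) ∈ Γ) (m : SL(2, ℤ) ⧸ Γ → K) :
    act K (S : SL(2, ℤ)) (act K (S : SL(2, ℤ)) m) = m := by
  rw [← act_mul, S_mul_S]
  funext x
  rw [act_apply]
  congr 1
  have h := neg_one_smul_coset Γ hneg ((-1 : SL(2, ℤ))⁻¹ • x)
  rw [smul_inv_smul] at h
  exact h.symm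

variable [Finite (SL(2, ℤ) ⧸ Γ)]

theorem coc_mem_range_opA {φ : Additive Γ →+ K} (hφ : φ ∈ homPE K Γ K) :
    coc φ (S : SL(2, ℤ)) ∈ LinearMap.range (opA K (S : SL(2, ℤ)) (X := SL(2, ℤ) ⧸ Γ)) ∧
    coc φ (S * T : SL(2, ℤ)) ∈ LinearMap.range (opA K (S * T : SL(2, ℤ)) (X := SL(2, ℤ) ⧸ Γ)) ∧
    coc φ (T : SL(2, ℤ)) ∈ LinearMap.range (opA K (T : SL(2, ℤ)) (X := SL(2, ℤ) ⧸ Γ)) := by
  have h3 := homPE_le_parab3 K Γ hφ
  rw [mem_parab3] at h3
  rw [← perKer_eq_range_opA, ← perKer_eq_range_opA, ← perKer_eq_range_opA]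
  exact ⟨coc_mem_perKer h3.1.1, coc_mem_perKer h3.1.2, coc_mem_perKer h3.2⟩

/-- the cycle attached to a parabolic character `φ` and a trivialisation `r` of its cocycle
along `T`. -/
def cycOf (φ : Additive Γ →+ K) (r : SL(2, ℤ) ⧸ Γ → K) : SL(2, ℤ) ⧸ Γ → K :=
  coc φ (S : SL(2, ℤ)) - opA K (S : SL(2, ℤ)) r

omit [Finite (SL(2, ℤ) ⧸ Γ)] in
theorem cycOf_eq (φ : Additive Γ →+ K) (r : SL(2, ℤ) ⧸ Γ → K)
    (hr : coc φ (T : SL(2, ℤ)) = opA K (T : SL(2, ℤ)) r) :
    cycOf K Γ φ r = coc φ (S * T : SL(2, ℤ)) - opA K (S * T : SL(2, ℤ)) r := by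
  unfold cycOf
  rw [coc_mul, hr]
  simp only [opA_apply, act_mul, map_sub]
  abel

theorem cycOf_mem {φ : Additive Γ →+ K} (hφ : φ ∈ homPE K Γ K) (r : SL(2, ℤ) ⧸ Γ → K)
    (hr : coc φ (T : SL(2, ℤ)) = opA K (T : SL(2, ℤ)) r) :
    cycOf K Γ φ r ∈ cyc K (S : SL(2, ℤ)) (S * T) := by
  obtain ⟨h1, h2, -⟩ := coc_mem_range_opA K Γ hφ
  refine ⟨?_, ?_⟩
  · exact Submodule.sub_mem _ h1 ⟨r, rfl⟩
  · rw [cycOf_eq K Γ φ r hr]
    exact Submodule.sub_mem _ h2 ⟨r, rfl⟩

omit [Finite (SL(2, ℤ) ⧸ Γ)] in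
theorem inv_S_mul_ST : (S : SL(2, ℤ))⁻¹ * (S * T) = T := inv_mul_cancel_left _ _

omit [Finite (SL(2, ℤ) ⧸ Γ)] in
/-- two trivialisations give cycles differing by a boundary loop. -/
theorem cycOf_sub_mem_bdry (φ : Additive Γ →+ K) (r r' : SL(2, ℤ) ⧸ Γ → K)
    (h : opA K (T : SL(2, ℤ)) r = opA K (T : SL(2, ℤ)) r') :
    cycOf K Γ φ r - cycOf K Γ φ r' ∈ bdry K (S : SL(2, ℤ)) (S * T) := by
  refine ⟨r' - r, ?_, ?_⟩
  · show r' - r ∈ LinearMap.ker (opA K ((S : SL(2, ℤ))⁻¹ * (S * T)))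
    rw [inv_S_mul_ST, LinearMap.mem_ker, map_sub, h, sub_self]
  · unfold cycOf
    rw [map_sub]
    abel

/-- a chosen trivialisation of the cocycle of a parabolic character along `T`. -/
def triv (φ : homPE K Γ K) : SL(2, ℤ) ⧸ Γ → K :=
  Classical.choose (coc_mem_range_opA K Γ φ.2).2.2

theorem triv_spec (φ : homPE K Γ K) :
    coc (φ : Additive Γ →+ K) (T : SL(2, ℤ)) = opA K (T : SL(2, ℤ)) (triv K Γ φ) :=
  (Classical.choose_spec (coc_mem_range_opA K Γ φ.2).2.2).symm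

/-- the class in `V = cyc / bdry` of a parabolic character (as a function). -/
def toVfun (φ : homPE K Γ K) : parV K (S : SL(2, ℤ)) (S * T) (X := SL(2, ℤ) ⧸ Γ) :=
  Submodule.Quotient.mk
    ⟨cycOf K Γ φ (triv K Γ φ), cycOf_mem K Γ φ.2 _ (triv_spec K Γ φ)⟩

theorem toVfun_eq (φ : homPE K Γ K) (r : SL(2, ℤ) ⧸ Γ → K)
    (hr : coc (φ : Additive Γ →+ K) (T : SL(2, ℤ)) = opA K (T : SL(2, ℤ)) r) :
    toVfun K Γ φ = Submodule.Quotient.mk ⟨cycOf K Γ φ r, cycOf_mem K Γ φ.2 r hr⟩ := by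
  unfold toVfun
  rw [Submodule.Quotient.eq, mem_bdryC]
  exact cycOf_sub_mem_bdry K Γ φ _ _ ((triv_spec K Γ φ).symm.trans hr)

/-- the class in `V = cyc / bdry` of a parabolic character. -/
def toV : homPE K Γ K →ₗ[K] parV K (S : SL(2, ℤ)) (S * T) (X := SL(2, ℤ) ⧸ Γ) where
  toFun := toVfun K Γ
  map_add' φ ψ := by
    have hr : coc ((φ + ψ : homPE K Γ K) : Additive Γ →+ K) (T : SL(2, ℤ))
        = opA K (T : SL(2, ℤ)) (triv K Γ φ + triv K Γ ψ) := by
      rw [Submodule.coe_add, coc_add, map_add, triv_spec, triv_spec]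
    rw [toVfun_eq K Γ (φ + ψ) _ hr]
    unfold toVfun
    rw [← Submodule.Quotient.mk_add]
    congr 1
    apply Subtype.ext
    show cycOf K Γ ((φ + ψ : homPE K Γ K) : Additive Γ →+ K) (triv K Γ φ + triv K Γ ψ)
      = cycOf K Γ φ (triv K Γ φ) + cycOf K Γ ψ (triv K Γ ψ)
    unfold cycOf
    rw [Submodule.coe_add, coc_add, map_add]
    abel
  map_smul' c φ := by
    have hr : coc ((c • φ : homPE K Γ K) : Additive Γ →+ K) (T : SL(2, ℤ))
        = opA K (T : SL(2, ℤ)) (c • triv K Γ φ) := by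
      rw [Submodule.coe_smul, coc_smul, map_smul, triv_spec]
    rw [toVfun_eq K Γ (c • φ) _ hr]
    unfold toVfun
    rw [RingHom.id_apply, ← Submodule.Quotient.mk_smul]
    congr 1
    apply Subtype.ext
    show cycOf K Γ ((c • φ : homPE K Γ K) : Additive Γ →+ K) (c • triv K Γ φ)
      = c • cycOf K Γ φ (triv K Γ φ)
    unfold cycOf
    rw [Submodule.coe_smul, coc_smul, map_smul, smul_sub]

theorem toV_eq (φ : homPE K Γ K) (r : SL(2, ℤ) ⧸ Γ → K)
    (hr : coc (φ : Additive Γ →+ K) (T : SL(2, ℤ)) = opA K (T : SL(2, ℤ)) r) :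
    toV K Γ φ = Submodule.Quotient.mk ⟨cycOf K Γ φ r, cycOf_mem K Γ φ.2 r hr⟩ :=
  toVfun_eq K Γ φ r hr

theorem toV_injective : Function.Injective (toV K Γ) := by
  rw [← LinearMap.ker_eq_bot, LinearMap.ker_eq_bot']
  intro φ h
  have h0 : toVfun K Γ φ = 0 := h
  unfold toVfun at h0
  rw [Submodule.Quotient.mk_eq_zero, mem_bdryC] at h0
  obtain ⟨n, hn, hn2⟩ := h0
  have hnT : opA K (T : SL(2, ℤ)) n = 0 := by
    have : n ∈ LinearMap.ker (opA K ((S : SL(2, ℤ))⁻¹ * (S * T))) := hn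
    rwa [inv_S_mul_ST, LinearMap.mem_ker] at this
  have hS : coc (φ : Additive Γ →+ K) (S : SL(2, ℤ))
      = opA K (S : SL(2, ℤ)) (triv K Γ φ + n) := by
    have : opA K (S : SL(2, ℤ)) n = cycOf K Γ φ (triv K Γ φ) := hn2
    unfold cycOf at this
    rw [map_add, this]
    abel
  have hT : coc (φ : Additive Γ →+ K) (T : SL(2, ℤ))
      = opA K (T : SL(2, ℤ)) (triv K Γ φ + n) := by
    rw [map_add, hnT, add_zero, triv_spec]
  have hall : ∀ g : SL(2, ℤ), coc (φ : Additive Γ →+ K) g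
      + opA K g (-(triv K Γ φ + n)) = 0 := by
    intro g
    apply coc_add_opA_eq_zero_of_mem_closure Γ K (φ : Additive Γ →+ K) (-(triv K Γ φ + n))
      ({S, T} : Set SL(2, ℤ))
    · rintro x (rfl | hx)
      · rw [hS, map_neg, add_neg_cancel]
      · rw [Set.mem_singleton_iff] at hx
        subst hx
        rw [hT, map_neg, add_neg_cancel]
    · rw [SpecialLinearGroup.SL2Z_generators]
      exact Subgroup.mem_top g
  apply Subtype.ext
  apply eq_zero_of_coc_eq_coboundary (φ : Additive Γ →+ K) (triv K Γ φ + n)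
  intro g
  have := hall g
  rw [map_neg, opA_apply] at this
  rw [← sub_eq_zero, ← this]
  abel

omit [Finite (SL(2, ℤ) ⧸ Γ)] in
/-- a function invariant under a generating set is constant. -/
theorem finrank_inf_ker_opA_le_one (a b : SL(2, ℤ))
    (hgen : Subgroup.closure ({a, b} : Set SL(2, ℤ)) = ⊤) :
    finrank K (LinearMap.ker (opA K a (X := SL(2, ℤ) ⧸ Γ)) ⊓ LinearMap.ker (opA K b) :
      Submodule K (SL(2, ℤ) ⧸ Γ → K)) ≤ 1 := by
  have hle : (LinearMap.ker (opA K a (X := SL(2, ℤ) ⧸ Γ)) ⊓ LinearMap.ker (opA K b) :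
      Submodule K (SL(2, ℤ) ⧸ Γ → K)) ≤ K ∙ (fun _ => (1 : K)) := by
    rintro f ⟨hfa, hfb⟩
    rw [SetLike.mem_coe, mem_ker_opA] at hfa hfb
    have hall : ∀ g : SL(2, ℤ), act K g f = f := by
      intro g
      have hg : g ∈ Subgroup.closure ({a, b} : Set SL(2, ℤ)) := by
        rw [hgen]; exact Subgroup.mem_top g
      induction hg using Subgroup.closure_induction with
      | mem x hx =>
        rcases hx with rfl | hx
        · exact hfa
        · rw [Set.mem_singleton_iff] at hx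
          subst hx
          exact hfb
      | one => exact act_one K f
      | mul x y _ _ hx hy => rw [act_mul, hy, hx]
      | inv x _ hx =>
        have := congrArg (act K x⁻¹) hx
        rw [act_inv_act] at this
        exact this.symm
    rw [Submodule.mem_span_singleton]
    refine ⟨f (basePt Γ), ?_⟩
    funext x
    obtain ⟨g, rfl⟩ := QuotientGroup.mk_surjective x
    have h4 := congrFun (hall g⁻¹) (basePt Γ)
    rw [act_apply, inv_inv, smul_basePt] at h4
    simp only [Pi.smul_apply, smul_eq_mul, mul_one]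
    exact h4.symm
  calc finrank K _ ≤ finrank K (K ∙ (fun _ : SL(2, ℤ) ⧸ Γ => (1 : K))) :=
        Submodule.finrank_mono hle
    _ ≤ 1 := by
        have := finrank_span_le_card (R := K)
          ({fun _ : SL(2, ℤ) ⧸ Γ => (1 : K)} : Set (SL(2, ℤ) ⧸ Γ → K))
        simpa using this

omit [Finite (SL(2, ℤ) ⧸ Γ)] in
theorem closure_S_T : Subgroup.closure ({S, T} : Set SL(2, ℤ)) = ⊤ :=
  SpecialLinearGroup.SL2Z_generators

/-- **dimension bound for the model**: `dim V + o_S + o_{ST} + o_T ≤ |X| + 2`. -/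
theorem finrank_parV_add_le [Fintype (SL(2, ℤ) ⧸ Γ)] :
    finrank K (parV K (S : SL(2, ℤ)) (S * T) (X := SL(2, ℤ) ⧸ Γ))
      + orbNum (S : SL(2, ℤ)) (SL(2, ℤ) ⧸ Γ) + orbNum (S * T : SL(2, ℤ)) (SL(2, ℤ) ⧸ Γ)
      + orbNum (T : SL(2, ℤ)) (SL(2, ℤ) ⧸ Γ)
      ≤ Nat.card (SL(2, ℤ) ⧸ Γ) + 2 := by
  classical
  -- notation
  set FS := LinearMap.ker (opA K (S : SL(2, ℤ)) (X := SL(2, ℤ) ⧸ Γ)) with hFS
  set FU := LinearMap.ker (opA K (S * T : SL(2, ℤ)) (X := SL(2, ℤ) ⧸ Γ)) with hFU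
  set FT := LinearMap.ker (opA K (T : SL(2, ℤ)) (X := SL(2, ℤ) ⧸ Γ)) with hFT
  have ha : finrank K FS = orbNum (S : SL(2, ℤ)) (SL(2, ℤ) ⧸ Γ) := finrank_ker_opA K _
  have hb : finrank K FU = orbNum (S * T : SL(2, ℤ)) (SL(2, ℤ) ⧸ Γ) := finrank_ker_opA K _
  have hc : finrank K FT = orbNum (T : SL(2, ℤ)) (SL(2, ℤ) ⧸ Γ) := finrank_ker_opA K _
  have hd : finrank K (FS ⊓ FU : Submodule K (SL(2, ℤ) ⧸ Γ → K)) ≤ 1 :=
    finrank_inf_ker_opA_le_one K Γ S (S * T) closure_S_ST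
  have hd' : finrank K (FS ⊓ FT : Submodule K (SL(2, ℤ) ⧸ Γ → K)) ≤ 1 :=
    finrank_inf_ker_opA_le_one K Γ S T closure_S_T
  have hsup := Submodule.finrank_sup_add_finrank_inf_eq FS FU
  -- dimension of the cycles
  have hcyc : finrank K (cyc K (S : SL(2, ℤ)) (S * T) (X := SL(2, ℤ) ⧸ Γ))
      = Nat.card (SL(2, ℤ) ⧸ Γ) - finrank K (FS ⊔ FU : Submodule K (SL(2, ℤ) ⧸ Γ → K)) := by
    rw [cyc_eq_orthogonal, LinearMap.BilinForm.finrank_orthogonal (ip_nondegenerate K),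
      finrank_fun_eq_natCard]
  have hsuple : finrank K (FS ⊔ FU : Submodule K (SL(2, ℤ) ⧸ Γ → K))
      ≤ Nat.card (SL(2, ℤ) ⧸ Γ) := by
    have := Submodule.finrank_le (FS ⊔ FU : Submodule K (SL(2, ℤ) ⧸ Γ → K))
    rwa [finrank_fun_eq_natCard] at this
  -- dimension of the boundary
  have hbd : finrank K FT ≤ finrank K (bdryC K (S : SL(2, ℤ)) (S * T) (X := SL(2, ℤ) ⧸ Γ)) + 1 := by
    have e1 : finrank K (bdryC K (S : SL(2, ℤ)) (S * T) (X := SL(2, ℤ) ⧸ Γ))
        = finrank K (bdry K (S : SL(2, ℤ)) (S * T) (X := SL(2, ℤ) ⧸ Γ)) :=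
      LinearEquiv.finrank_eq (Submodule.comapSubtypeEquivOfLe (bdry_le_cyc K S (S * T)))
    rw [e1]
    have hb2 : bdry K (S : SL(2, ℤ)) (S * T) (X := SL(2, ℤ) ⧸ Γ)
        = FT.map (opA K (S : SL(2, ℤ))) := by
      unfold bdry
      rw [inv_S_mul_ST]
    rw [hb2]
    have hrn := LinearMap.finrank_range_add_finrank_ker
      ((opA K (S : SL(2, ℤ)) (X := SL(2, ℤ) ⧸ Γ)).domRestrict FT)
    rw [LinearMap.range_domRestrict] at hrn
    have hker : finrank K (LinearMap.ker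
        ((opA K (S : SL(2, ℤ)) (X := SL(2, ℤ) ⧸ Γ)).domRestrict FT)) ≤ 1 := by
      refine le_trans ?_ hd'
      refine LinearMap.finrank_le_finrank_of_injective
        (f := LinearMap.codRestrict (FS ⊓ FT) (FT.subtype.comp (Submodule.subtype _)) ?_) ?_
      · rintro ⟨⟨f, hfT⟩, hf⟩
        refine ⟨?_, hfT⟩
        rw [LinearMap.mem_ker, LinearMap.domRestrict_apply] at hf
        exact hf
      · intro x y hxy
        have := congrArg Subtype.val hxy
        exact Subtype.ext (Subtype.ext this)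
    omega
  have hq : finrank K (parV K (S : SL(2, ℤ)) (S * T) (X := SL(2, ℤ) ⧸ Γ))
      + finrank K (bdryC K (S : SL(2, ℤ)) (S * T) (X := SL(2, ℤ) ⧸ Γ))
      = finrank K (cyc K (S : SL(2, ℤ)) (S * T) (X := SL(2, ℤ) ⧸ Γ)) :=
    Submodule.finrank_quotient_add_finrank
      (bdryC K (S : SL(2, ℤ)) (S * T) (X := SL(2, ℤ) ⧸ Γ))
  omega

section Pairing

variable [Fintype (SL(2, ℤ) ⧸ Γ)] (hneg : (-1 : SL(2, ℤ)) ∈ Γ)

/-- **the Poincare duality pairing** on the parabolic characters of `Γ`. -/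
def pairing : homPE K Γ K →ₗ[K] homPE K Γ K →ₗ[K] K :=
  (formV K (S : SL(2, ℤ)) (S * T) (act_S_act_S K Γ hneg)).compl₁₂ (toV K Γ) (toV K Γ)

theorem pairing_apply (φ ψ : homPE K Γ K) :
    pairing K Γ hneg φ ψ
      = formV K (S : SL(2, ℤ)) (S * T) (act_S_act_S K Γ hneg) (toV K Γ φ) (toV K Γ ψ) := rfl

theorem pairing_skew (φ ψ : homPE K Γ K) :
    pairing K Γ hneg φ ψ = - pairing K Γ hneg ψ φ := by
  rw [pairing_apply, pairing_apply, formV_skew]

/-- explicit formula: with trivialisations `r, r'` of the cocycles of `φ, ψ` along `T` and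
`cycOf ψ r' = (S - 1) m₁ = (ST - 1) m₂`, the pairing is `⟪m₁ - m₂, cycOf φ r⟫`. -/
theorem pairing_eq (φ ψ : homPE K Γ K) (r r' m₁ m₂ : SL(2, ℤ) ⧸ Γ → K)
    (hr : coc (φ : Additive Γ →+ K) (T : SL(2, ℤ)) = opA K (T : SL(2, ℤ)) r)
    (hr' : coc (ψ : Additive Γ →+ K) (T : SL(2, ℤ)) = opA K (T : SL(2, ℤ)) r')
    (h₁ : opA K (S : SL(2, ℤ)) m₁ = cycOf K Γ ψ r')
    (h₂ : opA K (S * T : SL(2, ℤ)) m₂ = cycOf K Γ ψ r') :
    pairing K Γ hneg φ ψ = ip K (m₁ - m₂) (cycOf K Γ φ r) := by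
  rw [pairing_apply, toV_eq K Γ φ r hr, toV_eq K Γ ψ r' hr', formV_mk]
  exact form_eq K _ _ ⟨cycOf K Γ ψ r', _⟩ ⟨cycOf K Γ φ r, _⟩ m₁ m₂ h₁ h₂

/-- if every class of the model comes from a character, the pairing is nondegenerate. -/
theorem pairing_nondegenerate_left (hsurj : Function.Surjective (toV K Γ)) (φ : homPE K Γ K)
    (h : ∀ ψ, pairing K Γ hneg φ ψ = 0) : φ = 0 := by
  apply toV_injective K Γ
  rw [map_zero]
  apply formV_left_nondegenerate K _ _ (act_S_act_S K Γ hneg)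
  intro b
  obtain ⟨ψ, rfl⟩ := hsurj b
  exact h ψ

theorem pairing_nondegenerate_right (hsurj : Function.Surjective (toV K Γ)) (ψ : homPE K Γ K)
    (h : ∀ φ, pairing K Γ hneg φ ψ = 0) : ψ = 0 := by
  apply pairing_nondegenerate_left K Γ hneg hsurj ψ
  intro φ
  rw [pairing_skew, h, neg_zero]

/-- surjectivity of `toV` from a lower bound on the number of parabolic characters. -/
theorem toV_surjective_of_le
    (h : Nat.card (SL(2, ℤ) ⧸ Γ) + 2 ≤ finrank K (homPE K Γ K)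
      + orbNum (S : SL(2, ℤ)) (SL(2, ℤ) ⧸ Γ) + orbNum (S * T : SL(2, ℤ)) (SL(2, ℤ) ⧸ Γ)
      + orbNum (T : SL(2, ℤ)) (SL(2, ℤ) ⧸ Γ)) :
    Function.Surjective (toV K Γ) := by
  have h1 := finrank_parV_add_le K Γ
  have h2 : finrank K (parV K (S : SL(2, ℤ)) (S * T) (X := SL(2, ℤ) ⧸ Γ))
      ≤ finrank K (homPE K Γ K) := by omega
  have hfin : Module.Finite K (homPE K Γ K) := (finrank_homPE_add_le K Γ).1
  have h3 := LinearMap.finrank_range_of_inj (toV_injective K Γ)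
  rw [← LinearMap.range_eq_top]
  apply Submodule.eq_top_of_finrank_eq
  have h4 := Submodule.finrank_le (LinearMap.range (toV K Γ))
  omega

end Pairing

end SL2

end Fermat.Agent.S41.PD
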