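/-
helper63 (P-S41, block (4) "Poincare duality", part PD2b): for `Γ = Γ₀(N)` and `K = ZMod p` every
class of the coset model comes from a parabolic character (dimension count: `2g` on both sides),
hence the pairing of `Bridge.lean` is nondegenerate.
-/
import Fermat.Agent.S41.PD.Bridge
import Fermat.Agent.Gateway.A2.Uncond

set_option autoImplicit false

noncomputable section

namespace Fermat.Agent.S41.PD

open Fermat.Agent.Gateway.A2 Fermat.Agent.Gateway.A2.Count Module CongruenceSubgroup ModularCurve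
  Fermat.Agent.S24.PartV

open scoped MatrixGroups
open ModularGroup

variable (N : ℕ) [NeZero N]

omit [NeZero N] in
theorem neg_one_mem_Gamma0 : (-1 : SL(2, ℤ)) ∈ Gamma0 N := by
  rw [Gamma0_mem]
  simp

/-- a (noncomputable) `Fintype` structure on the coset space; local instance only. -/
@[reducible] def fintypeCosetGamma0 : Fintype (SL(2, ℤ) ⧸ Gamma0 N) := Fintype.ofFinite _

attribute [local instance] fintypeCosetGamma0

variable (p : ℕ) [Fact p.Prime]

/-- `dim homPE(Γ₀(N), 𝔽_p) = 2 g`. -/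
theorem finrank_homPE_Gamma0_zmod :
    finrank (ZMod p) (homPE (ZMod p) (Gamma0 N) (ZMod p)) = 2 * genusNat N := by
  have hp : NeZero p := ⟨(Fact.out : p.Prime).ne_zero⟩
  have hcard := ((a2_Gamma0_genusNat N).2 p).1
  have hfin : Module.Finite (ZMod p) (homPE (ZMod p) (Gamma0 N) (ZMod p)) :=
    (finrank_homPE_add_le (ZMod p) (Gamma0 N)).1
  have h2 := Module.natCard_eq_pow_finrank (K := ZMod p)
    (V := homPE (ZMod p) (Gamma0 N) (ZMod p))
  rw [Nat.card_zmod, hcard] at h2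
  exact (Nat.pow_right_injective (Fact.out : p.Prime).two_le h2).symm

theorem toV_surjective_Gamma0 : Function.Surjective (toV (ZMod p) (Gamma0 N)) := by
  apply toV_surjective_of_le
  rw [finrank_homPE_Gamma0_zmod]
  have h2 := two_mul_orbCount_S N
  have h3 := three_mul_orbCount_ST N
  have hT := orbCount_T N
  have hn := card_coset N
  have hg := genusNat_cast N
  unfold genusFormula at hg
  change Nat.card (SL(2, ℤ) ⧸ Gamma0 N) + 2 ≤ 2 * genusNat N
    + orbCount (SL(2, ℤ) ⧸ Gamma0 N) S + orbCount (SL(2, ℤ) ⧸ Gamma0 N) (S * T)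
    + orbCount (SL(2, ℤ) ⧸ Gamma0 N) T
  rw [hT, hn]
  have h2' : (2 : ℚ) * (orbCount (SL(2, ℤ) ⧸ Gamma0 N) S : ℚ)
      = (dedekindPsi N : ℚ) + (nuTwo N : ℚ) := by
    exact_mod_cast h2
  have h3' : (3 : ℚ) * (orbCount (SL(2, ℤ) ⧸ Gamma0 N) (S * T) : ℚ) =
      (dedekindPsi N : ℚ) + 2 * (nuThree N : ℚ) := by
    exact_mod_cast h3
  have key : ((dedekindPsi N : ℚ) + 2 : ℚ) ≤ 2 * (genusNat N : ℚ)
      + (orbCount (SL(2, ℤ) ⧸ Gamma0 N) S : ℚ) + (orbCount (SL(2, ℤ) ⧸ Gamma0 N) (S * T) : ℚ)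
      + (cuspCount N : ℚ) := by
    rw [hg]
    linarith
  exact_mod_cast key

/-- the Poincare duality pairing on `H¹_par(Γ₀(N), 𝔽_p)`. -/
def pairingGamma0 :
    homPE (ZMod p) (Gamma0 N) (ZMod p) →ₗ[ZMod p]
      homPE (ZMod p) (Gamma0 N) (ZMod p) →ₗ[ZMod p] ZMod p :=
  pairing (ZMod p) (Gamma0 N) (neg_one_mem_Gamma0 N)

theorem pairingGamma0_skew (φ ψ : homPE (ZMod p) (Gamma0 N) (ZMod p)) :
    pairingGamma0 N p φ ψ = - pairingGamma0 N p ψ φ :=
  pairing_skew _ _ _ φ ψ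

theorem pairingGamma0_nondegenerate_left (φ : homPE (ZMod p) (Gamma0 N) (ZMod p))
    (h : ∀ ψ, pairingGamma0 N p φ ψ = 0) : φ = 0 :=
  pairing_nondegenerate_left _ _ _ (toV_surjective_Gamma0 N p) φ h

theorem pairingGamma0_nondegenerate_right (ψ : homPE (ZMod p) (Gamma0 N) (ZMod p))
    (h : ∀ φ, pairingGamma0 N p φ ψ = 0) : ψ = 0 :=
  pairing_nondegenerate_right _ _ _ (toV_surjective_Gamma0 N p) ψ h

end Fermat.Agent.S41.PD
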