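/-
helper63 (P-S41, block (B5)): the image `degRange N q ≤ SL(2, ℤ)` of the second degeneracy map
`degConj N q : Γ₀(N q) →* Γ₀(N)` (conjugation by `diag(q, 1)`), the isomorphism
`degEquiv : Γ₀(N q) ≃* degRange N q`, and the factorisation of `res₂`, `cor₂` through it.
-/
import Fermat.Agent.S41.Defs

set_option autoImplicit false

namespace Fermat.Agent.S41.PD

open CongruenceSubgroup Matrix Fermat.Agent.S41
open scoped MatrixGroups

section General

variable {G'' G' G : Type*} [Group G''] [Group G'] [Group G]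

theorem range_comp_mulEquiv (e : G'' ≃* G') (j : G' →* G) :
    (j.comp e.toMonoidHom).range = j.range := by
  ext g
  constructor
  · rintro ⟨x, rfl⟩
    exact ⟨e x, rfl⟩
  · rintro ⟨y, rfl⟩
    exact ⟨e.symm y, by simp⟩

/-- corestriction along `j ∘ e` for an isomorphism `e` is corestriction along `j` of the
transported character. -/
theorem corAlong_comp_mulEquiv (e : G'' ≃* G') (j : G' →* G) (hj : Function.Injective j)
    (hje : Function.Injective (j.comp e.toMonoidHom))
    [j.range.FiniteIndex] [(j.comp e.toMonoidHom).range.FiniteIndex]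
    (A : Type*) [AddCommGroup A] (ψ : Additive G'' →+ A) :
    corAlong (j.comp e.toMonoidHom) hje A ψ
      = corAlong j hj A (ψ.comp (MonoidHom.toAdditive e.symm.toMonoidHom)) := by
  classical
  apply AddMonoidHom.ext
  intro g'
  obtain ⟨g, rfl⟩ := Additive.ofMul.surjective g'
  let _ : Fintype (G ⧸ j.range) := j.range.fintypeQuotientOfFiniteIndex
  -- a common system of representatives
  let r : G ⧸ j.range → G := Quotient.out
  have hr1 : Function.Bijective (fun i : G ⧸ j.range => (r i : G ⧸ j.range)) := by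
    have : (fun i : G ⧸ j.range => (r i : G ⧸ j.range)) = id := by
      funext i
      exact QuotientGroup.out_eq' i
    rw [this]
    exact Function.bijective_id
  have heq := range_comp_mulEquiv e j
  have hr2 : Function.Bijective
      (fun i : G ⧸ j.range => (r i : G ⧸ (j.comp e.toMonoidHom).range)) := by
    have : (fun i : G ⧸ j.range => (r i : G ⧸ (j.comp e.toMonoidHom).range))
        = (Subgroup.quotientEquivOfEq heq).symm ∘
          (fun i : G ⧸ j.range => (r i : G ⧸ j.range)) := by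
      funext i
      rfl
    rw [this]
    exact (Subgroup.quotientEquivOfEq heq).symm.bijective.comp hr1
  -- the permutation and the elements of `G'`
  let σ : G ⧸ j.range → G ⧸ j.range := fun i => g • i
  have hmem : ∀ i : G ⧸ j.range, (r (σ i))⁻¹ * (g * r i) ∈ j.range := by
    intro i
    rw [← QuotientGroup.eq]
    show (r (g • i) : G ⧸ j.range) = ((g * r i : G) : G ⧸ j.range)
    rw [QuotientGroup.out_eq']
    show g • i = g • ((r i : G) : G ⧸ j.range)
    rw [QuotientGroup.out_eq']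
  let h' : G ⧸ j.range → G' := fun i => Classical.choose (hmem i)
  have hh' : ∀ i, j (h' i) = (r (σ i))⁻¹ * (g * r i) := fun i => Classical.choose_spec (hmem i)
  have hg1 : ∀ i, g * r i = r (σ i) * j (h' i) := by
    intro i
    rw [hh', mul_inv_cancel_left]
  have hg2 : ∀ i, g * r i = r (σ i) * (j.comp e.toMonoidHom) (e.symm (h' i)) := by
    intro i
    rw [hg1 i]
    simp
  rw [corAlong_apply_of_reps (j.comp e.toMonoidHom) hje A ψ r hr2 g σ (fun i => e.symm (h' i)) hg2,
    corAlong_apply_of_reps j hj A _ r hr1 g σ h' hg1]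
  rfl

end General

section Deg

variable (N q : ℕ) [NeZero q]

/-- the image of `degConj` as a subgroup of `SL(2, ℤ)`. -/
def degRange : Subgroup SL(2, ℤ) := ((degConj N q).range).map (Gamma0 N).subtype

theorem mem_degRange {g : SL(2, ℤ)} :
    g ∈ degRange N q ↔ ∃ γ : Gamma0 (N * q), degSL N q γ = g := by
  constructor
  · rintro ⟨_, ⟨γ, rfl⟩, rfl⟩
    exact ⟨γ, rfl⟩
  · rintro ⟨γ, rfl⟩
    exact ⟨degConj N q γ, ⟨γ, rfl⟩, rfl⟩

theorem degRange_le : degRange N q ≤ Gamma0 N := by
  intro g hg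
  obtain ⟨γ, rfl⟩ := (mem_degRange N q).mp hg
  exact degSL_mem N q γ

/-- `γ ↦ diag(q,1) γ diag(q,1)⁻¹` as a homomorphism onto `degRange`. -/
def degHom : Gamma0 (N * q) →* degRange N q where
  toFun γ := ⟨degSL N q γ, (mem_degRange N q).mpr ⟨γ, rfl⟩⟩
  map_one' := Subtype.ext (degSL_one N q)
  map_mul' γ γ' := Subtype.ext (degSL_mul N q γ γ')

theorem degHom_bijective : Function.Bijective (degHom N q) := by
  refine ⟨fun γ γ' h => degConj_injective N q (Subtype.ext ?_), fun ⟨g, hg⟩ => ?_⟩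
  · exact congrArg (fun x : degRange N q => (x : SL(2, ℤ))) h
  · obtain ⟨γ, rfl⟩ := (mem_degRange N q).mp hg
    exact ⟨γ, rfl⟩

/-- the isomorphism `Γ₀(N q) ≃* degRange N q`, `γ ↦ diag(q,1) γ diag(q,1)⁻¹`. -/
noncomputable def degEquiv : Gamma0 (N * q) ≃* degRange N q :=
  MulEquiv.ofBijective (degHom N q) (degHom_bijective N q)

@[simp] theorem degEquiv_coe (γ : Gamma0 (N * q)) :
    ((degEquiv N q γ : degRange N q) : SL(2, ℤ)) = degSL N q γ := rfl

/-- the inclusion `degRange N q → Γ₀(N)`. -/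
def inclDeg : degRange N q →* Gamma0 N := Subgroup.inclusion (degRange_le N q)

theorem inclDeg_injective : Function.Injective (inclDeg N q) := Subgroup.inclusion_injective _

theorem degConj_eq_comp :
    degConj N q = (inclDeg N q).comp (degEquiv N q).toMonoidHom := by
  apply MonoidHom.ext
  intro γ
  apply Subtype.ext
  rfl

omit [NeZero q] in
/-- the matrix identity `diag(q,1) * γ = degSL γ * diag(q,1)`. -/
theorem diag_mul_eq (γ : Gamma0 (N * q)) :
    !![(q : ℤ), 0; 0, 1] * ((γ : SL(2, ℤ)) : Matrix (Fin 2) (Fin 2) ℤ)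
      = (degSL N q γ : Matrix (Fin 2) (Fin 2) ℤ) * !![(q : ℤ), 0; 0, 1] := by
  have h := q_mul_degSL_one_zero N q γ
  ext i j
  fin_cases i <;> fin_cases j
  · show (!![(q : ℤ), 0; 0, 1] * ((γ : SL(2, ℤ)) : Matrix (Fin 2) (Fin 2) ℤ)) 0 0
      = ((degSL N q γ : Matrix (Fin 2) (Fin 2) ℤ) * !![(q : ℤ), 0; 0, 1]) 0 0
    rw [Matrix.mul_apply, Matrix.mul_apply, Fin.sum_univ_two, Fin.sum_univ_two, degSL_zero_zero,
      degSL_zero_one]
    simp
    ring
  · show (!![(q : ℤ), 0; 0, 1] * ((γ : SL(2, ℤ)) : Matrix (Fin 2) (Fin 2) ℤ)) 0 1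
      = ((degSL N q γ : Matrix (Fin 2) (Fin 2) ℤ) * !![(q : ℤ), 0; 0, 1]) 0 1
    rw [Matrix.mul_apply, Matrix.mul_apply, Fin.sum_univ_two, Fin.sum_univ_two, degSL_zero_zero,
      degSL_zero_one]
    simp
  · show (!![(q : ℤ), 0; 0, 1] * ((γ : SL(2, ℤ)) : Matrix (Fin 2) (Fin 2) ℤ)) 1 0
      = ((degSL N q γ : Matrix (Fin 2) (Fin 2) ℤ) * !![(q : ℤ), 0; 0, 1]) 1 0
    rw [Matrix.mul_apply, Matrix.mul_apply, Fin.sum_univ_two, Fin.sum_univ_two, degSL_one_one]
    simp
    linarith [mul_ediv_of_mem_Gamma0_mul N q γ.2]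
  · show (!![(q : ℤ), 0; 0, 1] * ((γ : SL(2, ℤ)) : Matrix (Fin 2) (Fin 2) ℤ)) 1 1
      = ((degSL N q γ : Matrix (Fin 2) (Fin 2) ℤ) * !![(q : ℤ), 0; 0, 1]) 1 1
    rw [Matrix.mul_apply, Matrix.mul_apply, Fin.sum_univ_two, Fin.sum_univ_two, degSL_one_one]
    simp

theorem neg_one_mem_Gamma0' (M : ℕ) : (-1 : SL(2, ℤ)) ∈ Gamma0 M := by
  rw [Gamma0_mem]
  simp

theorem neg_one_mem_degRange : (-1 : SL(2, ℤ)) ∈ degRange N q := by
  rw [mem_degRange]
  refine ⟨⟨-1, neg_one_mem_Gamma0' (N * q)⟩, ?_⟩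
  ext i j
  fin_cases i <;> fin_cases j
  · show (degSL N q ⟨-1, _⟩) 0 0 = (-1 : SL(2, ℤ)) 0 0
    rw [degSL_zero_zero]
  · show (degSL N q ⟨-1, _⟩) 0 1 = (-1 : SL(2, ℤ)) 0 1
    rw [degSL_zero_one]
    simp
  · show (degSL N q ⟨-1, _⟩) 1 0 = (-1 : SL(2, ℤ)) 1 0
    rw [degSL_one_zero]
    simp
  · show (degSL N q ⟨-1, _⟩) 1 1 = (-1 : SL(2, ℤ)) 1 1
    rw [degSL_one_one]

theorem Gamma_le_degRange : Gamma (N * q) ≤ degRange N q := by
  intro g hg
  have hg0 : g ∈ Gamma0 N := by
    have h1 : g ∈ Gamma0 (N * q) := by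
      rw [Gamma_mem] at hg
      rw [Gamma0_mem]
      exact hg.2.2.1
    exact Gamma0_mul_le N q h1
  obtain ⟨γ, hγ⟩ := mem_range_degConj_of_mem_Gamma N q ⟨g, hg0⟩ hg
  rw [mem_degRange]
  exact ⟨γ, congrArg (fun x : Gamma0 N => (x : SL(2, ℤ))) hγ⟩

instance degRange_finiteIndex [NeZero N] : (degRange N q).FiniteIndex := by
  haveI : NeZero (N * q) := ⟨Nat.mul_ne_zero (NeZero.ne N) (NeZero.ne q)⟩
  exact Subgroup.finiteIndex_of_le (Gamma_le_degRange N q)

instance finite_quotient_degRange [NeZero N] : Finite (SL(2, ℤ) ⧸ degRange N q) :=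
  Subgroup.finite_quotient_of_finiteIndex

end Deg

section Chars

variable (N q : ℕ) [NeZero q] (A : Type*) [AddCommGroup A]

theorem corAlong_congr {G' G : Type*} [Group G'] [Group G] {j j' : G' →* G} (h : j = j')
    (hj : Function.Injective j) (hj' : Function.Injective j')
    [j.range.FiniteIndex] [j'.range.FiniteIndex] (ψ : Additive G' →+ A) :
    corAlong j hj A ψ = corAlong j' hj' A ψ := by
  subst h
  rfl

/-- `res₂` is restriction to `degRange` followed by transport along `degEquiv`. -/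
theorem res₂_eq (φ : Additive (Gamma0 N) →+ A) :
    res₂ N q A φ
      = (resAlong (inclDeg N q) A φ).comp (MonoidHom.toAdditive (degEquiv N q).toMonoidHom) := by
  apply AddMonoidHom.ext
  intro γ
  rfl

instance inclDeg_range_finiteIndex [NeZero N] : (inclDeg N q).range.FiniteIndex := by
  have h := degConj_range_finiteIndex N q
  rw [degConj_eq_comp, range_comp_mulEquiv] at h
  exact h

/-- `cor₂` is transport along `degEquiv⁻¹` followed by corestriction from `degRange`. -/
theorem cor₂_eq [NeZero N] (ψ : Additive (Gamma0 (N * q)) →+ A) :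
    cor₂ N q A ψ
      = corAlong (inclDeg N q) (inclDeg_injective N q) A
          (ψ.comp (MonoidHom.toAdditive (degEquiv N q).symm.toMonoidHom)) := by
  have hje : Function.Injective ((inclDeg N q).comp (degEquiv N q).toMonoidHom) :=
    (inclDeg_injective N q).comp (degEquiv N q).injective
  haveI : ((inclDeg N q).comp (degEquiv N q).toMonoidHom).range.FiniteIndex := by
    rw [range_comp_mulEquiv]
    infer_instance
  rw [← corAlong_comp_mulEquiv (degEquiv N q) (inclDeg N q) (inclDeg_injective N q) hje A ψ]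
  exact corAlong_congr A (degConj_eq_comp N q) _ _ ψ

end Chars

end Fermat.Agent.S41.PD
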