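/-
helper63 (P-S41, block (B5)): the consumer theorem (I2) of the Poincare duality block.

* `ResCorAdjoint`, `ConjInvariant` : the statements of (PD5) (restriction/corestriction are adjoint
  for an inclusion of subgroups) and (PD6) (the pairing is invariant under conjugation by a
  rational matrix of positive determinant), as `Prop`s;
* `pairingGamma0_res₁_cor₁`, `pairingGamma0_res₂_cor₂` : (I2)(ii) for the degeneracy maps of
  `S41/Defs.lean`, from (PD5) and (PD6);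
* `pairingGamma0_selfAdjoint_of_eq` : an operator `cor₁ res₂ = cor₂ res₁` is self-adjoint;
* `range_le_range_of_adjoint`, `exists_cor_eq_of_kills_ker` : the only consequence used by the
  final algebra: an operator `η` on `H(N)²` which is self-adjoint and kills `ker α` has its image in
  `range β`.
-/
import Fermat.Agent.S41.PD.BridgeGamma0
import Fermat.Agent.S41.PD.DegRange

set_option autoImplicit false

namespace Fermat.Agent.S41.PD

open Fermat.Agent.Gateway.A2 CongruenceSubgroup Fermat.Agent.S41 Module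
open scoped MatrixGroups

section Abstract

variable {K V W : Type*} [Field K] [AddCommGroup V] [Module K V] [FiniteDimensional K V]
  [AddCommGroup W] [Module K W]

/-- **duality lemma**: if `b` is adjoint to `a` for nondegenerate forms and `e` is self-adjoint and
kills `ker a`, then `range e ≤ range b`. -/
theorem range_le_range_of_adjoint (BV : LinearMap.BilinForm K V) (BW : LinearMap.BilinForm K W)
    (hBV : BV.Nondegenerate) (hrefl : BV.IsRefl) (hBW : ∀ w, (∀ w', BW w w' = 0) → w = 0)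
    (a : V →ₗ[K] W) (b : W →ₗ[K] V) (hab : ∀ v w, BW (a v) w = BV v (b w))
    (e : V →ₗ[K] V) (he : ∀ v v', BV (e v) v' = BV v (e v')) (hker : ∀ v, a v = 0 → e v = 0) :
    LinearMap.range e ≤ LinearMap.range b := by
  have h1 : BV.orthogonal (LinearMap.range b) = LinearMap.ker a := by
    ext v
    rw [LinearMap.BilinForm.mem_orthogonal_iff, LinearMap.mem_ker]
    constructor
    · intro h
      apply hBW
      intro w
      rw [hab]
      exact hrefl _ _ (h (b w) ⟨w, rfl⟩)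
    · rintro h _ ⟨w, rfl⟩
      show BV (b w) v = 0
      apply hrefl
      rw [← hab, h, map_zero, LinearMap.zero_apply]
  have h2 : LinearMap.range b = BV.orthogonal (LinearMap.ker a) := by
    rw [← h1, LinearMap.BilinForm.orthogonal_orthogonal hBV hrefl]
  rw [h2]
  rintro _ ⟨v, rfl⟩
  rw [LinearMap.BilinForm.mem_orthogonal_iff]
  intro k hk
  show BV k (e v) = 0
  rw [← he, hker k (LinearMap.mem_ker.mp hk), map_zero, LinearMap.zero_apply]

end Abstract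

section Interfaces

variable (K : Type*) [Field K]

/-- statement of (PD5): for `Γ₂ ≤ Γ₁` restriction and corestriction (Mathlib transfer) of
parabolic characters are adjoint for the duality pairings. -/
def ResCorAdjoint (Γ₁ Γ₂ : Subgroup SL(2, ℤ)) (h : Γ₂ ≤ Γ₁)
    [Fintype (SL(2, ℤ) ⧸ Γ₁)] [Fintype (SL(2, ℤ) ⧸ Γ₂)]
    [(Subgroup.inclusion h).range.FiniteIndex] (hneg : (-1 : SL(2, ℤ)) ∈ Γ₂) : Prop :=
  ∀ (φ : homPE K Γ₁ K) (ψ : homPE K Γ₂ K)
    (hres : resAlong (Subgroup.inclusion h) K (φ : Additive Γ₁ →+ K) ∈ homPE K Γ₂ K)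
    (hcor : corAlong (Subgroup.inclusion h) (Subgroup.inclusion_injective h) K
      (ψ : Additive Γ₂ →+ K) ∈ homPE K Γ₁ K),
    pairing K Γ₂ hneg ⟨_, hres⟩ ψ = pairing K Γ₁ (h hneg) φ ⟨_, hcor⟩

/-- statement of (PD6): the duality pairing is invariant under the isomorphism `c`. -/
def ConjInvariant (Γ₁ Γ₂ : Subgroup SL(2, ℤ)) (c : Γ₁ ≃* Γ₂)
    [Fintype (SL(2, ℤ) ⧸ Γ₁)] [Fintype (SL(2, ℤ) ⧸ Γ₂)]
    (h₁ : (-1 : SL(2, ℤ)) ∈ Γ₁) (h₂ : (-1 : SL(2, ℤ)) ∈ Γ₂) : Prop :=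
  ∀ (φ ψ : homPE K Γ₂ K)
    (hφ : (φ : Additive Γ₂ →+ K).comp (MonoidHom.toAdditive c.toMonoidHom) ∈ homPE K Γ₁ K)
    (hψ : (ψ : Additive Γ₂ →+ K).comp (MonoidHom.toAdditive c.toMonoidHom) ∈ homPE K Γ₁ K),
    pairing K Γ₁ h₁ ⟨_, hφ⟩ ⟨_, hψ⟩ = pairing K Γ₂ h₂ φ ψ

end Interfaces

section Membership

variable {R : Type*} [Semiring R] {B : Type*} [AddCommGroup B] [Module R B]

theorem resAlong_inclusion_mem_homPE {Γ₁ Γ₂ : Subgroup SL(2, ℤ)} (h : Γ₂ ≤ Γ₁)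
    {φ : Additive Γ₁ →+ B} (hφ : φ ∈ homPE R Γ₁ B) :
    resAlong (Subgroup.inclusion h) B φ ∈ homPE R Γ₂ B :=
  fun γ hγ => hφ (Subgroup.inclusion h γ) hγ

variable (N q : ℕ)

theorem isPE_degSL (γ : Gamma0 (N * q)) : IsPE (degSL N q γ) ↔ IsPE (γ : SL(2, ℤ)) := by
  unfold IsPE
  rw [Matrix.trace_fin_two, Matrix.trace_fin_two]
  have h0 : (degSL N q γ : Matrix (Fin 2) (Fin 2) ℤ) 0 0 = (γ : SL(2, ℤ)) 0 0 :=
    degSL_zero_zero N q γ
  have h1 : (degSL N q γ : Matrix (Fin 2) (Fin 2) ℤ) 1 1 = (γ : SL(2, ℤ)) 1 1 :=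
    degSL_one_one N q γ
  rw [h0, h1]

theorem res₁_mem_homPE {φ : Additive (Gamma0 N) →+ B} (hφ : φ ∈ homPE R (Gamma0 N) B) :
    res₁ N q B φ ∈ homPE R (Gamma0 (N * q)) B :=
  resAlong_inclusion_mem_homPE (Gamma0_mul_le N q) hφ

variable [NeZero q]

theorem res₂_mem_homPE {φ : Additive (Gamma0 N) →+ B} (hφ : φ ∈ homPE R (Gamma0 N) B) :
    res₂ N q B φ ∈ homPE R (Gamma0 (N * q)) B :=
  fun γ hγ => hφ (degConj N q γ) ((isPE_degSL N q γ).mpr hγ)

/-- transport of a parabolic character of `degRange` to `Γ₀(N q)`. -/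
theorem comp_degEquiv_mem_homPE {φ : Additive (degRange N q) →+ B}
    (hφ : φ ∈ homPE R (degRange N q) B) :
    φ.comp (MonoidHom.toAdditive (degEquiv N q).toMonoidHom) ∈ homPE R (Gamma0 (N * q)) B :=
  fun γ hγ => hφ (degEquiv N q γ) ((isPE_degSL N q γ).mpr hγ)

/-- transport of a parabolic character of `Γ₀(N q)` to `degRange`. -/
theorem comp_degEquiv_symm_mem_homPE {ψ : Additive (Gamma0 (N * q)) →+ B}
    (hψ : ψ ∈ homPE R (Gamma0 (N * q)) B) :
    ψ.comp (MonoidHom.toAdditive (degEquiv N q).symm.toMonoidHom) ∈ homPE R (degRange N q) B := by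
  intro g hg
  apply hψ ((degEquiv N q).symm g)
  rw [← isPE_degSL N q]
  have : degSL N q ((degEquiv N q).symm g) = (g : SL(2, ℤ)) := by
    rw [← degEquiv_coe, MulEquiv.apply_symm_apply]
  rw [this]
  exact hg

end Membership

section Adjointness

variable (N q : ℕ) [NeZero N] [NeZero q] (p : ℕ) [Fact p.Prime]

attribute [local instance] fintypeCosetGamma0

/-- a (noncomputable) `Fintype` structure on the coset space; local instance only. -/
@[reducible] noncomputable def fintypeCosetDegRange : Fintype (SL(2, ℤ) ⧸ degRange N q) :=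
  Fintype.ofFinite _

attribute [local instance] fintypeCosetDegRange

/-- the instance needed to state (PD5) for `Γ₀(N q) ≤ Γ₀(N)`. -/
theorem inclusion_Gamma0_range_finiteIndex :
    (Subgroup.inclusion (Gamma0_mul_le N q)).range.FiniteIndex :=
  incl_range_finiteIndex N q

/-- the instance needed to state (PD5) for `degRange N q ≤ Γ₀(N)`. -/
theorem inclusion_degRange_range_finiteIndex :
    (Subgroup.inclusion (degRange_le N q)).range.FiniteIndex :=
  inclDeg_range_finiteIndex N q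

attribute [local instance] inclusion_Gamma0_range_finiteIndex inclusion_degRange_range_finiteIndex

/-- **(I2)(ii), first degeneracy map**: `w_{N q}(res₁ φ, ψ) = w_N(φ, cor₁ ψ)`. -/
theorem pairingGamma0_res₁_cor₁
    (hPD5 : ResCorAdjoint (ZMod p) (Gamma0 N) (Gamma0 (N * q)) (Gamma0_mul_le N q)
      (neg_one_mem_Gamma0 (N * q)))
    (φ : homPE (ZMod p) (Gamma0 N) (ZMod p)) (ψ : homPE (ZMod p) (Gamma0 (N * q)) (ZMod p))
    (hcor : cor₁ N q (ZMod p) (ψ : Additive (Gamma0 (N * q)) →+ ZMod p)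
      ∈ homPE (ZMod p) (Gamma0 N) (ZMod p)) :
    pairingGamma0 (N * q) p ⟨res₁ N q (ZMod p) (φ : Additive (Gamma0 N) →+ ZMod p),
        res₁_mem_homPE N q φ.2⟩ ψ
      = pairingGamma0 N p φ ⟨cor₁ N q (ZMod p) (ψ : Additive (Gamma0 (N * q)) →+ ZMod p), hcor⟩ :=
  hPD5 φ ψ (res₁_mem_homPE N q φ.2) hcor

/-- **(I2)(ii), second degeneracy map**: `w_{N q}(res₂ φ, ψ) = w_N(φ, cor₂ ψ)`. -/
theorem pairingGamma0_res₂_cor₂
    (hPD5 : ResCorAdjoint (ZMod p) (Gamma0 N) (degRange N q) (degRange_le N q)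
      (neg_one_mem_degRange N q))
    (hPD6 : ConjInvariant (ZMod p) (Gamma0 (N * q)) (degRange N q) (degEquiv N q)
      (neg_one_mem_Gamma0 (N * q)) (neg_one_mem_degRange N q))
    (φ : homPE (ZMod p) (Gamma0 N) (ZMod p)) (ψ : homPE (ZMod p) (Gamma0 (N * q)) (ZMod p))
    (hcor : cor₂ N q (ZMod p) (ψ : Additive (Gamma0 (N * q)) →+ ZMod p)
      ∈ homPE (ZMod p) (Gamma0 N) (ZMod p)) :
    pairingGamma0 (N * q) p ⟨res₂ N q (ZMod p) (φ : Additive (Gamma0 N) →+ ZMod p),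
        res₂_mem_homPE N q φ.2⟩ ψ
      = pairingGamma0 N p φ ⟨cor₂ N q (ZMod p) (ψ : Additive (Gamma0 (N * q)) →+ ZMod p), hcor⟩ := by
  -- the characters on `degRange`
  have hφ' : resAlong (Subgroup.inclusion (degRange_le N q)) (ZMod p)
      (φ : Additive (Gamma0 N) →+ ZMod p) ∈ homPE (ZMod p) (degRange N q) (ZMod p) :=
    resAlong_inclusion_mem_homPE (degRange_le N q) φ.2
  have hψ' := comp_degEquiv_symm_mem_homPE (R := ZMod p) N q ψ.2
  -- (PD6)
  have h6 := hPD6 ⟨_, hφ'⟩ ⟨_, hψ'⟩ (comp_degEquiv_mem_homPE N q hφ')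
    (comp_degEquiv_mem_homPE N q hψ')
  -- (PD5)
  have hcor' : corAlong (Subgroup.inclusion (degRange_le N q))
      (Subgroup.inclusion_injective (degRange_le N q)) (ZMod p)
      ((ψ : Additive (Gamma0 (N * q)) →+ ZMod p).comp
        (MonoidHom.toAdditive (degEquiv N q).symm.toMonoidHom))
      ∈ homPE (ZMod p) (Gamma0 N) (ZMod p) := by
    have := cor₂_eq N q (ZMod p) (ψ : Additive (Gamma0 (N * q)) →+ ZMod p)
    rw [this] at hcor
    exact hcor
  have h5 := hPD5 φ ⟨_, hψ'⟩ hφ' hcor'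
  -- assemble
  have e1 : (⟨res₂ N q (ZMod p) (φ : Additive (Gamma0 N) →+ ZMod p), res₂_mem_homPE N q φ.2⟩ :
      homPE (ZMod p) (Gamma0 (N * q)) (ZMod p))
      = ⟨_, comp_degEquiv_mem_homPE N q hφ'⟩ := by
    apply Subtype.ext
    exact res₂_eq N q (ZMod p) (φ : Additive (Gamma0 N) →+ ZMod p)
  have e2 : ψ = ⟨_, comp_degEquiv_mem_homPE N q hψ'⟩ := by
    apply Subtype.ext
    apply AddMonoidHom.ext
    intro γ
    show (ψ : Additive (Gamma0 (N * q)) →+ ZMod p) γ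
      = (ψ : Additive (Gamma0 (N * q)) →+ ZMod p)
          (Additive.ofMul ((degEquiv N q).symm (degEquiv N q (Additive.toMul γ))))
    rw [MulEquiv.symm_apply_apply]
    rfl
  have e3 : (⟨cor₂ N q (ZMod p) (ψ : Additive (Gamma0 (N * q)) →+ ZMod p), hcor⟩ :
      homPE (ZMod p) (Gamma0 N) (ZMod p)) = ⟨_, hcor'⟩ := by
    apply Subtype.ext
    exact cor₂_eq N q (ZMod p) (ψ : Additive (Gamma0 (N * q)) →+ ZMod p)
  rw [e1, e3]
  conv_lhs => rw [e2]
  exact h6.trans h5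

/-- everything of (PD5) + (PD6) that is needed at the pair `(N, q)`. -/
structure PDHyp : Prop where
  adj₁ : ResCorAdjoint (ZMod p) (Gamma0 N) (Gamma0 (N * q)) (Gamma0_mul_le N q)
    (neg_one_mem_Gamma0 (N * q))
  adj₂ : ResCorAdjoint (ZMod p) (Gamma0 N) (degRange N q) (degRange_le N q)
    (neg_one_mem_degRange N q)
  conj : ConjInvariant (ZMod p) (Gamma0 (N * q)) (degRange N q) (degEquiv N q)
    (neg_one_mem_Gamma0 (N * q)) (neg_one_mem_degRange N q)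

variable {N q p}

/-- an operator on `H(N; 𝔽_p)` of the shape `cor₁ res₂ = cor₂ res₁` is self-adjoint for the
duality pairing (e.g. the Hecke operator `T_q` by (I1d)). -/
theorem pairingGamma0_selfAdjoint_of_eq (hPD : PDHyp N q p)
    (T : (Additive (Gamma0 N) →+ ZMod p) → (Additive (Gamma0 N) →+ ZMod p))
    (hT₁ : ∀ φ ∈ homPE (ZMod p) (Gamma0 N) (ZMod p),
      T φ = cor₁ N q (ZMod p) (res₂ N q (ZMod p) φ))
    (hT₂ : ∀ φ ∈ homPE (ZMod p) (Gamma0 N) (ZMod p),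
      T φ = cor₂ N q (ZMod p) (res₁ N q (ZMod p) φ))
    (hTmem : ∀ φ ∈ homPE (ZMod p) (Gamma0 N) (ZMod p), T φ ∈ homPE (ZMod p) (Gamma0 N) (ZMod p))
    (φ ψ : homPE (ZMod p) (Gamma0 N) (ZMod p)) :
    pairingGamma0 N p ⟨T φ, hTmem φ φ.2⟩ ψ = pairingGamma0 N p φ ⟨T ψ, hTmem ψ ψ.2⟩ := by
  have hm1 : cor₁ N q (ZMod p) (res₂ N q (ZMod p) (φ : Additive (Gamma0 N) →+ ZMod p))
      ∈ homPE (ZMod p) (Gamma0 N) (ZMod p) := by
    rw [← hT₁ φ φ.2]
    exact hTmem φ φ.2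
  have hm2 : cor₂ N q (ZMod p) (res₁ N q (ZMod p) (ψ : Additive (Gamma0 N) →+ ZMod p))
      ∈ homPE (ZMod p) (Gamma0 N) (ZMod p) := by
    rw [← hT₂ ψ ψ.2]
    exact hTmem ψ ψ.2
  have e1 : (⟨T φ, hTmem φ φ.2⟩ : homPE (ZMod p) (Gamma0 N) (ZMod p)) = ⟨_, hm1⟩ :=
    Subtype.ext (hT₁ φ φ.2)
  have e2 : (⟨T ψ, hTmem ψ ψ.2⟩ : homPE (ZMod p) (Gamma0 N) (ZMod p)) = ⟨_, hm2⟩ :=
    Subtype.ext (hT₂ ψ ψ.2)
  rw [e1, e2, pairingGamma0_skew,
    ← pairingGamma0_res₁_cor₁ N q p hPD.adj₁ ψ ⟨_, res₂_mem_homPE N q φ.2⟩ hm1,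
    ← pairingGamma0_res₂_cor₂ N q p hPD.adj₂ hPD.conj φ ⟨_, res₁_mem_homPE N q ψ.2⟩ hm2,
    ← pairingGamma0_skew]

variable (N q p)

/-- the sum of two copies of the duality pairing, on `H(N; 𝔽_p)²`. -/
noncomputable def pairingSq :
    LinearMap.BilinForm (ZMod p)
      (homPE (ZMod p) (Gamma0 N) (ZMod p) × homPE (ZMod p) (Gamma0 N) (ZMod p)) :=
  (pairingGamma0 N p).compl₁₂ (LinearMap.fst _ _ _) (LinearMap.fst _ _ _)
    + (pairingGamma0 N p).compl₁₂ (LinearMap.snd _ _ _) (LinearMap.snd _ _ _)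

theorem pairingSq_apply
    (x y : homPE (ZMod p) (Gamma0 N) (ZMod p) × homPE (ZMod p) (Gamma0 N) (ZMod p)) :
    pairingSq N p x y = pairingGamma0 N p x.1 y.1 + pairingGamma0 N p x.2 y.2 := rfl

theorem pairingSq_skew
    (x y : homPE (ZMod p) (Gamma0 N) (ZMod p) × homPE (ZMod p) (Gamma0 N) (ZMod p)) :
    pairingSq N p x y = - pairingSq N p y x := by
  rw [pairingSq_apply, pairingSq_apply, pairingGamma0_skew N p x.1, pairingGamma0_skew N p x.2,
    neg_add]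

theorem pairingSq_isRefl : (pairingSq N p).IsRefl := by
  intro x y h
  rw [pairingSq_skew, h, neg_zero]

theorem pairingSq_nondegenerate : (pairingSq N p).Nondegenerate := by
  have hl : ∀ x, (∀ y, pairingSq N p x y = 0) → x = 0 := by
    intro x h
    apply Prod.ext
    · apply pairingGamma0_nondegenerate_left N p
      intro ψ
      have := h (ψ, 0)
      rw [pairingSq_apply] at this
      simpa using this
    · apply pairingGamma0_nondegenerate_left N p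
      intro ψ
      have := h (0, ψ)
      rw [pairingSq_apply] at this
      simpa using this
  refine ⟨hl, fun y h => hl y fun x => ?_⟩
  rw [pairingSq_skew, h, neg_zero]

/-- **(I2), consumer form.**  Let `η` be an additive operator on characters of `Γ₀(N)` preserving
`H(N; 𝔽_p)`, self-adjoint for the duality pairing, such that `η φ₁ = η φ₂ = 0` whenever
`res₁ φ₁ + res₂ φ₂ = 0` (`φ_i ∈ H(N; 𝔽_p)`).  Then for all `φ₁ φ₂ ∈ H(N; 𝔽_p)` the pair
`(η φ₁, η φ₂)` is of the form `(cor₁ ψ, cor₂ ψ)` with `ψ ∈ H(N q; 𝔽_p)`. -/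
theorem exists_cor_eq_of_kills_ker (hPD : PDHyp N q p)
    (hcor₁ : ∀ ψ ∈ homPE (ZMod p) (Gamma0 (N * q)) (ZMod p),
      cor₁ N q (ZMod p) ψ ∈ homPE (ZMod p) (Gamma0 N) (ZMod p))
    (hcor₂ : ∀ ψ ∈ homPE (ZMod p) (Gamma0 (N * q)) (ZMod p),
      cor₂ N q (ZMod p) ψ ∈ homPE (ZMod p) (Gamma0 N) (ZMod p))
    (η : (Additive (Gamma0 N) →+ ZMod p) →+ (Additive (Gamma0 N) →+ ZMod p))
    (hη : ∀ φ ∈ homPE (ZMod p) (Gamma0 N) (ZMod p), η φ ∈ homPE (ZMod p) (Gamma0 N) (ZMod p))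
    (hsa : ∀ φ ψ : homPE (ZMod p) (Gamma0 N) (ZMod p),
      pairingGamma0 N p ⟨η φ, hη φ φ.2⟩ ψ = pairingGamma0 N p φ ⟨η ψ, hη ψ ψ.2⟩)
    (hker : ∀ φ₁ ∈ homPE (ZMod p) (Gamma0 N) (ZMod p),
      ∀ φ₂ ∈ homPE (ZMod p) (Gamma0 N) (ZMod p),
      res₁ N q (ZMod p) φ₁ + res₂ N q (ZMod p) φ₂ = 0 → η φ₁ = 0 ∧ η φ₂ = 0)
    (φ₁ φ₂ : Additive (Gamma0 N) →+ ZMod p)
    (h₁ : φ₁ ∈ homPE (ZMod p) (Gamma0 N) (ZMod p))
    (h₂ : φ₂ ∈ homPE (ZMod p) (Gamma0 N) (ZMod p)) :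
    ∃ ψ ∈ homPE (ZMod p) (Gamma0 (N * q)) (ZMod p),
      cor₁ N q (ZMod p) ψ = η φ₁ ∧ cor₂ N q (ZMod p) ψ = η φ₂ := by
  have hfin : Module.Finite (ZMod p) (homPE (ZMod p) (Gamma0 N) (ZMod p)) :=
    (finrank_homPE_add_le (ZMod p) (Gamma0 N)).1
  -- the three linear maps
  let a : homPE (ZMod p) (Gamma0 N) (ZMod p) × homPE (ZMod p) (Gamma0 N) (ZMod p)
      →ₗ[ZMod p] homPE (ZMod p) (Gamma0 (N * q)) (ZMod p) :=
    AddMonoidHom.toZModLinearMap p
      { toFun := fun x => ⟨res₁ N q (ZMod p) (x.1 : Additive (Gamma0 N) →+ ZMod p)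
            + res₂ N q (ZMod p) (x.2 : Additive (Gamma0 N) →+ ZMod p),
          Submodule.add_mem _ (res₁_mem_homPE N q x.1.2) (res₂_mem_homPE N q x.2.2)⟩
        map_zero' := by
          apply Subtype.ext
          show res₁ N q (ZMod p) 0 + res₂ N q (ZMod p) 0 = 0
          rw [map_zero, map_zero, add_zero]
        map_add' := by
          intro x y
          apply Subtype.ext
          show res₁ N q (ZMod p) ((x.1 : Additive (Gamma0 N) →+ ZMod p) + y.1)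
              + res₂ N q (ZMod p) ((x.2 : Additive (Gamma0 N) →+ ZMod p) + y.2)
            = (res₁ N q (ZMod p) x.1 + res₂ N q (ZMod p) x.2)
              + (res₁ N q (ZMod p) y.1 + res₂ N q (ZMod p) y.2)
          rw [map_add, map_add]
          abel }
  let b : homPE (ZMod p) (Gamma0 (N * q)) (ZMod p)
      →ₗ[ZMod p] homPE (ZMod p) (Gamma0 N) (ZMod p) × homPE (ZMod p) (Gamma0 N) (ZMod p) :=
    AddMonoidHom.toZModLinearMap p
      { toFun := fun ψ => (⟨cor₁ N q (ZMod p) (ψ : Additive (Gamma0 (N * q)) →+ ZMod p),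
            hcor₁ ψ ψ.2⟩,
          ⟨cor₂ N q (ZMod p) (ψ : Additive (Gamma0 (N * q)) →+ ZMod p), hcor₂ ψ ψ.2⟩)
        map_zero' := by
          apply Prod.ext
          · apply Subtype.ext
            show cor₁ N q (ZMod p) 0 = 0
            rw [map_zero]
          · apply Subtype.ext
            show cor₂ N q (ZMod p) 0 = 0
            rw [map_zero]
        map_add' := by
          intro x y
          apply Prod.ext
          · apply Subtype.ext
            show cor₁ N q (ZMod p) ((x : Additive (Gamma0 (N * q)) →+ ZMod p) + y)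
              = cor₁ N q (ZMod p) x + cor₁ N q (ZMod p) y
            rw [map_add]
          · apply Subtype.ext
            show cor₂ N q (ZMod p) ((x : Additive (Gamma0 (N * q)) →+ ZMod p) + y)
              = cor₂ N q (ZMod p) x + cor₂ N q (ZMod p) y
            rw [map_add] }
  let e : homPE (ZMod p) (Gamma0 N) (ZMod p) × homPE (ZMod p) (Gamma0 N) (ZMod p)
      →ₗ[ZMod p] homPE (ZMod p) (Gamma0 N) (ZMod p) × homPE (ZMod p) (Gamma0 N) (ZMod p) :=
    AddMonoidHom.toZModLinearMap p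
      { toFun := fun x => (⟨η (x.1 : Additive (Gamma0 N) →+ ZMod p), hη x.1 x.1.2⟩,
          ⟨η (x.2 : Additive (Gamma0 N) →+ ZMod p), hη x.2 x.2.2⟩)
        map_zero' := by
          apply Prod.ext
          · apply Subtype.ext
            show η 0 = 0
            rw [map_zero]
          · apply Subtype.ext
            show η 0 = 0
            rw [map_zero]
        map_add' := by
          intro x y
          apply Prod.ext
          · apply Subtype.ext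
            show η ((x.1 : Additive (Gamma0 N) →+ ZMod p) + y.1) = η x.1 + η y.1
            rw [map_add]
          · apply Subtype.ext
            show η ((x.2 : Additive (Gamma0 N) →+ ZMod p) + y.2) = η x.2 + η y.2
            rw [map_add] }
  have hab : ∀ v w, pairingGamma0 (N * q) p (a v) w = pairingSq N p v (b w) := by
    intro v w
    have e1 : a v = (⟨res₁ N q (ZMod p) (v.1 : Additive (Gamma0 N) →+ ZMod p),
          res₁_mem_homPE N q v.1.2⟩ : homPE (ZMod p) (Gamma0 (N * q)) (ZMod p))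
        + ⟨res₂ N q (ZMod p) (v.2 : Additive (Gamma0 N) →+ ZMod p),
          res₂_mem_homPE N q v.2.2⟩ := rfl
    rw [e1, map_add, LinearMap.add_apply,
      pairingGamma0_res₁_cor₁ N q p hPD.adj₁ v.1 w (hcor₁ w w.2),
      pairingGamma0_res₂_cor₂ N q p hPD.adj₂ hPD.conj v.2 w (hcor₂ w w.2), pairingSq_apply]
    rfl
  have he : ∀ v v', pairingSq N p (e v) v' = pairingSq N p v (e v') := by
    intro v v'
    rw [pairingSq_apply, pairingSq_apply]
    exact congrArg₂ (· + ·) (hsa v.1 v'.1) (hsa v.2 v'.2)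
  have hkere : ∀ v, a v = 0 → e v = 0 := by
    intro v hv
    have hv' : res₁ N q (ZMod p) (v.1 : Additive (Gamma0 N) →+ ZMod p)
        + res₂ N q (ZMod p) (v.2 : Additive (Gamma0 N) →+ ZMod p) = 0 :=
      congrArg Subtype.val hv
    obtain ⟨k1, k2⟩ := hker v.1 v.1.2 v.2 v.2.2 hv'
    apply Prod.ext
    · exact Subtype.ext k1
    · exact Subtype.ext k2
  have key := range_le_range_of_adjoint (pairingSq N p) (pairingGamma0 (N * q) p)
    (pairingSq_nondegenerate N p) (pairingSq_isRefl N p)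
    (fun w hw => pairingGamma0_nondegenerate_left (N * q) p w hw) a b hab e he hkere
  obtain ⟨ψ, hψ⟩ := key ⟨(⟨φ₁, h₁⟩, ⟨φ₂, h₂⟩), rfl⟩
  refine ⟨ψ, ψ.2, ?_, ?_⟩
  · exact congrArg (fun z : homPE (ZMod p) (Gamma0 N) (ZMod p)
      × homPE (ZMod p) (Gamma0 N) (ZMod p) => (z.1 : Additive (Gamma0 N) →+ ZMod p)) hψ
  · exact congrArg (fun z : homPE (ZMod p) (Gamma0 N) (ZMod p)
      × homPE (ZMod p) (Gamma0 N) (ZMod p) => (z.2 : Additive (Gamma0 N) →+ ZMod p)) hψ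

/-- **(I2), consumer form for `η = T - c`**, where `T = cor₁ res₂ = cor₂ res₁` for an auxiliary
pair `(N, l)` (e.g. `T = T_l`, by (I1d)) and `c : ℤ`: if `T φ_i = c φ_i` whenever
`res₁ φ₁ + res₂ φ₂ = 0`, then every `((T - c) φ₁, (T - c) φ₂)` is `(cor₁ ψ, cor₂ ψ)` for some
`ψ ∈ H(N q; 𝔽_p)`. -/
theorem exists_cor_eq_sub_smul (hPD : PDHyp N q p) (l : ℕ) [NeZero l] (hPDl : PDHyp N l p)
    (hcor₁ : ∀ ψ ∈ homPE (ZMod p) (Gamma0 (N * q)) (ZMod p),
      cor₁ N q (ZMod p) ψ ∈ homPE (ZMod p) (Gamma0 N) (ZMod p))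
    (hcor₂ : ∀ ψ ∈ homPE (ZMod p) (Gamma0 (N * q)) (ZMod p),
      cor₂ N q (ZMod p) ψ ∈ homPE (ZMod p) (Gamma0 N) (ZMod p))
    (T : (Additive (Gamma0 N) →+ ZMod p) →+ (Additive (Gamma0 N) →+ ZMod p))
    (hT₁ : ∀ φ ∈ homPE (ZMod p) (Gamma0 N) (ZMod p),
      T φ = cor₁ N l (ZMod p) (res₂ N l (ZMod p) φ))
    (hT₂ : ∀ φ ∈ homPE (ZMod p) (Gamma0 N) (ZMod p),
      T φ = cor₂ N l (ZMod p) (res₁ N l (ZMod p) φ))
    (hTmem : ∀ φ ∈ homPE (ZMod p) (Gamma0 N) (ZMod p), T φ ∈ homPE (ZMod p) (Gamma0 N) (ZMod p))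
    (c : ℤ)
    (hker : ∀ φ₁ ∈ homPE (ZMod p) (Gamma0 N) (ZMod p),
      ∀ φ₂ ∈ homPE (ZMod p) (Gamma0 N) (ZMod p),
      res₁ N q (ZMod p) φ₁ + res₂ N q (ZMod p) φ₂ = 0 → T φ₁ = c • φ₁ ∧ T φ₂ = c • φ₂)
    (φ₁ φ₂ : Additive (Gamma0 N) →+ ZMod p)
    (h₁ : φ₁ ∈ homPE (ZMod p) (Gamma0 N) (ZMod p))
    (h₂ : φ₂ ∈ homPE (ZMod p) (Gamma0 N) (ZMod p)) :
    ∃ ψ ∈ homPE (ZMod p) (Gamma0 (N * q)) (ZMod p),
      cor₁ N q (ZMod p) ψ = T φ₁ - c • φ₁ ∧ cor₂ N q (ZMod p) ψ = T φ₂ - c • φ₂ := by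
  have hzs : ∀ φ ∈ homPE (ZMod p) (Gamma0 N) (ZMod p),
      c • φ ∈ homPE (ZMod p) (Gamma0 N) (ZMod p) := by
    intro φ hφ γ hγ
    show c • φ (Additive.ofMul γ) = 0
    rw [hφ γ hγ, smul_zero]
  let η : (Additive (Gamma0 N) →+ ZMod p) →+ (Additive (Gamma0 N) →+ ZMod p) :=
    T - c • AddMonoidHom.id (Additive (Gamma0 N) →+ ZMod p)
  have hηapp : ∀ φ, η φ = T φ - c • φ := fun φ => rfl
  have hη : ∀ φ ∈ homPE (ZMod p) (Gamma0 N) (ZMod p),
      η φ ∈ homPE (ZMod p) (Gamma0 N) (ZMod p) := by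
    intro φ hφ
    rw [hηapp]
    exact Submodule.sub_mem _ (hTmem φ hφ) (hzs φ hφ)
  have hmain := exists_cor_eq_of_kills_ker N q p hPD hcor₁ hcor₂ η hη ?_ ?_ φ₁ φ₂ h₁ h₂
  · obtain ⟨ψ, hψ, k1, k2⟩ := hmain
    exact ⟨ψ, hψ, k1.trans (hηapp φ₁), k2.trans (hηapp φ₂)⟩
  · intro φ ψ
    have e1 : (⟨η (φ : Additive (Gamma0 N) →+ ZMod p), hη φ φ.2⟩ :
        homPE (ZMod p) (Gamma0 N) (ZMod p)) = ⟨T φ, hTmem φ φ.2⟩ - c • φ := rfl
    have e2 : (⟨η (ψ : Additive (Gamma0 N) →+ ZMod p), hη ψ ψ.2⟩ :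
        homPE (ZMod p) (Gamma0 N) (ZMod p)) = ⟨T ψ, hTmem ψ ψ.2⟩ - c • ψ := rfl
    rw [e1, e2, map_sub, LinearMap.sub_apply, map_sub, map_zsmul, LinearMap.smul_apply, map_zsmul,
      pairingGamma0_selfAdjoint_of_eq hPDl T hT₁ hT₂ hTmem φ ψ]
  · intro ψ₁ hψ₁ ψ₂ hψ₂ h
    obtain ⟨k1, k2⟩ := hker ψ₁ hψ₁ ψ₂ hψ₂ h
    constructor
    · rw [hηapp, k1, sub_self]
    · rw [hηapp, k2, sub_self]

end Adjointness

end Fermat.Agent.S41.PD
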