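/-
helper23 (P-S41, block (B5) "Poincare duality", part PD6a): matrix lemmas in `SL(2, ℤ)`.

* `SL2.*`: entry formulas for products, inverses, negation and powers of `T`.
* `IsPosPar γ`: `γ` is a positive parabolic element (trace `2`, `γ₀₁ - γ₁₀ > 0`);
  `isPosPar_iff`: these are exactly the conjugates `g⁻¹ T ^ w g`, `w > 0` (P).
* `IsEllConj γ`: `γ` is conjugate to a power of `S` or of `S * T`;
  `isEllConj_of_trace_sq_lt`: every element whose trace `t` has `t ^ 2 < 4` is (E).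
* `SL2.eq_T_zpow_of_intertwine`: `h T ^ w = T ^ w' h` forces `h = ± T ^ n`, `w = w'`.
* `trace_eq_of_intertwine`, `isPosPar_of_intertwine`, `neg_of_intertwine`, `intertwine_adjugate`:
  behaviour under `γ ↦ α γ α⁻¹` for an integral matrix `α` of positive determinant
  (`α γ = γ' α`).
-/
import Mathlib

set_option autoImplicit false
set_option linter.unusedSimpArgs false

namespace Fermat.Agent.S41.PD

open scoped MatrixGroups
open Matrix ModularGroup

namespace SL2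

theorem det_eq (g : SL(2, ℤ)) : g 0 0 * g 1 1 - g 0 1 * g 1 0 = 1 := by
  have := g.det_coe
  rw [Matrix.det_fin_two] at this
  exact this

theorem ext' {g h : SL(2, ℤ)} (h00 : g 0 0 = h 0 0) (h01 : g 0 1 = h 0 1)
    (h10 : g 1 0 = h 1 0) (h11 : g 1 1 = h 1 1) : g = h := by
  ext i j
  fin_cases i <;> fin_cases j <;> assumption

theorem inv_apply_00 (g : SL(2, ℤ)) : (g⁻¹) 0 0 = g 1 1 := by
  rw [Matrix.SpecialLinearGroup.SL2_inv_expl]; rfl
theorem inv_apply_01 (g : SL(2, ℤ)) : (g⁻¹) 0 1 = - g 0 1 := by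
  rw [Matrix.SpecialLinearGroup.SL2_inv_expl]; rfl
theorem inv_apply_10 (g : SL(2, ℤ)) : (g⁻¹) 1 0 = - g 1 0 := by
  rw [Matrix.SpecialLinearGroup.SL2_inv_expl]; rfl
theorem inv_apply_11 (g : SL(2, ℤ)) : (g⁻¹) 1 1 = g 0 0 := by
  rw [Matrix.SpecialLinearGroup.SL2_inv_expl]; rfl

theorem mul_apply_00 (g h : SL(2, ℤ)) : (g * h) 0 0 = g 0 0 * h 0 0 + g 0 1 * h 1 0 := by
  rw [Matrix.SpecialLinearGroup.coe_mul, Matrix.mul_apply, Fin.sum_univ_two]
theorem mul_apply_01 (g h : SL(2, ℤ)) : (g * h) 0 1 = g 0 0 * h 0 1 + g 0 1 * h 1 1 := by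
  rw [Matrix.SpecialLinearGroup.coe_mul, Matrix.mul_apply, Fin.sum_univ_two]
theorem mul_apply_10 (g h : SL(2, ℤ)) : (g * h) 1 0 = g 1 0 * h 0 0 + g 1 1 * h 1 0 := by
  rw [Matrix.SpecialLinearGroup.coe_mul, Matrix.mul_apply, Fin.sum_univ_two]
theorem mul_apply_11 (g h : SL(2, ℤ)) : (g * h) 1 1 = g 1 0 * h 0 1 + g 1 1 * h 1 1 := by
  rw [Matrix.SpecialLinearGroup.coe_mul, Matrix.mul_apply, Fin.sum_univ_two]

theorem neg_apply (g : SL(2, ℤ)) (i j : Fin 2) : (-g) i j = - g i j := by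
  rw [Matrix.SpecialLinearGroup.coe_neg]; rfl

theorem T_zpow_apply_00 (n : ℤ) : (T ^ n) 0 0 = 1 := by
  show (T ^ n).1 0 0 = 1; rw [coe_T_zpow]; rfl
theorem T_zpow_apply_01 (n : ℤ) : (T ^ n) 0 1 = n := by
  show (T ^ n).1 0 1 = n; rw [coe_T_zpow]; rfl
theorem T_zpow_apply_10 (n : ℤ) : (T ^ n) 1 0 = 0 := by
  show (T ^ n).1 1 0 = 0; rw [coe_T_zpow]; rfl
theorem T_zpow_apply_11 (n : ℤ) : (T ^ n) 1 1 = 1 := by
  show (T ^ n).1 1 1 = 1; rw [coe_T_zpow]; rfl

theorem S_apply_00 : (S : SL(2, ℤ)) 0 0 = 0 := rfl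
theorem S_apply_01 : (S : SL(2, ℤ)) 0 1 = -1 := rfl
theorem S_apply_10 : (S : SL(2, ℤ)) 1 0 = 1 := rfl
theorem S_apply_11 : (S : SL(2, ℤ)) 1 1 = 0 := rfl

/-- an element `h` of `SL(2, ℤ)` with `h T ^ w = T ^ w' h`, `w ≠ 0`, is `± T ^ n`, and
`w = w'`. -/
theorem eq_T_zpow_of_intertwine {h : SL(2, ℤ)} {w w' : ℤ} (hw' : 0 < w')
    (hc : h * T ^ w = T ^ w' * h) :
    w = w' ∧ ∃ n : ℤ, h = T ^ n ∨ h = -T ^ n := by
  have e00 := congrArg (fun M : SL(2, ℤ) => M 0 0) hc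
  have e01 := congrArg (fun M : SL(2, ℤ) => M 0 1) hc
  simp only [mul_apply_00, mul_apply_01, T_zpow_apply_00, T_zpow_apply_01, T_zpow_apply_10,
    T_zpow_apply_11] at e00 e01
  have hdet := det_eq h
  have h10 : h 1 0 = 0 := by
    have : w' * h 1 0 = 0 := by linarith
    rcases mul_eq_zero.mp this with h0 | h0
    · exact absurd h0 hw'.ne'
    · exact h0
  rw [h10, mul_zero, sub_zero] at hdet
  rcases Int.eq_one_or_neg_one_of_mul_eq_one' hdet with ⟨h00, h11⟩ | ⟨h00, h11⟩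
  · rw [h00, h11] at e01
    refine ⟨by linarith, h 0 1, Or.inl ?_⟩
    apply ext'
    · rw [h00, T_zpow_apply_00]
    · rw [T_zpow_apply_01]
    · rw [h10, T_zpow_apply_10]
    · rw [h11, T_zpow_apply_11]
  · rw [h00, h11] at e01
    refine ⟨by linarith, -(h 0 1), Or.inr ?_⟩
    apply ext'
    · rw [neg_apply, h00, T_zpow_apply_00]
    · rw [neg_apply, T_zpow_apply_01]; ring
    · rw [neg_apply, h10, T_zpow_apply_10]; ring
    · rw [neg_apply, h11, T_zpow_apply_11]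

end SL2

open SL2

/-- an element of `SL(2, ℤ)` fixing the first basis vector is a power of `T`. -/
theorem eq_T_zpow_of_col {M : SL(2, ℤ)} (h00 : M 0 0 = 1) (h10 : M 1 0 = 0) :
    M = T ^ (M 0 1) := by
  have hdet := det_eq M
  rw [h00, h10, mul_zero, sub_zero, one_mul] at hdet
  apply ext'
  · rw [h00, T_zpow_apply_00]
  · rw [T_zpow_apply_01]
  · rw [h10, T_zpow_apply_10]
  · rw [hdet, T_zpow_apply_11]

/-- the entries of `g⁻¹ T ^ w g`. -/
theorem conj_T_zpow_apply (g : SL(2, ℤ)) (w : ℤ) :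
    (g⁻¹ * T ^ w * g) 0 0 = 1 + w * (g 1 1 * g 1 0) ∧
    (g⁻¹ * T ^ w * g) 0 1 = w * g 1 1 ^ 2 ∧
    (g⁻¹ * T ^ w * g) 1 0 = - (w * g 1 0 ^ 2) ∧
    (g⁻¹ * T ^ w * g) 1 1 = 1 - w * (g 1 1 * g 1 0) := by
  have hdet := det_eq g
  refine ⟨?_, ?_, ?_, ?_⟩
  · rw [mul_apply_00, mul_apply_00, mul_apply_01, inv_apply_00, inv_apply_01, T_zpow_apply_00,
      T_zpow_apply_01, T_zpow_apply_10, T_zpow_apply_11]
    linear_combination hdet
  · rw [mul_apply_01, mul_apply_00, mul_apply_01, inv_apply_00, inv_apply_01, T_zpow_apply_00,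
      T_zpow_apply_01, T_zpow_apply_10, T_zpow_apply_11]
    ring
  · rw [mul_apply_10, mul_apply_10, mul_apply_11, inv_apply_10, inv_apply_11, T_zpow_apply_00,
      T_zpow_apply_01, T_zpow_apply_10, T_zpow_apply_11]
    ring
  · rw [mul_apply_11, mul_apply_10, mul_apply_11, inv_apply_10, inv_apply_11, T_zpow_apply_00,
      T_zpow_apply_01, T_zpow_apply_10, T_zpow_apply_11]
    linear_combination hdet

/-- positive parabolic elements: trace `2` and `γ₀₁ - γ₁₀ > 0`. -/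
def IsPosPar (γ : SL(2, ℤ)) : Prop := γ 0 0 + γ 1 1 = 2 ∧ 0 < γ 0 1 - γ 1 0

theorem bottom_row_sq_pos (g : SL(2, ℤ)) : 0 < g 1 1 ^ 2 + g 1 0 ^ 2 := by
  have hdet := det_eq g
  rcases eq_or_ne (g 1 1) 0 with h | h
  · rcases eq_or_ne (g 1 0) 0 with h' | h'
    · rw [h, h'] at hdet; simp at hdet
    · positivity
  · positivity

theorem isPosPar_conj_T_zpow (g : SL(2, ℤ)) {w : ℤ} (hw : 0 < w) :
    IsPosPar (g⁻¹ * T ^ w * g) := by
  obtain ⟨h00, h01, h10, h11⟩ := conj_T_zpow_apply g w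
  refine ⟨by rw [h00, h11]; ring, ?_⟩
  rw [h01, h10]
  have := bottom_row_sq_pos g
  have : 0 < w * (g 1 1 ^ 2 + g 1 0 ^ 2) := mul_pos hw this
  linarith

theorem pos_of_isPosPar_conj_T_zpow {g : SL(2, ℤ)} {w : ℤ} (h : IsPosPar (g⁻¹ * T ^ w * g)) :
    0 < w := by
  obtain ⟨h00, h01, h10, h11⟩ := conj_T_zpow_apply g w
  have h2 := h.2
  rw [h01, h10] at h2
  have h3 := bottom_row_sq_pos g
  by_contra hw
  rw [not_lt] at hw
  have : w * (g 1 1 ^ 2 + g 1 0 ^ 2) ≤ 0 := mul_nonpos_of_nonpos_of_nonneg hw h3.le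
  linarith

/-- a primitive vector in the kernel of `γ - 1` for `γ` of trace `2`. -/
theorem exists_coprime_kernel {e b c : ℤ} (h : e ^ 2 = -(b * c)) :
    ∃ x y : ℤ, IsCoprime x y ∧ e * x + b * y = 0 ∧ c * x - e * y = 0 := by
  rcases eq_or_ne b 0 with hb | hb
  · have he : e = 0 := by
      rw [hb, zero_mul, neg_zero] at h
      exact pow_eq_zero_iff (by norm_num) |>.mp h
    refine ⟨0, 1, isCoprime_zero_left.mpr isUnit_one, ?_, ?_⟩
    · rw [hb]; ring
    · rw [he]; ring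
  · have hpos : 0 < Int.gcd b e := Int.gcd_pos_of_ne_zero_left e hb
    obtain ⟨d, x, y, hd, hxy, hx, hy⟩ := Int.exists_gcd_one' hpos
    have hd' : (d : ℤ) ≠ 0 := by exact_mod_cast hd.ne'
    have hcop : IsCoprime x y := Int.isCoprime_iff_gcd_eq_one.mpr hxy
    refine ⟨x, -y, hcop.neg_right, ?_, ?_⟩
    · rw [hx, hy]; ring
    · have : (d : ℤ) * (c * x - e * -y) = 0 := by
        calc (d : ℤ) * (c * x - e * -y) = c * (x * d) + e * (y * d) := by ring
          _ = c * b + e * e := by rw [← hx, ← hy]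
          _ = 0 := by linear_combination h
      exact (mul_eq_zero.mp this).resolve_left hd'

/-- **(P)**: positive parabolic elements are exactly the conjugates of positive powers of `T`. -/
theorem isPosPar_iff (γ : SL(2, ℤ)) :
    IsPosPar γ ↔ ∃ (g : SL(2, ℤ)) (w : ℤ), 0 < w ∧ γ = g⁻¹ * T ^ w * g := by
  constructor
  · intro hγ
    have hdet := det_eq γ
    have htr := hγ.1
    have hsq : (γ 0 0 - 1) ^ 2 = -(γ 0 1 * γ 1 0) := by
      have hd : γ 1 1 = 2 - γ 0 0 := by linarith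
      rw [hd] at hdet
      linear_combination -hdet
    obtain ⟨x, y, hcop, h1, h2⟩ := exists_coprime_kernel hsq
    obtain ⟨g', hg0, hg1⟩ := hcop.exists_SL2_col 0
    have hdet' := det_eq g'
    rw [hg0, hg1] at hdet'
    have hd : γ 1 1 = 2 - γ 0 0 := by linarith
    have hM00 : (g'⁻¹ * γ * g') 0 0 = 1 := by
      rw [mul_apply_00, mul_apply_00, mul_apply_01, inv_apply_00, inv_apply_01, hg0, hg1, hd]
      linear_combination hdet' + (g' 1 1) * h1 - (g' 0 1) * h2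
    have hM10 : (g'⁻¹ * γ * g') 1 0 = 0 := by
      rw [mul_apply_10, mul_apply_10, mul_apply_11, inv_apply_10, inv_apply_11, hg0, hg1, hd]
      linear_combination (-y) * h1 + x * h2
    have hM := eq_T_zpow_of_col hM00 hM10
    set w := (g'⁻¹ * γ * g') 0 1 with hw
    have hγ' : γ = (g'⁻¹)⁻¹ * T ^ w * g'⁻¹ := by
      rw [← hM]; group
    refine ⟨g'⁻¹, w, ?_, hγ'⟩
    rw [hγ'] at hγ
    exact pos_of_isPosPar_conj_T_zpow hγ
  · rintro ⟨g, w, hw, rfl⟩
    exact isPosPar_conj_T_zpow g hw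

/-- entries of `T ^ n γ T ^ (-n)`. -/
theorem T_conj_apply (γ : SL(2, ℤ)) (n : ℤ) :
    (T ^ n * γ * (T ^ n)⁻¹) 0 0 = γ 0 0 + n * γ 1 0 ∧
    (T ^ n * γ * (T ^ n)⁻¹) 0 1 = γ 0 1 + n * (γ 1 1 - γ 0 0) - n ^ 2 * γ 1 0 ∧
    (T ^ n * γ * (T ^ n)⁻¹) 1 0 = γ 1 0 ∧
    (T ^ n * γ * (T ^ n)⁻¹) 1 1 = γ 1 1 - n * γ 1 0 := by
  refine ⟨?_, ?_, ?_, ?_⟩
  · simp only [mul_apply_00, mul_apply_01, inv_apply_00, inv_apply_10, T_zpow_apply_00,
      T_zpow_apply_01, T_zpow_apply_10, T_zpow_apply_11]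
    ring
  · simp only [mul_apply_01, mul_apply_00, inv_apply_01, inv_apply_11, T_zpow_apply_00,
      T_zpow_apply_01, T_zpow_apply_10, T_zpow_apply_11]
    ring
  · simp only [mul_apply_10, mul_apply_11, inv_apply_00, inv_apply_10, T_zpow_apply_00,
      T_zpow_apply_01, T_zpow_apply_10, T_zpow_apply_11]
    ring
  · simp only [mul_apply_11, mul_apply_10, inv_apply_01, inv_apply_11, T_zpow_apply_00,
      T_zpow_apply_01, T_zpow_apply_10, T_zpow_apply_11]
    ring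

/-- entries of `S γ S⁻¹`. -/
theorem S_conj_apply (γ : SL(2, ℤ)) :
    (S * γ * S⁻¹) 0 0 = γ 1 1 ∧ (S * γ * S⁻¹) 0 1 = - γ 1 0 ∧
    (S * γ * S⁻¹) 1 0 = - γ 0 1 ∧ (S * γ * S⁻¹) 1 1 = γ 0 0 := by
  refine ⟨?_, ?_, ?_, ?_⟩
  · simp only [mul_apply_00, mul_apply_01, inv_apply_00, inv_apply_10, S_apply_00, S_apply_01,
      S_apply_10, S_apply_11]
    ring
  · simp only [mul_apply_01, mul_apply_00, inv_apply_01, inv_apply_11, S_apply_00, S_apply_01,
      S_apply_10, S_apply_11]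
    ring
  · simp only [mul_apply_10, mul_apply_11, inv_apply_00, inv_apply_10, S_apply_00, S_apply_01,
      S_apply_10, S_apply_11]
    ring
  · simp only [mul_apply_11, mul_apply_10, inv_apply_01, inv_apply_11, S_apply_00, S_apply_01,
      S_apply_10, S_apply_11]
    ring

/-- `γ` is conjugate in `SL(2, ℤ)` to a power of `S` or of `S * T`. -/
def IsEllConj (γ : SL(2, ℤ)) : Prop :=
  ∃ (g : SL(2, ℤ)) (k : ℕ), γ = g * S ^ k * g⁻¹ ∨ γ = g * (S * T) ^ k * g⁻¹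

theorem IsEllConj.conj {γ : SL(2, ℤ)} (h : IsEllConj γ) (x : SL(2, ℤ)) :
    IsEllConj (x * γ * x⁻¹) := by
  obtain ⟨g, k, h | h⟩ := h
  · exact ⟨x * g, k, Or.inl (by rw [h]; group)⟩
  · exact ⟨x * g, k, Or.inr (by rw [h]; group)⟩

theorem IsEllConj.of_conj {γ : SL(2, ℤ)} (x : SL(2, ℤ)) (h : IsEllConj (x * γ * x⁻¹)) :
    IsEllConj γ := by
  have := h.conj x⁻¹
  convert this using 1
  group

theorem exists_reduce (B c : ℤ) (hc : c ≠ 0) : ∃ n : ℤ, |B - 2 * n * c| ≤ |c| := by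
  rcases lt_or_gt_of_ne hc with hneg | hpos
  · -- c < 0
    have hm : 0 < -(2 * c) := by linarith
    have h1 := Int.emod_nonneg B hm.ne'
    have h2 := Int.emod_lt_of_pos B hm
    have h3 := Int.emod_add_mul_ediv B (-(2 * c))
    set r := B % (-(2 * c)) with hr
    set k := B / (-(2 * c)) with hk
    rw [abs_of_neg hneg]
    by_cases hle : r ≤ -c
    · refine ⟨-k, ?_⟩
      rw [abs_le]
      constructor <;> nlinarith
    · refine ⟨-k - 1, ?_⟩
      rw [abs_le]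
      constructor <;> nlinarith
  · have hm : 0 < 2 * c := by linarith
    have h1 := Int.emod_nonneg B hm.ne'
    have h2 := Int.emod_lt_of_pos B hm
    have h3 := Int.emod_add_mul_ediv B (2 * c)
    set r := B % (2 * c) with hr
    set k := B / (2 * c) with hk
    rw [abs_of_pos hpos]
    by_cases hle : r ≤ c
    · refine ⟨k, ?_⟩
      rw [abs_le]
      constructor <;> nlinarith
    · refine ⟨k + 1, ?_⟩
      rw [abs_le]
      constructor <;> nlinarith

/-- the normal forms with lower left entry `± 1`. -/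
theorem isEllConj_of_normal {γ : SL(2, ℤ)} (h00 : γ 0 0 = 0) (h10 : γ 1 0 = 1 ∨ γ 1 0 = -1)
    (h11 : γ 1 1 = 0 ∨ γ 1 1 = 1 ∨ γ 1 1 = -1) : IsEllConj γ := by
  have hdet := det_eq γ
  rw [h00, zero_mul, zero_sub] at hdet
  rcases h10 with h10 | h10
  · have h01 : γ 0 1 = -1 := by rw [h10] at hdet; linarith
    rcases h11 with h11 | h11 | h11
    · exact ⟨1, 1, Or.inl (ext' (h00.trans (by decide)) (h01.trans (by decide))
        (h10.trans (by decide)) (h11.trans (by decide)))⟩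
    · exact ⟨1, 1, Or.inr (ext' (h00.trans (by decide)) (h01.trans (by decide))
        (h10.trans (by decide)) (h11.trans (by decide)))⟩
    · exact ⟨S⁻¹, 2, Or.inr (ext' (h00.trans (by decide)) (h01.trans (by decide))
        (h10.trans (by decide)) (h11.trans (by decide)))⟩
  · have h01 : γ 0 1 = 1 := by rw [h10] at hdet; linarith
    rcases h11 with h11 | h11 | h11
    · exact ⟨1, 3, Or.inl (ext' (h00.trans (by decide)) (h01.trans (by decide))
        (h10.trans (by decide)) (h11.trans (by decide)))⟩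
    · exact ⟨S, 5, Or.inr (ext' (h00.trans (by decide)) (h01.trans (by decide))
        (h10.trans (by decide)) (h11.trans (by decide)))⟩
    · exact ⟨1, 4, Or.inr (ext' (h00.trans (by decide)) (h01.trans (by decide))
        (h10.trans (by decide)) (h11.trans (by decide)))⟩

/-- **(E)**: every element of `SL(2, ℤ)` whose trace `t` satisfies `t ^ 2 < 4` is conjugate to a
power of `S` or of `S * T`. -/
theorem isEllConj_of_trace_sq_lt (γ : SL(2, ℤ)) (ht : (γ 0 0 + γ 1 1) ^ 2 < 4) :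
    IsEllConj γ := by
  induction hN : (γ 1 0).natAbs using Nat.strong_induction_on generalizing γ with
  | _ N ih =>
    have hdet := det_eq γ
    have htr : γ 0 0 + γ 1 1 = 0 ∨ γ 0 0 + γ 1 1 = 1 ∨ γ 0 0 + γ 1 1 = -1 := by
      have h1 : -2 < γ 0 0 + γ 1 1 := by nlinarith
      have h2 : γ 0 0 + γ 1 1 < 2 := by nlinarith
      omega
    -- `c ≠ 0`
    have hc : γ 1 0 ≠ 0 := by
      intro h0
      rw [h0, mul_zero, sub_zero] at hdet
      rcases Int.eq_one_or_neg_one_of_mul_eq_one' hdet with ⟨h1, h2⟩ | ⟨h1, h2⟩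
      · rw [h1, h2] at ht; norm_num at ht
      · rw [h1, h2] at ht; norm_num at ht
    by_cases hc1 : |γ 1 0| = 1
    · -- lower left entry `± 1`
      have hc' : γ 1 0 = 1 ∨ γ 1 0 = -1 := by
        rcases abs_eq (by norm_num : (0 : ℤ) ≤ 1) |>.mp hc1 with h | h
        · exact Or.inl h
        · exact Or.inr h
      have hcc : γ 1 0 * γ 1 0 = 1 := by rcases hc' with h | h <;> rw [h] <;> norm_num
      obtain ⟨e00, e01, e10, e11⟩ := T_conj_apply γ (-(γ 0 0 * γ 1 0))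
      apply IsEllConj.of_conj (T ^ (-(γ 0 0 * γ 1 0)))
      apply isEllConj_of_normal
      · rw [e00]; linear_combination (-(γ 0 0)) * hcc
      · rw [e10]; exact hc'
      · rw [e11]
        have : γ 1 1 - -(γ 0 0 * γ 1 0) * γ 1 0 = γ 0 0 + γ 1 1 := by
          linear_combination (γ 0 0) * hcc
        rw [this]
        exact htr
    · -- `|c| ≥ 2`
      have hc2 : 2 ≤ |γ 1 0| := by
        have h0 : 0 < |γ 1 0| := abs_pos.mpr hc
        omega
      obtain ⟨n, hn⟩ := exists_reduce (γ 1 1 - γ 0 0) (γ 1 0) hc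
      obtain ⟨e00, e01, e10, e11⟩ := T_conj_apply γ n
      set γ₁ := T ^ n * γ * (T ^ n)⁻¹ with hγ₁
      obtain ⟨f00, f01, f10, f11⟩ := S_conj_apply γ₁
      apply IsEllConj.of_conj (T ^ n)
      apply IsEllConj.of_conj S
      have hdet₁ := det_eq γ₁
      have htr₁ : γ₁ 0 0 + γ₁ 1 1 = γ 0 0 + γ 1 1 := by rw [e00, e11]; ring
      have hB : |γ₁ 1 1 - γ₁ 0 0| ≤ |γ₁ 1 0| := by
        rw [e00, e11, e10]
        have : γ 1 1 - n * γ 1 0 - (γ 0 0 + n * γ 1 0) = γ 1 1 - γ 0 0 - 2 * n * γ 1 0 := by ring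
        rw [this]
        exact hn
      have hc2' : 2 ≤ |γ₁ 1 0| := by rw [e10]; exact hc2
      -- `4 |b| |c| = B ^ 2 + D ≤ c ^ 2 + 4`, so `|b| < |c|`
      have hkey : -(4 * (γ₁ 0 1 * γ₁ 1 0)) = (γ₁ 1 1 - γ₁ 0 0) ^ 2 + (4 - (γ₁ 0 0 + γ₁ 1 1) ^ 2) := by
        linear_combination 4 * hdet₁
      have hD : 4 - (γ₁ 0 0 + γ₁ 1 1) ^ 2 ≤ 4 := by nlinarith [sq_nonneg (γ₁ 0 0 + γ₁ 1 1)]
      have hBsq : (γ₁ 1 1 - γ₁ 0 0) ^ 2 ≤ (γ₁ 1 0) ^ 2 := by
        rw [← sq_abs (γ₁ 1 1 - γ₁ 0 0), ← sq_abs (γ₁ 1 0)]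
        exact pow_le_pow_left₀ (abs_nonneg _) hB 2
      have hlt : |γ₁ 0 1| < |γ₁ 1 0| := by
        by_contra hge
        rw [not_lt] at hge
        have h1 : 4 * (|γ₁ 0 1| * |γ₁ 1 0|) ≤ (γ₁ 1 0) ^ 2 + 4 := by
          rw [← abs_mul]
          have : 4 * |γ₁ 0 1 * γ₁ 1 0| = |-(4 * (γ₁ 0 1 * γ₁ 1 0))| := by
            rw [abs_neg, abs_mul]; norm_num
          rw [this, hkey]
          have hnn : 0 ≤ (γ₁ 1 1 - γ₁ 0 0) ^ 2 + (4 - (γ₁ 0 0 + γ₁ 1 1) ^ 2) := by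
            rw [htr₁]; nlinarith [sq_nonneg (γ₁ 1 1 - γ₁ 0 0)]
          rw [abs_of_nonneg hnn]
          linarith
        have h2 : (γ₁ 1 0) ^ 2 = |γ₁ 1 0| * |γ₁ 1 0| := by rw [← sq, sq_abs]
        have h3 : |γ₁ 1 0| * |γ₁ 1 0| ≤ |γ₁ 0 1| * |γ₁ 1 0| :=
          mul_le_mul_of_nonneg_right hge (abs_nonneg _)
        nlinarith
      refine ih ((S * γ₁ * S⁻¹) 1 0).natAbs ?_ (S * γ₁ * S⁻¹) ?_ rfl
      · rw [← hN, f10, Int.natAbs_neg, ← e10]
        have h := hlt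
        rw [Int.abs_eq_natAbs, Int.abs_eq_natAbs] at h
        exact_mod_cast h
      · rw [f00, f11, add_comm, htr₁]
        exact ht

section Alpha

variable {α : Matrix (Fin 2) (Fin 2) ℤ} {γ γ' : SL(2, ℤ)}

/-- the four entry equations of `α γ = γ' α`. -/
theorem intertwine_entries
    (h : α * (γ : Matrix (Fin 2) (Fin 2) ℤ) = (γ' : Matrix (Fin 2) (Fin 2) ℤ) * α) :
    α 0 0 * γ 0 0 + α 0 1 * γ 1 0 = γ' 0 0 * α 0 0 + γ' 0 1 * α 1 0 ∧
    α 0 0 * γ 0 1 + α 0 1 * γ 1 1 = γ' 0 0 * α 0 1 + γ' 0 1 * α 1 1 ∧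
    α 1 0 * γ 0 0 + α 1 1 * γ 1 0 = γ' 1 0 * α 0 0 + γ' 1 1 * α 1 0 ∧
    α 1 0 * γ 0 1 + α 1 1 * γ 1 1 = γ' 1 0 * α 0 1 + γ' 1 1 * α 1 1 := by
  refine ⟨?_, ?_, ?_, ?_⟩
  · have := congrFun (congrFun h 0) 0
    simpa only [Matrix.mul_apply, Fin.sum_univ_two] using this
  · have := congrFun (congrFun h 0) 1
    simpa only [Matrix.mul_apply, Fin.sum_univ_two] using this
  · have := congrFun (congrFun h 1) 0
    simpa only [Matrix.mul_apply, Fin.sum_univ_two] using this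
  · have := congrFun (congrFun h 1) 1
    simpa only [Matrix.mul_apply, Fin.sum_univ_two] using this

theorem trace_eq_of_intertwine (hα : α.det ≠ 0)
    (h : α * (γ : Matrix (Fin 2) (Fin 2) ℤ) = (γ' : Matrix (Fin 2) (Fin 2) ℤ) * α) :
    γ' 0 0 + γ' 1 1 = γ 0 0 + γ 1 1 := by
  obtain ⟨e00, e01, e10, e11⟩ := intertwine_entries h
  rw [Matrix.det_fin_two] at hα
  apply mul_left_cancel₀ hα
  linear_combination (-(α 1 1)) * e00 + (α 1 0) * e01 + (α 0 1) * e10 - (α 0 0) * e11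

theorem isPosPar_of_intertwine (hα : 0 < α.det)
    (h : α * (γ : Matrix (Fin 2) (Fin 2) ℤ) = (γ' : Matrix (Fin 2) (Fin 2) ℤ) * α)
    (hγ : IsPosPar γ) : IsPosPar γ' := by
  have htr := trace_eq_of_intertwine hα.ne' h
  obtain ⟨e00, e01, e10, e11⟩ := intertwine_entries h
  rw [Matrix.det_fin_two] at hα
  refine ⟨htr.trans hγ.1, ?_⟩
  have hdet := det_eq γ
  obtain ⟨ht, hpos⟩ := hγ
  set A := α 0 0
  set B := α 0 1
  set C := α 1 0
  set D := α 1 1
  set a := γ 0 0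
  set b := γ 0 1
  set c := γ 1 0
  set d := γ 1 1
  have hd : d = 2 - a := by linarith
  have hsq : (a - 1) ^ 2 = -(b * c) := by
    rw [hd] at hdet
    linear_combination -hdet
  -- the key identity
  have hkey : (A * D - B * C) * (γ' 0 1 - γ' 1 0)
      = (A ^ 2 + C ^ 2) * b - 2 * (A * B + C * D) * (a - 1) - (B ^ 2 + D ^ 2) * c := by
    rw [hd] at e01 e11
    linear_combination B * e00 - A * e01 + D * e10 - C * e11
  have hE : 0 < (A ^ 2 + C ^ 2) * b - 2 * (A * B + C * D) * (a - 1) - (B ^ 2 + D ^ 2) * c := by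
    have hP : 0 < A ^ 2 + C ^ 2 := by
      rcases eq_or_ne A 0 with hA | hA
      · rcases eq_or_ne C 0 with hC | hC
        · rw [hA, hC] at hα; simp at hα
        · positivity
      · positivity
    have hQ : 0 < B ^ 2 + D ^ 2 := by
      rcases eq_or_ne B 0 with hB | hB
      · rcases eq_or_ne D 0 with hD | hD
        · rw [hB, hD] at hα; simp at hα
        · positivity
      · positivity
    rcases lt_trichotomy b 0 with hb | hb | hb
    · -- impossible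
      have hc : c < 0 := by linarith
      have : 0 < b * c := mul_pos_of_neg_of_neg hb hc
      nlinarith [sq_nonneg (a - 1)]
    · have he : a - 1 = 0 := by
        rw [hb, zero_mul, neg_zero] at hsq
        exact pow_eq_zero_iff (by norm_num) |>.mp hsq
      rw [hb, he]
      have hc : c < 0 := by linarith
      nlinarith
    · by_contra hE
      rw [not_lt] at hE
      set E := (A ^ 2 + C ^ 2) * b - 2 * (A * B + C * D) * (a - 1) - (B ^ 2 + D ^ 2) * c with hEdef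
      have h1 : (A ^ 2 + C ^ 2) * (b * E)
          = ((A ^ 2 + C ^ 2) * b - (A * B + C * D) * (a - 1)) ^ 2
            + (A * D - B * C) ^ 2 * (a - 1) ^ 2 := by
        rw [hEdef]
        linear_combination (-((A ^ 2 + C ^ 2) * (B ^ 2 + D ^ 2))) * hsq
      have h2 : (A ^ 2 + C ^ 2) * (b * E) ≤ 0 :=
        mul_nonpos_of_nonneg_of_nonpos hP.le (mul_nonpos_of_nonneg_of_nonpos hb.le hE)
      have hU : 0 ≤ ((A ^ 2 + C ^ 2) * b - (A * B + C * D) * (a - 1)) ^ 2 := sq_nonneg _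
      have hV : 0 ≤ (A * D - B * C) ^ 2 * (a - 1) ^ 2 :=
        mul_nonneg (sq_nonneg _) (sq_nonneg _)
      have h3 : (A * D - B * C) ^ 2 * (a - 1) ^ 2 = 0 := by linarith
      have h4 : ((A ^ 2 + C ^ 2) * b - (A * B + C * D) * (a - 1)) ^ 2 = 0 := by linarith
      have he : a - 1 = 0 := by
        rcases mul_eq_zero.mp h3 with h5 | h5
        · exact absurd (pow_eq_zero_iff (by norm_num) |>.mp h5) hα.ne'
        · exact pow_eq_zero_iff (by norm_num) |>.mp h5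
      have h6 : (A ^ 2 + C ^ 2) * b - (A * B + C * D) * (a - 1) = 0 :=
        pow_eq_zero_iff (by norm_num) |>.mp h4
      rw [he, mul_zero, sub_zero] at h6
      have : 0 < (A ^ 2 + C ^ 2) * b := mul_pos hP hb
      linarith
  rw [← hkey] at hE
  exact (mul_pos_iff_of_pos_left hα).mp hE

theorem neg_of_intertwine {δ δ' : SL(2, ℤ)} (hα : α.det ≠ 0)
    (h : α * (γ : Matrix (Fin 2) (Fin 2) ℤ) = (γ' : Matrix (Fin 2) (Fin 2) ℤ) * α)
    (h' : α * (δ : Matrix (Fin 2) (Fin 2) ℤ) = (δ' : Matrix (Fin 2) (Fin 2) ℤ) * α)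
    (hδ : δ = -γ) : δ' = -γ' := by
  obtain ⟨e00, e01, e10, e11⟩ := intertwine_entries h
  obtain ⟨f00, f01, f10, f11⟩ := intertwine_entries h'
  rw [Matrix.det_fin_two] at hα
  subst hδ
  simp only [SL2.neg_apply] at f00 f01 f10 f11
  apply ext'
  · rw [SL2.neg_apply]
    apply mul_left_cancel₀ hα
    linear_combination (-(α 1 1)) * (e00 + f00) + (α 1 0) * (e01 + f01)
  · rw [SL2.neg_apply]
    apply mul_left_cancel₀ hα
    linear_combination (α 0 1) * (e00 + f00) - (α 0 0) * (e01 + f01)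
  · rw [SL2.neg_apply]
    apply mul_left_cancel₀ hα
    linear_combination (-(α 1 1)) * (e10 + f10) + (α 1 0) * (e11 + f11)
  · rw [SL2.neg_apply]
    apply mul_left_cancel₀ hα
    linear_combination (α 0 1) * (e10 + f10) - (α 0 0) * (e11 + f11)

/-- the intertwining relation for the adjugate. -/
theorem intertwine_adjugate (hα : α.det ≠ 0)
    (h : α * (γ : Matrix (Fin 2) (Fin 2) ℤ) = (γ' : Matrix (Fin 2) (Fin 2) ℤ) * α) :
    α.adjugate * (γ' : Matrix (Fin 2) (Fin 2) ℤ) = (γ : Matrix (Fin 2) (Fin 2) ℤ) * α.adjugate := by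
  have h1 : α.det • (α.adjugate * (γ' : Matrix (Fin 2) (Fin 2) ℤ))
      = α.det • ((γ : Matrix (Fin 2) (Fin 2) ℤ) * α.adjugate) := by
    calc α.det • (α.adjugate * (γ' : Matrix (Fin 2) (Fin 2) ℤ))
        = α.adjugate * ((γ' : Matrix (Fin 2) (Fin 2) ℤ) * α) * α.adjugate := by
          rw [Matrix.mul_assoc, Matrix.mul_assoc, Matrix.mul_adjugate, Matrix.mul_smul,
            Matrix.mul_smul, Matrix.mul_one]
      _ = α.adjugate * (α * (γ : Matrix (Fin 2) (Fin 2) ℤ)) * α.adjugate := by rw [h]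
      _ = α.det • ((γ : Matrix (Fin 2) (Fin 2) ℤ) * α.adjugate) := by
          rw [← Matrix.mul_assoc, Matrix.adjugate_mul, Matrix.smul_mul, Matrix.smul_mul,
            Matrix.one_mul]
  exact smul_right_injective _ hα h1

theorem det_adjugate_two : (α.adjugate).det = α.det := by
  rw [Matrix.det_adjugate]
  simp

end Alpha

end Fermat.Agent.S41.PD
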