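/-
helper23 (P-S41, block (B5) "Poincare duality", part PD6b): cusp bookkeeping.

For a finite index subgroup `Γ ≤ SL(2, ℤ)` containing `-1` and a coset `x : SL(2, ℤ) ⧸ Γ`,
`cuspGen Γ x = (sec x)⁻¹ T ^ (per T x) (sec x) ∈ Γ` is the positive generator of the stabiliser of
the corresponding cusp. Up to `Γ`-conjugacy it only depends on the `T`-orbit of `x`, the
`T`-orbits correspond bijectively to the `Γ`-conjugacy classes of primitive positive parabolic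
elements of `Γ`, and an isomorphism `c : Γ₁ ≃* Γ₂` which preserves positive parabolic elements
and `-1` (e.g. conjugation by an integral matrix of positive determinant) induces a bijection of
the `T`-orbit spaces compatible with the `cuspGen`s (`cuspEquiv`, `cuspEquiv_spec`).
-/
import Fermat.Agent.S41.PD.Parabolic
import Fermat.Agent.Gateway.A2.OrbitSum

set_option autoImplicit false

noncomputable section

namespace Fermat.Agent.S41.PD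

open scoped MatrixGroups
open Matrix ModularGroup Fermat.Agent.Gateway.A2 SL2

section Cosets

variable (Γ : Subgroup SL(2, ℤ))

theorem exists_sec_eq (g : SL(2, ℤ)) : ∃ δ : Γ, sec Γ (g : SL(2, ℤ) ⧸ Γ) = g * δ := by
  have h := mk_sec Γ (g : SL(2, ℤ) ⧸ Γ)
  rw [eq_comm, QuotientGroup.eq] at h
  exact ⟨⟨_, h⟩, by simp⟩

theorem conj_T_zpow_mem_iff (g : SL(2, ℤ)) (n : ℤ) :
    g⁻¹ * T ^ n * g ∈ Γ ↔ T ^ n • (g : SL(2, ℤ) ⧸ Γ) = (g : SL(2, ℤ) ⧸ Γ) := by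
  have h1 : T ^ n • (g : SL(2, ℤ) ⧸ Γ) = ((T ^ n * g : SL(2, ℤ)) : SL(2, ℤ) ⧸ Γ) := rfl
  rw [h1, eq_comm, QuotientGroup.eq, mul_assoc]

theorem conj_T_zpow_mem_iff_dvd (g : SL(2, ℤ)) (n : ℤ) :
    g⁻¹ * T ^ n * g ∈ Γ ↔ (per T (g : SL(2, ℤ) ⧸ Γ) : ℤ) ∣ n := by
  rw [conj_T_zpow_mem_iff]
  exact MulAction.zpow_smul_eq_iff_period_dvd

theorem neg_coset (hneg : (-1 : SL(2, ℤ)) ∈ Γ) (g : SL(2, ℤ)) :
    ((-g : SL(2, ℤ)) : SL(2, ℤ) ⧸ Γ) = (g : SL(2, ℤ) ⧸ Γ) := by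
  rw [QuotientGroup.eq]
  have : (-g)⁻¹ * g = -1 := by
    have h1 : -g = g * (-1) := by simp
    rw [h1, _root_.mul_inv_rev, mul_assoc, inv_mul_cancel, mul_one]
    ext i j
    fin_cases i <;> fin_cases j <;> simp
  rw [this]
  exact hneg

theorem mul_mem_coset (g : SL(2, ℤ)) (δ : Γ) :
    ((g * δ : SL(2, ℤ)) : SL(2, ℤ) ⧸ Γ) = (g : SL(2, ℤ) ⧸ Γ) := by
  rw [eq_comm, QuotientGroup.eq]
  simp

end Cosets

section CuspGen

variable (Γ : Subgroup SL(2, ℤ))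

/-- the positive generator of the stabiliser of the cusp attached to the coset `x`. -/
def cuspGen (x : SL(2, ℤ) ⧸ Γ) : Γ := gam Γ (T ^ per T x) x

theorem cuspGen_coe (x : SL(2, ℤ) ⧸ Γ) :
    ((cuspGen Γ x : Γ) : SL(2, ℤ)) = (sec Γ x)⁻¹ * T ^ (per T x : ℤ) * sec Γ x := by
  show (sec Γ (T ^ per T x • x))⁻¹ * T ^ per T x * sec Γ x = _
  rw [pow_per_smul, zpow_natCast]

theorem per_mk_sec (x : SL(2, ℤ) ⧸ Γ) :
    per T ((sec Γ x : SL(2, ℤ)) : SL(2, ℤ) ⧸ Γ) = per T x := by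
  rw [mk_sec]

/-- for any representative `g` of `x`, `cuspGen Γ x` is `Γ`-conjugate to `g⁻¹ T ^ per g`. -/
theorem cuspGen_conj_rep (g : SL(2, ℤ)) :
    ∃ δ : Γ, ((cuspGen Γ (g : SL(2, ℤ) ⧸ Γ) : Γ) : SL(2, ℤ))
      = (δ : SL(2, ℤ))⁻¹ * (g⁻¹ * T ^ (per T (g : SL(2, ℤ) ⧸ Γ) : ℤ) * g) * δ := by
  obtain ⟨δ, hδ⟩ := exists_sec_eq Γ g
  refine ⟨δ, ?_⟩
  rw [cuspGen_coe, hδ]
  group

variable [Finite (SL(2, ℤ) ⧸ Γ)]

theorem per_T_pos (x : SL(2, ℤ) ⧸ Γ) : (0 : ℤ) < (per T x : ℤ) := by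
  exact_mod_cast per_pos (T : SL(2, ℤ)) x

theorem isPosPar_cuspGen (x : SL(2, ℤ) ⧸ Γ) : IsPosPar ((cuspGen Γ x : Γ) : SL(2, ℤ)) := by
  rw [cuspGen_coe]
  exact isPosPar_conj_T_zpow _ (per_T_pos Γ x)

end CuspGen

section Primitive

variable (Γ : Subgroup SL(2, ℤ))

/-- `γ ∈ Γ` is a primitive positive parabolic element: it is positive parabolic and its
centraliser in `Γ` consists of the elements `± γ ^ n`. -/
def IsPrimPar (γ : Γ) : Prop :=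
  IsPosPar (γ : SL(2, ℤ)) ∧ ∀ δ : Γ, δ * γ = γ * δ →
    ∃ n : ℤ, (δ : SL(2, ℤ)) = (γ : SL(2, ℤ)) ^ n ∨ (δ : SL(2, ℤ)) = -(γ : SL(2, ℤ)) ^ n

theorem conj_zpow' (s t : SL(2, ℤ)) (m : ℤ) : (s⁻¹ * t * s) ^ m = s⁻¹ * t ^ m * s := by
  have := conj_zpow (a := s⁻¹) (b := t) (i := m)
  rwa [inv_inv] at this

theorem neg_mem_iff {Γ : Subgroup SL(2, ℤ)} (hneg : (-1 : SL(2, ℤ)) ∈ Γ) (g : SL(2, ℤ)) :
    -g ∈ Γ ↔ g ∈ Γ := by
  have h1 : -g = (-1) * g := by simp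
  constructor
  · intro h
    have : g = (-1) * (-g) := by simp
    rw [this]
    exact Γ.mul_mem hneg h
  · intro h
    rw [h1]
    exact Γ.mul_mem hneg h

variable [Finite (SL(2, ℤ) ⧸ Γ)]

/-- **(A)** `cuspGen Γ x` is a primitive positive parabolic element. -/
theorem isPrimPar_cuspGen (hneg : (-1 : SL(2, ℤ)) ∈ Γ) (x : SL(2, ℤ) ⧸ Γ) :
    IsPrimPar Γ (cuspGen Γ x) := by
  refine ⟨isPosPar_cuspGen Γ x, fun δ hδ => ?_⟩
  set s := sec Γ x with hs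
  set w : ℤ := (per T x : ℤ) with hw
  have hwpos : 0 < w := per_T_pos Γ x
  have hγ : ((cuspGen Γ x : Γ) : SL(2, ℤ)) = s⁻¹ * T ^ w * s := cuspGen_coe Γ x
  have hδ' : (δ : SL(2, ℤ)) * (s⁻¹ * T ^ w * s) = (s⁻¹ * T ^ w * s) * δ := by
    have := congrArg (fun y : Γ => (y : SL(2, ℤ))) hδ
    simpa only [Subgroup.coe_mul, hγ] using this
  have hint : (s * δ * s⁻¹) * T ^ w = T ^ w * (s * δ * s⁻¹) := by
    calc (s * δ * s⁻¹) * T ^ w = s * ((δ : SL(2, ℤ)) * (s⁻¹ * T ^ w * s)) * s⁻¹ := by group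
      _ = s * ((s⁻¹ * T ^ w * s) * δ) * s⁻¹ := by rw [hδ']
      _ = T ^ w * (s * δ * s⁻¹) := by group
  obtain ⟨-, n, hn⟩ := eq_T_zpow_of_intertwine hwpos hint
  -- `s⁻¹ T ^ n s ∈ Γ`
  have hmem : s⁻¹ * T ^ n * s ∈ Γ := by
    rcases hn with hn | hn
    · have : s⁻¹ * T ^ n * s = δ := by rw [← hn]; group
      rw [this]; exact δ.2
    · have : s⁻¹ * T ^ n * s = -(δ : SL(2, ℤ)) := by
        have h1 : T ^ n = -(s * δ * s⁻¹) := by rw [hn, neg_neg]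
        rw [h1]
        simp only [mul_neg, neg_mul, neg_inj]
        group
      rw [this, neg_mem_iff hneg]; exact δ.2
  have hdvd : w ∣ n := by
    have := (conj_T_zpow_mem_iff_dvd Γ s n).mp hmem
    rwa [hs, per_mk_sec] at this
  obtain ⟨m, rfl⟩ := hdvd
  refine ⟨m, ?_⟩
  rw [hγ, conj_zpow', ← _root_.zpow_mul]
  rcases hn with hn | hn
  · left
    rw [← hn]; group
  · right
    have h1 : T ^ (w * m) = -(s * δ * s⁻¹) := by rw [hn, neg_neg]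
    rw [h1]
    simp only [mul_neg, neg_mul, neg_neg]
    group

/-- **(B)** every primitive positive parabolic element of `Γ` is `Γ`-conjugate to some
`cuspGen Γ x`. -/
theorem exists_cuspGen_conj {γ : Γ} (hγ : IsPrimPar Γ γ) :
    ∃ (x : SL(2, ℤ) ⧸ Γ) (δ : Γ), cuspGen Γ x = δ⁻¹ * γ * δ := by
  obtain ⟨g, w, hw, hgw⟩ := (isPosPar_iff _).mp hγ.1
  set x : SL(2, ℤ) ⧸ Γ := (g : SL(2, ℤ) ⧸ Γ) with hx
  set p : ℤ := (per T x : ℤ) with hp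
  have hppos : 0 < p := per_T_pos Γ x
  -- `p ∣ w`
  have hmemw : g⁻¹ * T ^ w * g ∈ Γ := by rw [← hgw]; exact γ.2
  have hpw : p ∣ w := (conj_T_zpow_mem_iff_dvd Γ g w).mp hmemw
  -- the element `g⁻¹ T ^ p g` of `Γ` commutes with `γ`
  have hmemp : g⁻¹ * T ^ p * g ∈ Γ := (conj_T_zpow_mem_iff_dvd Γ g p).mpr dvd_rfl
  have hcomm : (⟨_, hmemp⟩ : Γ) * γ = γ * ⟨_, hmemp⟩ := by
    apply Subtype.ext
    simp only [Subgroup.coe_mul, hgw]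
    have h1 : g⁻¹ * T ^ p * g * (g⁻¹ * T ^ w * g) = g⁻¹ * (T ^ p * T ^ w) * g := by group
    have h2 : g⁻¹ * T ^ w * g * (g⁻¹ * T ^ p * g) = g⁻¹ * (T ^ w * T ^ p) * g := by group
    rw [h1, h2, ← _root_.zpow_add, ← _root_.zpow_add, add_comm]
  obtain ⟨n, hn⟩ := hγ.2 ⟨_, hmemp⟩ hcomm
  simp only [hgw, conj_zpow', ← _root_.zpow_mul] at hn
  -- `T ^ p = ± T ^ (w n)`, so `p = w n`
  have hwp : w ∣ p := by
    rcases hn with hn | hn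
    · have h1 : T ^ p = T ^ (w * n) := by
        have := congrArg (fun y => g * y * g⁻¹) hn
        convert this using 1 <;> group
      have h2 := congrArg (fun M : SL(2, ℤ) => M 0 1) h1
      simp only [T_zpow_apply_01] at h2
      exact ⟨n, h2⟩
    · exfalso
      have h1 : T ^ p = -T ^ (w * n) := by
        have := congrArg (fun y => g * y * g⁻¹) hn
        simp only [mul_neg, neg_mul] at this
        convert this using 1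
        · group
        · congr 1; group
      have h2 := congrArg (fun M : SL(2, ℤ) => M 0 0) h1
      simp only [T_zpow_apply_00, SL2.neg_apply] at h2
      norm_num at h2
  have hpeq : p = w := Int.dvd_antisymm hppos.le hw.le hpw hwp
  obtain ⟨δ, hδ⟩ := cuspGen_conj_rep Γ g
  refine ⟨x, δ, Subtype.ext ?_⟩
  rw [hδ, ← hp, hpeq, ← hgw]
  rfl

/-- **(C)** if `cuspGen Γ x` and `cuspGen Γ y` are `Γ`-conjugate, `x` and `y` are in the same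
`T`-orbit. -/
theorem orbit_of_cuspGen_conj (hneg : (-1 : SL(2, ℤ)) ∈ Γ) {x y : SL(2, ℤ) ⧸ Γ} {δ : Γ}
    (h : cuspGen Γ x = δ⁻¹ * cuspGen Γ y * δ) :
    ∃ n : ℤ, y = T ^ n • x := by
  have h' := congrArg (fun z : Γ => (z : SL(2, ℤ))) h
  simp only [Subgroup.coe_mul, Subgroup.coe_inv, cuspGen_coe] at h'
  set sx := sec Γ x
  set sy := sec Γ y
  set w : ℤ := (per T x : ℤ)
  set w' : ℤ := (per T y : ℤ)
  have hint : (sy * δ * sx⁻¹) * T ^ w = T ^ w' * (sy * δ * sx⁻¹) := by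
    calc (sy * δ * sx⁻¹) * T ^ w = sy * δ * (sx⁻¹ * T ^ w * sx) * sx⁻¹ := by group
      _ = sy * δ * ((δ : SL(2, ℤ))⁻¹ * (sy⁻¹ * T ^ w' * sy) * δ) * sx⁻¹ := by rw [h']
      _ = T ^ w' * (sy * δ * sx⁻¹) := by group
  obtain ⟨-, n, hn⟩ := eq_T_zpow_of_intertwine (per_T_pos Γ y) hint
  refine ⟨n, ?_⟩
  have hy : y = ((sy * δ : SL(2, ℤ)) : SL(2, ℤ) ⧸ Γ) := by
    rw [mul_mem_coset, mk_sec]
  have hx : T ^ n • x = ((T ^ n * sx : SL(2, ℤ)) : SL(2, ℤ) ⧸ Γ) := by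
    conv_lhs => rw [← mk_sec Γ x]
    rfl
  rw [hy, hx]
  rcases hn with hn | hn
  · have : sy * δ = T ^ n * sx := by rw [← hn]; group
    rw [this]
  · have : sy * δ = -(T ^ n * sx) := by
      have h1 : T ^ n = -(sy * δ * sx⁻¹) := by rw [hn, neg_neg]
      rw [h1]
      simp only [neg_mul, neg_neg]
      group
    rw [this, neg_coset Γ hneg]

omit [Finite (SL(2, ℤ) ⧸ Γ)] in
theorem per_T_zpow_smul (n : ℤ) (x : SL(2, ℤ) ⧸ Γ) : per T (T ^ n • x) = per T x := by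
  unfold per
  rw [Function.minimalPeriod_eq_minimalPeriod_iff]
  intro k
  simp only [Function.IsPeriodicPt, Function.IsFixedPt, smul_iterate]
  constructor
  · intro h
    have h1 : T ^ n • (T ^ k • x) = T ^ n • x := by
      have hc : (T : SL(2, ℤ)) ^ n * T ^ k = T ^ k * T ^ n :=
        (((Commute.refl (T : SL(2, ℤ))).zpow_left n).pow_right k).eq
      rw [← mul_smul, hc, mul_smul]
      exact h
    exact smul_left_cancel _ h1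
  · intro h
    have hc : (T : SL(2, ℤ)) ^ k * T ^ n = T ^ n * T ^ k :=
      (((Commute.refl (T : SL(2, ℤ))).zpow_left n).pow_right k).eq.symm
    rw [← mul_smul, hc, mul_smul, h]

omit [Finite (SL(2, ℤ) ⧸ Γ)] in
/-- **(D)** along a `T`-orbit the elements `cuspGen Γ x` are `Γ`-conjugate. -/
theorem cuspGen_zpow_smul (n : ℤ) (x : SL(2, ℤ) ⧸ Γ) :
    ∃ δ : Γ, cuspGen Γ (T ^ n • x) = δ⁻¹ * cuspGen Γ x * δ := by
  have hx : T ^ n • x = ((T ^ n * sec Γ x : SL(2, ℤ)) : SL(2, ℤ) ⧸ Γ) := by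
    conv_lhs => rw [← mk_sec Γ x]
    rfl
  obtain ⟨δ, hδ⟩ := exists_sec_eq Γ (T ^ n * sec Γ x)
  rw [← hx] at hδ
  refine ⟨δ, Subtype.ext ?_⟩
  simp only [Subgroup.coe_mul, Subgroup.coe_inv, cuspGen_coe, hδ, per_T_zpow_smul]
  have hc : (T ^ n)⁻¹ * T ^ (per T x : ℤ) * T ^ n = T ^ (per T x : ℤ) := by
    rw [← _root_.zpow_neg, ← _root_.zpow_add, ← _root_.zpow_add]
    congr 1
    ring
  calc (T ^ n * sec Γ x * δ)⁻¹ * T ^ (per T x : ℤ) * (T ^ n * sec Γ x * δ)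
      = (δ : SL(2, ℤ))⁻¹ * ((sec Γ x)⁻¹ * ((T ^ n)⁻¹ * T ^ (per T x : ℤ) * T ^ n) * sec Γ x) * δ := by
        group
    _ = (δ : SL(2, ℤ))⁻¹ * ((sec Γ x)⁻¹ * T ^ (per T x : ℤ) * sec Γ x) * δ := by rw [hc]

end Primitive

section Transport

variable {Γ₁ Γ₂ : Subgroup SL(2, ℤ)}

/-- the properties of an isomorphism `c : Γ₁ ≃* Γ₂` (in practice: conjugation by a rational
matrix of positive determinant) used for the cusp bookkeeping. -/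
structure IsCuspIso (c : Γ₁ ≃* Γ₂) : Prop where
  /-- traces are preserved -/
  trace_eq : ∀ γ : Γ₁, ((c γ : Γ₂) : SL(2, ℤ)) 0 0 + ((c γ : Γ₂) : SL(2, ℤ)) 1 1
    = (γ : SL(2, ℤ)) 0 0 + (γ : SL(2, ℤ)) 1 1
  /-- positive parabolic elements are preserved -/
  posPar : ∀ γ : Γ₁, IsPosPar (γ : SL(2, ℤ)) ↔ IsPosPar ((c γ : Γ₂) : SL(2, ℤ))
  /-- negation is preserved -/
  neg : ∀ γ δ : Γ₁, (δ : SL(2, ℤ)) = -(γ : SL(2, ℤ)) ↔
    ((c δ : Γ₂) : SL(2, ℤ)) = -((c γ : Γ₂) : SL(2, ℤ))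

theorem IsCuspIso.symm {c : Γ₁ ≃* Γ₂} (hc : IsCuspIso c) : IsCuspIso c.symm where
  trace_eq γ := by
    have := hc.trace_eq (c.symm γ)
    rw [MulEquiv.apply_symm_apply] at this
    exact this.symm
  posPar γ := by
    have := hc.posPar (c.symm γ)
    rw [MulEquiv.apply_symm_apply] at this
    exact this.symm
  neg γ δ := by
    have := hc.neg (c.symm γ) (c.symm δ)
    rw [MulEquiv.apply_symm_apply, MulEquiv.apply_symm_apply] at this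
    exact this.symm

/-- primitive positive parabolic elements are preserved. -/
theorem IsCuspIso.isPrimPar {c : Γ₁ ≃* Γ₂} (hc : IsCuspIso c) {γ : Γ₁} (hγ : IsPrimPar Γ₁ γ) :
    IsPrimPar Γ₂ (c γ) := by
  refine ⟨(hc.posPar γ).mp hγ.1, fun δ hδ => ?_⟩
  have h1 : c.symm δ * γ = γ * c.symm δ := by
    apply c.injective
    rw [map_mul, map_mul, MulEquiv.apply_symm_apply]
    exact hδ
  obtain ⟨n, hn⟩ := hγ.2 (c.symm δ) h1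
  refine ⟨n, ?_⟩
  rcases hn with hn | hn
  · left
    have h2 : c.symm δ = γ ^ n := Subtype.ext (by rw [hn, Subgroup.coe_zpow])
    have h3 : δ = (c γ) ^ n := by
      rw [← map_zpow, ← h2, MulEquiv.apply_symm_apply]
    rw [h3, Subgroup.coe_zpow]
  · right
    have h2 : ((c.symm δ : Γ₁) : SL(2, ℤ)) = -((γ ^ n : Γ₁) : SL(2, ℤ)) := by
      rw [hn, Subgroup.coe_zpow]
    have h3 := (hc.neg (γ ^ n) (c.symm δ)).mp h2
    rw [MulEquiv.apply_symm_apply, map_zpow, Subgroup.coe_zpow] at h3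
    exact h3

variable [Finite (SL(2, ℤ) ⧸ Γ₁)] [Finite (SL(2, ℤ) ⧸ Γ₂)]

/-- the correspondence between the cosets of `Γ₁` and `Γ₂`: the generators of the cusp
stabilisers correspond under `c` up to conjugacy. -/
def CuspRel (c : Γ₁ ≃* Γ₂) (x : SL(2, ℤ) ⧸ Γ₁) (y : SL(2, ℤ) ⧸ Γ₂) : Prop :=
  ∃ δ : Γ₂, c (cuspGen Γ₁ x) = δ⁻¹ * cuspGen Γ₂ y * δ

omit [Finite (SL(2, ℤ) ⧸ Γ₁)] [Finite (SL(2, ℤ) ⧸ Γ₂)] in
theorem cuspRel_symm {c : Γ₁ ≃* Γ₂} {x : SL(2, ℤ) ⧸ Γ₁} {y : SL(2, ℤ) ⧸ Γ₂}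
    (h : CuspRel c x y) : CuspRel c.symm y x := by
  obtain ⟨δ, hδ⟩ := h
  refine ⟨c.symm δ⁻¹, ?_⟩
  apply c.injective
  rw [MulEquiv.apply_symm_apply, map_mul, map_mul, map_inv, MulEquiv.apply_symm_apply, hδ]
  group

theorem exists_cuspRel {c : Γ₁ ≃* Γ₂} (hc : IsCuspIso c) (h₁ : (-1 : SL(2, ℤ)) ∈ Γ₁)
    (x : SL(2, ℤ) ⧸ Γ₁) : ∃ y : SL(2, ℤ) ⧸ Γ₂, CuspRel c x y := by
  obtain ⟨y, δ, hδ⟩ := exists_cuspGen_conj Γ₂ (hc.isPrimPar (isPrimPar_cuspGen Γ₁ h₁ x))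
  refine ⟨y, δ⁻¹, ?_⟩
  rw [hδ]
  group

omit [Finite (SL(2, ℤ) ⧸ Γ₁)] in
theorem cuspRel_unique {c : Γ₁ ≃* Γ₂} (h₂ : (-1 : SL(2, ℤ)) ∈ Γ₂)
    {x : SL(2, ℤ) ⧸ Γ₁} {y y' : SL(2, ℤ) ⧸ Γ₂} (h : CuspRel c x y) (h' : CuspRel c x y') :
    ∃ n : ℤ, y' = T ^ n • y := by
  obtain ⟨δ, hδ⟩ := h
  obtain ⟨δ', hδ'⟩ := h'
  have : cuspGen Γ₂ y = (δ' * δ⁻¹)⁻¹ * cuspGen Γ₂ y' * (δ' * δ⁻¹) := by
    have h1 : cuspGen Γ₂ y = δ * c (cuspGen Γ₁ x) * δ⁻¹ := by rw [hδ]; group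
    rw [h1, hδ']
    group
  exact orbit_of_cuspGen_conj Γ₂ h₂ this

omit [Finite (SL(2, ℤ) ⧸ Γ₁)] [Finite (SL(2, ℤ) ⧸ Γ₂)] in
theorem cuspRel_zpow_smul_left {c : Γ₁ ≃* Γ₂} {x : SL(2, ℤ) ⧸ Γ₁} {y : SL(2, ℤ) ⧸ Γ₂}
    (h : CuspRel c x y) (n : ℤ) : CuspRel c (T ^ n • x) y := by
  obtain ⟨δ, hδ⟩ := h
  obtain ⟨ε, hε⟩ := cuspGen_zpow_smul Γ₁ n x
  refine ⟨δ * c ε, ?_⟩
  rw [hε, map_mul, map_mul, map_inv, hδ]
  group

omit [Finite (SL(2, ℤ) ⧸ Γ₁)] [Finite (SL(2, ℤ) ⧸ Γ₂)] in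
theorem cuspRel_zpow_smul_right {c : Γ₁ ≃* Γ₂} {x : SL(2, ℤ) ⧸ Γ₁} {y : SL(2, ℤ) ⧸ Γ₂}
    (h : CuspRel c x y) (n : ℤ) : CuspRel c x (T ^ n • y) := by
  obtain ⟨δ, hδ⟩ := h
  obtain ⟨ε, hε⟩ := cuspGen_zpow_smul Γ₂ n y
  refine ⟨ε⁻¹ * δ, ?_⟩
  rw [hε, hδ]
  group

/-- the `T`-orbits on the cosets of `Γ` (= the cusps of `Γ`). -/
abbrev CuspOrb (Γ : Subgroup SL(2, ℤ)) : Type :=
  MulAction.orbitRel.Quotient (Subgroup.zpowers (T : SL(2, ℤ))) (SL(2, ℤ) ⧸ Γ)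

omit [Finite (SL(2, ℤ) ⧸ Γ₁)] [Finite (SL(2, ℤ) ⧸ Γ₂)] in
theorem cuspOrb_mk_eq_iff {Γ : Subgroup SL(2, ℤ)} {x y : SL(2, ℤ) ⧸ Γ} :
    (Quotient.mk'' y : CuspOrb Γ) = Quotient.mk'' x ↔ ∃ n : ℤ, y = T ^ n • x := by
  rw [Quotient.eq'']
  show (MulAction.orbitRel _ _) y x ↔ _
  rw [MulAction.orbitRel_apply, MulAction.mem_orbit_iff]
  constructor
  · rintro ⟨⟨t, ht⟩, rfl⟩
    obtain ⟨n, rfl⟩ := Subgroup.mem_zpowers_iff.mp ht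
    exact ⟨n, rfl⟩
  · rintro ⟨n, rfl⟩
    exact ⟨⟨T ^ n, Subgroup.zpow_mem_zpowers T n⟩, rfl⟩

omit [Finite (SL(2, ℤ) ⧸ Γ₁)] [Finite (SL(2, ℤ) ⧸ Γ₂)] in
theorem exists_out_eq {Γ : Subgroup SL(2, ℤ)} (x : SL(2, ℤ) ⧸ Γ) :
    ∃ n : ℤ, Quotient.out (Quotient.mk'' x : CuspOrb Γ) = T ^ n • x :=
  cuspOrb_mk_eq_iff.mp (Quotient.out_eq' _)

/-- the map on cusps induced by `c`. -/
def cuspMap {c : Γ₁ ≃* Γ₂} (hc : IsCuspIso c) (h₁ : (-1 : SL(2, ℤ)) ∈ Γ₁) :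
    CuspOrb Γ₁ → CuspOrb Γ₂ :=
  fun o => Quotient.mk'' (Classical.choose (exists_cuspRel hc h₁ (Quotient.out o)))

theorem cuspMap_spec {c : Γ₁ ≃* Γ₂} (hc : IsCuspIso c) (h₁ : (-1 : SL(2, ℤ)) ∈ Γ₁)
    (o : CuspOrb Γ₁) : CuspRel c (Quotient.out o) (Quotient.out (cuspMap hc h₁ o)) := by
  have h := Classical.choose_spec (exists_cuspRel hc h₁ (Quotient.out o))
  obtain ⟨n, hn⟩ := exists_out_eq (Classical.choose (exists_cuspRel hc h₁ (Quotient.out o)))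
  unfold cuspMap
  rw [hn]
  exact cuspRel_zpow_smul_right h n

theorem cuspMap_eq_of_cuspRel {c : Γ₁ ≃* Γ₂} (hc : IsCuspIso c) (h₁ : (-1 : SL(2, ℤ)) ∈ Γ₁)
    (h₂ : (-1 : SL(2, ℤ)) ∈ Γ₂) {x : SL(2, ℤ) ⧸ Γ₁} {y : SL(2, ℤ) ⧸ Γ₂} (h : CuspRel c x y) :
    cuspMap hc h₁ (Quotient.mk'' x) = Quotient.mk'' y := by
  have h1 := cuspMap_spec hc h₁ (Quotient.mk'' x)
  obtain ⟨n, hn⟩ := exists_out_eq x
  rw [hn] at h1
  -- `CuspRel c (T ^ n • x) (out (cuspMap ..))`, hence `CuspRel c x (out (cuspMap ..))`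
  have h2 := cuspRel_zpow_smul_left h1 (-n)
  rw [← mul_smul, ← _root_.zpow_add, neg_add_cancel, zpow_zero, one_smul] at h2
  obtain ⟨m, hm⟩ := cuspRel_unique h₂ h h2
  rw [← Quotient.out_eq' (cuspMap hc h₁ (Quotient.mk'' x))]
  exact cuspOrb_mk_eq_iff.mpr ⟨m, hm⟩

theorem cuspMap_symm_cuspMap {c : Γ₁ ≃* Γ₂} (hc : IsCuspIso c) (h₁ : (-1 : SL(2, ℤ)) ∈ Γ₁)
    (h₂ : (-1 : SL(2, ℤ)) ∈ Γ₂) (o : CuspOrb Γ₁) :
    cuspMap hc.symm h₂ (cuspMap hc h₁ o) = o := by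
  have h1 := cuspRel_symm (cuspMap_spec hc h₁ o)
  have h2 := cuspMap_eq_of_cuspRel hc.symm h₂ h₁ h1
  rwa [Quotient.out_eq', Quotient.out_eq'] at h2

/-- **the bijection on cusps** induced by `c`. -/
def cuspEquiv {c : Γ₁ ≃* Γ₂} (hc : IsCuspIso c) (h₁ : (-1 : SL(2, ℤ)) ∈ Γ₁)
    (h₂ : (-1 : SL(2, ℤ)) ∈ Γ₂) : CuspOrb Γ₁ ≃ CuspOrb Γ₂ where
  toFun := cuspMap hc h₁
  invFun := cuspMap hc.symm h₂
  left_inv := cuspMap_symm_cuspMap hc h₁ h₂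
  right_inv o := by
    have := cuspMap_symm_cuspMap hc.symm h₂ h₁ o
    exact this

/-- `c` maps the generator of the stabiliser of a cusp to a `Γ₂`-conjugate of the generator of
the stabiliser of the corresponding cusp. -/
theorem cuspEquiv_spec {c : Γ₁ ≃* Γ₂} (hc : IsCuspIso c) (h₁ : (-1 : SL(2, ℤ)) ∈ Γ₁)
    (h₂ : (-1 : SL(2, ℤ)) ∈ Γ₂) (o : CuspOrb Γ₁) :
    ∃ δ : Γ₂, c (cuspGen Γ₁ (Quotient.out o))
      = δ⁻¹ * cuspGen Γ₂ (Quotient.out (cuspEquiv hc h₁ h₂ o)) * δ :=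
  cuspMap_spec hc h₁ o

end Transport

section Matrix

variable {Γ₁ Γ₂ : Subgroup SL(2, ℤ)}

/-- conjugation by an integral matrix of positive determinant is a cusp isomorphism. -/
theorem isCuspIso_of_matrix (c : Γ₁ ≃* Γ₂) (α : Matrix (Fin 2) (Fin 2) ℤ) (hα : 0 < α.det)
    (h : ∀ γ : Γ₁, α * ((γ : SL(2, ℤ)) : Matrix (Fin 2) (Fin 2) ℤ)
      = (((c γ : Γ₂) : SL(2, ℤ)) : Matrix (Fin 2) (Fin 2) ℤ) * α) : IsCuspIso c where
  trace_eq γ := trace_eq_of_intertwine hα.ne' (h γ)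
  posPar γ := by
    refine ⟨isPosPar_of_intertwine hα (h γ), ?_⟩
    have hadj : 0 < α.adjugate.det := by rw [det_adjugate_two]; exact hα
    exact isPosPar_of_intertwine hadj (intertwine_adjugate hα.ne' (h γ))
  neg γ δ := by
    refine ⟨neg_of_intertwine hα.ne' (h γ) (h δ), ?_⟩
    have hadj : α.adjugate.det ≠ 0 := by rw [det_adjugate_two]; exact hα.ne'
    exact neg_of_intertwine hadj (intertwine_adjugate hα.ne' (h γ))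
      (intertwine_adjugate hα.ne' (h δ))

end Matrix

end Fermat.Agent.S41.PD
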