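/-
P-S41 block (4), PD3: the presentation `SL(2,ℤ) = ⟨s, u | s⁴ = 1, s² = u³⟩`
(equivalently `PSL(2,ℤ) = C₂ * C₃`), in universal-property form.

Proof: ping-pong by hand.  In any group `F` generated by `A, B` with `A⁴ = 1`, `A² = B³`
every element has the shape `(A²)^e * B^i * m * A^j` with `m` a product of blocks `A*B`, `A*B²`;
under `π : F → SL(2,ℤ)`, `A ↦ S`, `B ↦ S*T`, the blocks go to `-T`, `-L`, so `π m` has all entries
of one sign, while `(S*T)^(-i) * S^(-j)` has entries of both signs unless `i = j = 0`.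
-/
import Mathlib

namespace Fermat.Agent.S41.PD

open Matrix ModularGroup
open scoped MatrixGroups

section Signs

/-- all four entries are nonnegative -/
def NonNeg (g : SL(2,ℤ)) : Prop :=
  0 ≤ g.1 0 0 ∧ 0 ≤ g.1 0 1 ∧ 0 ≤ g.1 1 0 ∧ 0 ≤ g.1 1 1

/-- all four entries are nonpositive -/
def NonPos (g : SL(2,ℤ)) : Prop :=
  g.1 0 0 ≤ 0 ∧ g.1 0 1 ≤ 0 ∧ g.1 1 0 ≤ 0 ∧ g.1 1 1 ≤ 0

/-- all four entries have the same sign -/
def OneSign (g : SL(2,ℤ)) : Prop := NonNeg g ∨ NonPos g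

lemma det_eq (g : SL(2,ℤ)) : g.1 0 0 * g.1 1 1 - g.1 0 1 * g.1 1 0 = 1 := by
  have := g.2
  rwa [Matrix.det_fin_two] at this

lemma S_mul_ST_mul_apply (g : SL(2,ℤ)) :
    (S * (S * T) * g).1 0 0 = -(g.1 0 0 + g.1 1 0) ∧
    (S * (S * T) * g).1 0 1 = -(g.1 0 1 + g.1 1 1) ∧
    (S * (S * T) * g).1 1 0 = -(g.1 1 0) ∧
    (S * (S * T) * g).1 1 1 = -(g.1 1 1) := by
  simp [coe_S, coe_T, Matrix.mul_apply, Fin.sum_univ_two]
  refine ⟨by ring, by ring⟩

lemma S_mul_ST_sq_mul_apply (g : SL(2,ℤ)) :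
    (S * (S * T) ^ 2 * g).1 0 0 = -(g.1 0 0) ∧
    (S * (S * T) ^ 2 * g).1 0 1 = -(g.1 0 1) ∧
    (S * (S * T) ^ 2 * g).1 1 0 = -(g.1 0 0 + g.1 1 0) ∧
    (S * (S * T) ^ 2 * g).1 1 1 = -(g.1 0 1 + g.1 1 1) := by
  simp [pow_two, coe_S, coe_T, Matrix.mul_apply, Fin.sum_univ_two]
  refine ⟨by ring, by ring⟩

end Signs

section Words

variable {F : Type*} [Group F] (A B : F)

/-- products of the blocks `A * B` and `A * B ^ 2` -/
inductive Mon : F → Prop
  | one : Mon 1
  | cons1 {m : F} : Mon m → Mon (A * B * m)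
  | cons2 {m : F} : Mon m → Mon (A * B ^ 2 * m)

variable {A B}

lemma oneSign_of_mon (π : F →* SL(2,ℤ)) (hA : π A = S) (hB : π B = S * T) {m : F}
    (hm : Mon A B m) : OneSign (π m) := by
  induction hm with
  | one => left; simp [NonNeg]
  | @cons1 m _ ih =>
    obtain ⟨h00, h01, h10, h11⟩ := S_mul_ST_mul_apply (π m)
    simp only [map_mul, hA, hB]
    rcases ih with ih | ih
    · right
      obtain ⟨i1, i2, i3, i4⟩ := ih
      refine ⟨?_, ?_, ?_, ?_⟩ <;> [rw [h00]; rw [h01]; rw [h10]; rw [h11]] <;> omega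
    · left
      obtain ⟨i1, i2, i3, i4⟩ := ih
      refine ⟨?_, ?_, ?_, ?_⟩ <;> [rw [h00]; rw [h01]; rw [h10]; rw [h11]] <;> omega
  | @cons2 m _ ih =>
    obtain ⟨h00, h01, h10, h11⟩ := S_mul_ST_sq_mul_apply (π m)
    simp only [map_mul, map_pow, hA, hB]
    rcases ih with ih | ih
    · right
      obtain ⟨i1, i2, i3, i4⟩ := ih
      refine ⟨?_, ?_, ?_, ?_⟩ <;> [rw [h00]; rw [h01]; rw [h10]; rw [h11]] <;> omega
    · left
      obtain ⟨i1, i2, i3, i4⟩ := ih
      refine ⟨?_, ?_, ?_, ?_⟩ <;> [rw [h00]; rw [h01]; rw [h10]; rw [h11]] <;> omega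

/-- a nonempty product of blocks is not `± 1` -/
lemma mon_eq_one (π : F →* SL(2,ℤ)) (hA : π A = S) (hB : π B = S * T) {m : F}
    (hm : Mon A B m) (h : π m = 1 ∨ π m = -1) : m = 1 := by
  cases hm with
  | one => rfl
  | @cons1 m hm =>
    exfalso
    obtain ⟨h00, h01, h10, h11⟩ := S_mul_ST_mul_apply (π m)
    have hd := det_eq (π m)
    simp only [map_mul, hA, hB] at h
    have hs := oneSign_of_mon π hA hB hm
    rcases h with h | h
    · rw [h] at h00 h01 h10 h11
      simp at h00 h01 h10 h11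
      rcases hs with ⟨i1, i2, i3, i4⟩ | ⟨i1, i2, i3, i4⟩ <;> nlinarith
    · rw [h] at h00 h01 h10 h11
      simp at h00 h01 h10 h11
      rcases hs with ⟨i1, i2, i3, i4⟩ | ⟨i1, i2, i3, i4⟩ <;> nlinarith
  | @cons2 m hm =>
    exfalso
    obtain ⟨h00, h01, h10, h11⟩ := S_mul_ST_sq_mul_apply (π m)
    have hd := det_eq (π m)
    simp only [map_mul, map_pow, hA, hB] at h
    have hs := oneSign_of_mon π hA hB hm
    rcases h with h | h
    · rw [h] at h00 h01 h10 h11
      simp at h00 h01 h10 h11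
      rcases hs with ⟨i1, i2, i3, i4⟩ | ⟨i1, i2, i3, i4⟩ <;> nlinarith
    · rw [h] at h00 h01 h10 h11
      simp at h00 h01 h10 h11
      rcases hs with ⟨i1, i2, i3, i4⟩ | ⟨i1, i2, i3, i4⟩ <;> nlinarith

/-- normal forms `(A²)^e * B^i * m * A^j` -/
def NF (A B : F) (x : F) : Prop :=
  ∃ (e i j : ℕ) (m : F), Mon A B m ∧ i < 3 ∧ j < 2 ∧ x = (A ^ 2) ^ e * B ^ i * m * A ^ j

lemma nf_one : NF A B 1 := ⟨0, 0, 0, 1, Mon.one, by omega, by omega, by simp⟩

lemma commute_sq_B (hAB : A ^ 2 = B ^ 3) : Commute (A ^ 2) B := by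
  rw [hAB]; exact (Commute.refl B).pow_left 3

lemma commute_sq_A : Commute (A ^ 2) A := (Commute.refl A).pow_left 2

lemma nf_B_mul (hAB : A ^ 2 = B ^ 3) {x : F} (hx : NF A B x) : NF A B (B * x) := by
  obtain ⟨e, i, j, m, hm, hi, hj, rfl⟩ := hx
  have hc : Commute B ((A ^ 2) ^ e) := ((commute_sq_B hAB).pow_left e).symm
  by_cases h2 : i = 2
  · subst h2
    refine ⟨e + 1, 0, j, m, hm, by omega, hj, ?_⟩
    have : B * ((A ^ 2) ^ e * B ^ 2) = (A ^ 2) ^ (e + 1) := by
      rw [← mul_assoc, hc.eq, mul_assoc, ← pow_succ', ← hAB, ← pow_succ]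
    simp only [pow_zero, mul_one]
    rw [← this]; group
  · refine ⟨e, i + 1, j, m, hm, by omega, hj, ?_⟩
    have : B * ((A ^ 2) ^ e * B ^ i) = (A ^ 2) ^ e * B ^ (i + 1) := by
      rw [← mul_assoc, hc.eq, mul_assoc, ← pow_succ']
    rw [← this]; group

lemma nf_A_mul {x : F} (hx : NF A B x) : NF A B (A * x) := by
  obtain ⟨e, i, j, m, hm, hi, hj, rfl⟩ := hx
  have hc : Commute A ((A ^ 2) ^ e) := (commute_sq_A.pow_left e).symm
  have key : ∀ y : F, A * ((A ^ 2) ^ e * y) = (A ^ 2) ^ e * (A * y) := fun y => by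
    rw [← mul_assoc, hc.eq, mul_assoc]
  have hi' : i = 0 ∨ i = 1 ∨ i = 2 := by omega
  rcases hi' with rfl | rfl | rfl
  · -- `A * m * A^j`
    cases hm with
    | one =>
      have hj' : j = 0 ∨ j = 1 := by omega
      rcases hj' with rfl | rfl
      · exact ⟨e, 0, 1, 1, Mon.one, by omega, by omega, by simp [hc.eq]⟩
      · refine ⟨e + 1, 0, 0, 1, Mon.one, by omega, by omega, ?_⟩
        simp only [pow_zero, mul_one, pow_one]
        rw [key, pow_succ (A ^ 2) e, pow_two]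
    | @cons1 m hm =>
      refine ⟨e + 1, 1, j, m, hm, by omega, hj, ?_⟩
      simp only [pow_zero, mul_one, pow_one]
      rw [pow_succ (A ^ 2) e]
      have : A * ((A ^ 2) ^ e * (A * B * m) * A ^ j)
          = (A ^ 2) ^ e * (A * (A * B * m * A ^ j)) := by
        rw [← key]; group
      rw [this, pow_two]; group
    | @cons2 m hm =>
      refine ⟨e + 1, 2, j, m, hm, by omega, hj, ?_⟩
      simp only [pow_zero, mul_one]
      rw [pow_succ (A ^ 2) e]
      have : A * ((A ^ 2) ^ e * (A * B ^ 2 * m) * A ^ j)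
          = (A ^ 2) ^ e * (A * (A * B ^ 2 * m * A ^ j)) := by
        rw [← key]; group
      rw [this, pow_two]; group
  · refine ⟨e, 0, j, A * B * m, Mon.cons1 hm, by omega, hj, ?_⟩
    simp only [pow_zero, mul_one, pow_one]
    have : A * ((A ^ 2) ^ e * B * m * A ^ j) = (A ^ 2) ^ e * (A * (B * m * A ^ j)) := by
      rw [← key]; group
    rw [this]; group
  · refine ⟨e, 0, j, A * B ^ 2 * m, Mon.cons2 hm, by omega, hj, ?_⟩
    simp only [pow_zero, mul_one]
    have : A * ((A ^ 2) ^ e * B ^ 2 * m * A ^ j) = (A ^ 2) ^ e * (A * (B ^ 2 * m * A ^ j)) := by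
      rw [← key]; group
    rw [this]; group

lemma nf_all (hA : A ^ 4 = 1) (hAB : A ^ 2 = B ^ 3) (hgen : Subgroup.closure {A, B} = ⊤)
    (x : F) : NF A B x := by
  have hx : x ∈ Subgroup.closure {A, B} := by rw [hgen]; trivial
  have hAinv : A⁻¹ = A * (A * A) := by
    rw [inv_eq_iff_mul_eq_one, ← hA]; simp only [pow_succ, pow_zero, one_mul, mul_assoc]
  have hB6 : B ^ 6 = 1 := by
    rw [show 6 = 3 * 2 from rfl, pow_mul, ← hAB, ← pow_mul]; exact hA
  have hBinv : B⁻¹ = B * (B * (B * (B * B))) := by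
    rw [inv_eq_iff_mul_eq_one, ← hB6]; simp only [pow_succ, pow_zero, one_mul, mul_assoc]
  induction hx using Subgroup.closure_induction_left with
  | one => exact nf_one
  | mul_left g hg y _ ih =>
    rcases hg with rfl | rfl
    · exact nf_A_mul ih
    · exact nf_B_mul hAB ih
  | inv_mul_cancel g hg y _ ih =>
    rcases hg with rfl | rfl
    · rw [hAinv, mul_assoc, mul_assoc]
      exact nf_A_mul (nf_A_mul (nf_A_mul ih))
    · rw [hBinv]
      simp only [mul_assoc]
      exact nf_B_mul hAB (nf_B_mul hAB (nf_B_mul hAB (nf_B_mul hAB (nf_B_mul hAB ih))))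

lemma S_sq : (S : SL(2,ℤ)) ^ 2 = -1 := by
  ext i j
  fin_cases i <;> fin_cases j <;> simp [pow_two, coe_S, Matrix.mul_apply, Fin.sum_univ_two]

lemma ST_cube : (S * T : SL(2,ℤ)) ^ 3 = -1 := by
  ext i j
  fin_cases i <;> fin_cases j <;>
    simp [pow_succ, coe_S, coe_T, Matrix.mul_apply, Fin.sum_univ_two]

/-- **Ping-pong**: a group generated by `A, B` with `A⁴ = 1`, `A² = B³` that maps to `SL(2,ℤ)`
by `A ↦ S`, `B ↦ S * T` does so injectively. -/
theorem injective_of_relations (hA4 : A ^ 4 = 1) (hAB : A ^ 2 = B ^ 3)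
    (hgen : Subgroup.closure {A, B} = ⊤) (π : F →* SL(2,ℤ)) (hA : π A = S) (hB : π B = S * T) :
    Function.Injective π := by
  rw [injective_iff_map_eq_one]
  intro x hx
  obtain ⟨e, i, j, m, hm, hi, hj, rfl⟩ := nf_all hA4 hAB hgen x
  have hs := oneSign_of_mon π hA hB hm
  have hd := det_eq (π m)
  simp only [map_mul, map_pow, hA, hB, S_sq] at hx
  have hi' : i = 0 ∨ i = 1 ∨ i = 2 := by omega
  have hj' : j = 0 ∨ j = 1 := by omega
  have hε := neg_one_pow_eq_or (SL(2,ℤ)) e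
  -- the equation on matrices
  have hM := Matrix.eta_fin_two (π m).1
  have hx' := congrArg Subtype.val hx
  rcases hi' with rfl | rfl | rfl <;> rcases hj' with rfl | rfl
  · -- `i = 0`, `j = 0`
    simp only [pow_zero, mul_one] at hx ⊢
    have hm1 : m = 1 := by
      apply mon_eq_one π hA hB hm
      rcases hε with h | h
      · left; rw [h, one_mul] at hx; exact hx
      · right; rw [h] at hx
        have : π m = -1 * (-1 * π m) := by simp
        rw [this, hx]; simp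
    subst hm1
    simp only [mul_one, map_one] at hx ⊢
    have hne : (-1 : SL(2,ℤ)) ≠ 1 := by
      intro h
      have := congrArg (fun g : SL(2,ℤ) => g.1 0 0) h
      simp at this
    obtain ⟨k, rfl⟩ := (neg_one_pow_eq_one_iff_even hne).mp hx
    rw [← pow_mul, show 2 * (k + k) = 4 * k by ring, pow_mul, hA4, one_pow]
  all_goals
    exfalso
    rcases hε with h | h <;> rw [h] at hx' <;>
    simp only [Matrix.SpecialLinearGroup.coe_mul, Matrix.SpecialLinearGroup.coe_pow,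
      Matrix.SpecialLinearGroup.coe_neg, Matrix.SpecialLinearGroup.coe_one, coe_S, coe_T] at hx' <;>
    rw [hM] at hx' <;>
    simp [pow_succ, Matrix.one_fin_two] at hx' <;>
    rcases hs with ⟨i1, i2, i3, i4⟩ | ⟨i1, i2, i3, i4⟩ <;> omega

end Words

section Lift

lemma S_pow_four : (S : SL(2,ℤ)) ^ 4 = 1 := by
  rw [show 4 = 2 * 2 from rfl, pow_mul, S_sq]; simp

lemma S_sq_eq_ST_cube : (S : SL(2,ℤ)) ^ 2 = (S * T) ^ 3 := by rw [S_sq, ST_cube]

/-- `S` and `S * T` generate `SL(2,ℤ)`. -/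
lemma closure_S_ST : Subgroup.closure {(S : SL(2,ℤ)), S * T} = ⊤ := by
  rw [eq_top_iff, ← SpecialLinearGroup.SL2Z_generators, Subgroup.closure_le]
  rintro g (rfl | rfl)
  · exact Subgroup.subset_closure (by simp)
  · have h1 : (S : SL(2,ℤ)) ∈ Subgroup.closure {(S : SL(2,ℤ)), S * T} :=
      Subgroup.subset_closure (by simp)
    have h2 : (S * T : SL(2,ℤ)) ∈ Subgroup.closure {(S : SL(2,ℤ)), S * T} :=
      Subgroup.subset_closure (by simp)
    have : (T : SL(2,ℤ)) = S⁻¹ * (S * T) := by group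
    have h3 := mul_mem (inv_mem h1) h2
    rw [← this] at h3
    exact h3

/-- **Presentation of `SL(2,ℤ)`** `= ⟨s, u | s⁴ = 1, s² = u³⟩`, universal property:
any `a, b` in a group with `a⁴ = 1`, `a² = b³` are the images of `S`, `S * T` under a
homomorphism. -/
theorem SL2Z_lift {H : Type*} [Group H] (a b : H) (ha : a ^ 4 = 1) (hab : a ^ 2 = b ^ 3) :
    ∃ f : SL(2,ℤ) →* H, f S = a ∧ f (S * T) = b := by
  -- the subgroup of `SL(2,ℤ) × H` generated by `(S, a)` and `(S * T, b)` is a graph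
  set k : Set (SL(2,ℤ) × H) := {((S, a) : SL(2,ℤ) × H), (S * T, b)} with hk
  let A : Subgroup.closure k := ⟨(S, a), Subgroup.subset_closure (by simp [hk])⟩
  let B : Subgroup.closure k := ⟨(S * T, b), Subgroup.subset_closure (by simp [hk])⟩
  have hA4 : A ^ 4 = 1 := by
    apply Subtype.ext
    simp only [A, SubmonoidClass.mk_pow, Prod.pow_mk, S_pow_four, ha]
    rfl
  have hAB : A ^ 2 = B ^ 3 := by
    apply Subtype.ext
    simp only [A, B, SubmonoidClass.mk_pow, Prod.pow_mk, S_sq_eq_ST_cube, hab]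
  have hgen : Subgroup.closure {A, B} = ⊤ := by
    have h := Subgroup.closure_closure_coe_preimage (k := k)
    have hset : ((↑) : Subgroup.closure k → SL(2,ℤ) × H) ⁻¹' k = {A, B} := by
      ext x
      simp only [Set.mem_preimage, hk, Set.mem_insert_iff, Set.mem_singleton_iff, A, B,
        Subtype.ext_iff]
    rw [hset] at h
    exact h
  let π : Subgroup.closure k →* SL(2,ℤ) :=
    (MonoidHom.fst (SL(2,ℤ)) H).comp (Subgroup.closure k).subtype
  have hπA : π A = S := rfl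
  have hπB : π B = S * T := rfl
  have hinj : Function.Injective π := injective_of_relations hA4 hAB hgen π hπA hπB
  have hsurj : Function.Surjective π := by
    rw [← MonoidHom.range_eq_top, eq_top_iff, ← closure_S_ST, Subgroup.closure_le]
    rintro g (rfl | rfl)
    · exact ⟨A, hπA⟩
    · exact ⟨B, hπB⟩
  let e : Subgroup.closure k ≃* SL(2,ℤ) := MulEquiv.ofBijective π ⟨hinj, hsurj⟩
  refine ⟨((MonoidHom.snd (SL(2,ℤ)) H).comp (Subgroup.closure k).subtype).comp
    e.symm.toMonoidHom, ?_, ?_⟩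
  · have : e.symm S = A := by rw [MulEquiv.symm_apply_eq]; rfl
    simp only [MonoidHom.coe_comp, Function.comp_apply, MulEquiv.toMonoidHom_eq_coe,
      MonoidHom.coe_coe, this]
    rfl
  · have : e.symm (S * T) = B := by rw [MulEquiv.symm_apply_eq]; rfl
    simp only [MonoidHom.coe_comp, Function.comp_apply, MulEquiv.toMonoidHom_eq_coe,
      MonoidHom.coe_coe, this]
    rfl

/-- Uniqueness in `SL2Z_lift`. -/
theorem SL2Z_hom_ext {H : Type*} [Group H] {f g : SL(2,ℤ) →* H} (hS : f S = g S)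
    (hST : f (S * T) = g (S * T)) : f = g := by
  apply MonoidHom.eq_of_eqOn_dense closure_S_ST
  rintro x (rfl | rfl)
  · exact hS
  · exact hST

/-- **`PSL(2,ℤ) = C₂ * C₃`**, universal property: any `a, b` with `a² = 1`, `b³ = 1` are the images
of `S`, `S * T` under a homomorphism from `SL(2,ℤ)` (which then kills `-1`). -/
theorem PSL2Z_lift {H : Type*} [Group H] (a b : H) (ha : a ^ 2 = 1) (hb : b ^ 3 = 1) :
    ∃ f : SL(2,ℤ) →* H, f S = a ∧ f (S * T) = b ∧ f (-1) = 1 := by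
  obtain ⟨f, hfS, hfST⟩ := SL2Z_lift a b
    (by rw [show 4 = 2 * 2 from rfl, pow_mul, ha, one_pow]) (by rw [ha, hb])
  refine ⟨f, hfS, hfST, ?_⟩
  rw [← S_sq, map_pow, hfS, ha]

/-- variant of `SL2Z_lift` in terms of the standard generators `S`, `T`. -/
theorem SL2Z_lift' {H : Type*} [Group H] (a t : H) (ha : a ^ 4 = 1) (hat : a ^ 2 = (a * t) ^ 3) :
    ∃ f : SL(2,ℤ) →* H, f S = a ∧ f T = t := by
  obtain ⟨f, hfS, hfST⟩ := SL2Z_lift a (a * t) ha hat
  refine ⟨f, hfS, ?_⟩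
  rw [map_mul, hfS] at hfST
  exact mul_left_cancel hfST

end Lift

end Fermat.Agent.S41.PD
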