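/-
P-S41 block (4), PD4: intrinsic ("Heisenberg lift") characterisation of the Poincare pairing.

For characters `φ ψ` of `Γ` and a lift `κ : Γ → K` with
  `κ (γ * δ) = κ γ + κ δ + φ γ * ψ δ`
vanishing on elliptic elements, the sum of `κ` over the (positively oriented, primitive) cusp
generators is the pairing of PD1/PD2.  (H1) = `cusp_sum_eq`, (H2) = existence of `κ`.
-/
import Fermat.Agent.S41.PD.Model
import Fermat.Agent.S41.PD.Bridge
import Fermat.Agent.S41.PD.FreeProduct
import Fermat.Agent.Gateway.A2.OrbitSum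

set_option autoImplicit false

noncomputable section

namespace Fermat.Agent.S41.PD

open Fermat.Agent.Gateway.A2

section OrbitSums

variable {G : Type*} [Group G] {X : Type*} [MulAction G X] {K : Type*} [Field K]

/-- `act` is multiplicative for the pointwise product. -/
theorem act_mul_fun (g : G) (a b : X → K) : act K g (a * b) = act K g a * act K g b := by
  funext x; simp

theorem zpow_smul_eq_of_pow_smul_eq {g : G} {y : X} {d : ℕ} (hd : g ^ d • y = y) (q : ℤ) :
    (g ^ d) ^ q • y = y := by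
  have h : g ^ d ∈ MulAction.stabilizer G y := MulAction.mem_stabilizer_iff.mpr hd
  exact MulAction.mem_stabilizer_iff.mp (Subgroup.zpow_mem _ h q)

/-- every point of the `⟨g⟩`-orbit of `y` is `g⁻ⁱ y` with `i` below the period. -/
theorem exists_lt_per_of_mem_orbit [Finite X] {g : G} {x y : X}
    (h : x ∈ MulAction.orbit (Subgroup.zpowers g) y) :
    ∃ i, i < per g y ∧ (g ^ i)⁻¹ • y = x := by
  obtain ⟨⟨h', hh⟩, rfl⟩ := h
  obtain ⟨k, rfl⟩ := hh
  have hd : 0 < per g y := per_pos g y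
  have hd' : (0 : ℤ) < (per g y : ℤ) := by exact_mod_cast hd
  refine ⟨((-k) % (per g y : ℤ)).toNat, ?_, ?_⟩
  · have h1 := Int.emod_lt_of_pos (-k) hd'
    have h0 := Int.emod_nonneg (-k) hd'.ne'
    omega
  · have h0 := Int.emod_nonneg (-k) hd'.ne'
    show (g ^ ((-k) % (per g y : ℤ)).toNat)⁻¹ • y = g ^ k • y
    rw [← zpow_natCast, Int.toNat_of_nonneg h0, ← zpow_neg]
    have e : -((-k) % (per g y : ℤ)) = k + (per g y : ℤ) * ((-k) / (per g y : ℤ)) := by
      have := Int.emod_add_mul_ediv (-k) (per g y : ℤ)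
      linarith
    rw [e, zpow_add, zpow_mul, zpow_natCast, mul_smul,
      zpow_smul_eq_of_pow_smul_eq (pow_per_smul g y)]

/-- `g⁻ⁱ y` for `i` below the period are pairwise distinct. -/
theorem pow_inv_smul_injOn (g : G) (y : X) {i j : ℕ} (hi : i < per g y) (hj : j < per g y)
    (h : (g ^ i)⁻¹ • y = (g ^ j)⁻¹ • y) : i = j := by
  wlog hij : i ≤ j generalizing i j
  · exact (this hj hi h.symm (le_of_not_ge hij)).symm
  have h1 : g ^ (j - i) • y = y := by
    have h2 : g ^ j • (g ^ i)⁻¹ • y = y := by rw [h, smul_inv_smul]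
    rw [← mul_smul] at h2
    have h3 : g ^ j * (g ^ i)⁻¹ = g ^ (j - i) := by
      rw [mul_inv_eq_iff_eq_mul, ← pow_add, Nat.sub_add_cancel hij]
    rwa [h3] at h2
  have := eq_zero_of_pow_smul_eq_of_lt_per (lt_of_le_of_lt (Nat.sub_le j i) hj) h1
  omega

/-- the sum of a function over `X` is the sum over the `⟨g⟩`-orbits of the orbit sums. -/
theorem sum_orbSum [Fintype X] (g : G) (c : X → K)
    [Fintype (MulAction.orbitRel.Quotient (Subgroup.zpowers g) X)] :
    ∑ o, orbSum K g c o = ∑ x, c x := by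
  classical
  rw [← Finset.sum_fiberwise (s := Finset.univ)
    (g := fun x : X => (Quotient.mk'' x : MulAction.orbitRel.Quotient (Subgroup.zpowers g) X))]
  refine Finset.sum_congr rfl fun o _ => ?_
  rw [orbSum_apply, normOp_apply, Finset.sum_apply]
  set y : X := Quotient.out o with hy
  have hyo : (Quotient.mk'' y : MulAction.orbitRel.Quotient (Subgroup.zpowers g) X) = o :=
    Quotient.out_eq' o
  refine Finset.sum_bij (fun i _ => (g ^ i)⁻¹ • y) ?_ ?_ ?_ ?_
  · intro i _
    simp only [Finset.mem_filter, Finset.mem_univ, true_and]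
    rw [mk_pow_inv_smul, hyo]
  · intro i hi j hj h
    exact pow_inv_smul_injOn g y (Finset.mem_range.mp hi) (Finset.mem_range.mp hj) h
  · intro x hx
    simp only [Finset.mem_filter, Finset.mem_univ, true_and] at hx
    have hx' : x ∈ MulAction.orbit (Subgroup.zpowers g) y := by
      rw [← hyo] at hx
      have := Quotient.exact' hx
      rwa [MulAction.orbitRel_apply] at this
    obtain ⟨i, hi, hix⟩ := exists_lt_per_of_mem_orbit hx'
    exact ⟨i, Finset.mem_range.mpr hi, hix⟩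
  · intro i _
    rw [act_apply]

end OrbitSums

section HeisenbergCocycle

variable (G : Type*) [Group G] (X : Type*) [MulAction G X] (K : Type*) [Field K]

/-- a cocycle of `G` with values in the Heisenberg group of `X → K` (with the action `act`). -/
structure HCocycle where
  /-- first component -/
  Φ : G → X → K
  /-- second component -/
  Ψ : G → X → K
  /-- central component -/
  Kc : G → X → K
  Φ_mul : ∀ g h, Φ (g * h) = Φ g + act K g (Φ h)
  Ψ_mul : ∀ g h, Ψ (g * h) = Ψ g + act K g (Ψ h)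
  Kc_mul : ∀ g h, Kc (g * h) = Kc g + act K g (Kc h) + Φ g * act K g (Ψ h)

variable {G X K}

namespace HCocycle

variable (Z : HCocycle G X K)

theorem Φ_one : Z.Φ 1 = 0 := by
  have h := Z.Φ_mul 1 1
  rw [mul_one, act_one] at h
  exact left_eq_add.mp h

theorem Ψ_one : Z.Ψ 1 = 0 := by
  have h := Z.Ψ_mul 1 1
  rw [mul_one, act_one] at h
  exact left_eq_add.mp h

theorem Kc_one : Z.Kc 1 = 0 := by
  have h := Z.Kc_mul 1 1
  rw [mul_one, act_one, Φ_one, zero_mul, add_zero] at h
  exact left_eq_add.mp h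

/-- on the cyclic group generated by `g` a coboundary stays a coboundary. -/
theorem Φ_pow {g : G} {n : X → K} (hn : Z.Φ g = opA K g n) (k : ℕ) :
    Z.Φ (g ^ k) = opA K (g ^ k) n := by
  induction k with
  | zero => simp [Φ_one, act_one]
  | succ k ih =>
    rw [pow_succ, Z.Φ_mul, ih, hn]
    simp only [opA_apply, map_sub, act_mul]
    abel

theorem Ψ_pow {g : G} {m : X → K} (hm : Z.Ψ g = opA K g m) (k : ℕ) :
    Z.Ψ (g ^ k) = opA K (g ^ k) m := by
  induction k with
  | zero => simp [Ψ_one, act_one]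
  | succ k ih =>
    rw [pow_succ, Z.Ψ_mul, ih, hm]
    simp only [opA_apply, map_sub, act_mul]
    abel

/-- the local invariant of the central component at `g`, for given primitives `n`, `m` of
`Φ g`, `Ψ g`. -/
def loc (g : G) (n m : X → K) : X → K := Z.Kc g + n * Z.Ψ g - opA K g (n * m)

/-- **Local formula**: on the cyclic group generated by `g` the central component is the norm of
the local invariant up to an explicit coboundary-like term. -/
theorem Kc_pow {g : G} {n m : X → K} (hn : Z.Φ g = opA K g n) (hm : Z.Ψ g = opA K g m) (k : ℕ) :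
    Z.Kc (g ^ k) = normOp K g k (Z.loc g n m) + act K (g ^ k) (n * m) - n * act K (g ^ k) m := by
  induction k with
  | zero => simp [Kc_one, act_one, normOp_apply]
  | succ k ih =>
    rw [pow_succ, Z.Kc_mul, ih, Z.Φ_pow hn, hm, normOp_apply, normOp_apply,
      Finset.sum_range_succ, loc, hm]
    simp only [opA_apply, map_sub, map_add, act_mul, act_mul_fun]
    ring

/-- at a fixed point of `g ^ k` the central component is the orbit sum of the local invariant. -/
theorem Kc_pow_apply {g : G} {n m : X → K} (hn : Z.Φ g = opA K g n) (hm : Z.Ψ g = opA K g m)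
    {k : ℕ} {y : X} (hy : g ^ k • y = y) :
    Z.Kc (g ^ k) y = normOp K g k (Z.loc g n m) y := by
  have hy' : (g ^ k)⁻¹ • y = y := by
    rw [inv_smul_eq_iff]; exact hy.symm
  rw [Z.Kc_pow hn hm]
  simp only [Pi.add_apply, Pi.sub_apply, Pi.mul_apply, act_apply, hy']
  ring

end HCocycle

end HeisenbergCocycle

section Total

variable {G : Type*} [Group G] {X : Type*} [MulAction G X] [Fintype X] {K : Type*} [Field K]

/-- total sum of a function. -/
def tot (f : X → K) : K := ∑ x, f x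

theorem tot_add (f f' : X → K) : tot (f + f') = tot f + tot f' := by
  simp [tot, Finset.sum_add_distrib]

theorem tot_sub (f f' : X → K) : tot (f - f') = tot f - tot f' := by
  simp [tot, Finset.sum_sub_distrib]

theorem tot_mul (f f' : X → K) : tot (f * f') = ip K f f' := rfl

theorem tot_act (g : G) (f : X → K) : tot (act K g f) = tot f := by
  simp only [tot, act_apply]
  exact Fintype.sum_equiv (MulAction.toPerm g⁻¹) _ _ fun x => rfl

theorem tot_opA (g : G) (f : X → K) : tot (opA K g f) = 0 := by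
  rw [opA_apply, tot_sub, tot_act, sub_self]

theorem tot_eq_sum_orbSum (g : G) (c : X → K) :
    tot c = ∑ᶠ o, orbSum K g c o := by
  classical
  have : Fintype (MulAction.orbitRel.Quotient (Subgroup.zpowers g) X) := Fintype.ofFinite _
  rw [finsum_eq_sum_of_fintype, sum_orbSum]
  rfl

namespace HCocycle

variable (Z : HCocycle G X K)

/-- if the central component vanishes at `g ^ (per g y)` on each `y`, the local invariant has total
sum zero, i.e. `∑ Kc g = - ⟪n, Ψ g⟫`. -/
theorem tot_Kc_of_vanish {g : G} {n m : X → K} (hn : Z.Φ g = opA K g n)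
    (hm : Z.Ψ g = opA K g m) (hK : ∀ y, Z.Kc (g ^ per g y) y = 0) :
    tot (Z.Kc g) = - ip K n (Z.Ψ g) := by
  have h0 : tot (Z.loc g n m) = 0 := by
    rw [tot_eq_sum_orbSum g]
    apply finsum_eq_zero_of_forall_eq_zero
    intro o
    rw [orbSum_apply, ← Z.Kc_pow_apply hn hm (pow_per_smul g _)]
    exact hK _
  rw [loc, tot_sub, tot_add, tot_opA, tot_mul, sub_zero] at h0
  linear_combination h0

/-- the sum of the central component over the cusps is the total sum of the local invariant. -/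
theorem finsum_Kc_cusps {t : G} {n m : X → K} (hn : Z.Φ t = opA K t n)
    (hm : Z.Ψ t = opA K t m) :
    ∑ᶠ o : MulAction.orbitRel.Quotient (Subgroup.zpowers t) X,
        Z.Kc (t ^ per t (Quotient.out o)) (Quotient.out o)
      = tot (Z.Kc t) + ip K n (Z.Ψ t) := by
  have h0 : tot (Z.loc t n m) = tot (Z.Kc t) + ip K n (Z.Ψ t) := by
    rw [loc, tot_sub, tot_add, tot_opA, tot_mul, sub_zero]
  rw [← h0, tot_eq_sum_orbSum t]
  apply finsum_congr
  intro o
  rw [orbSum_apply, ← Z.Kc_pow_apply hn hm (pow_per_smul t _)]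

/-- **(H1), abstract form.**  For `u = s * t`, if the central component vanishes on the stabilisers
of `s` and of `u`, then its sum over the `t`-orbits (cusps) is
`⟪n_s - n_u, Ψ s - (s - 1) r'⟫`, the value of the form of PD1 on the cycles attached to `Ψ`, `Φ`. -/
theorem cusp_sum (s t : G) {ns nu nt ms mu r' : X → K}
    (hΦs : Z.Φ s = opA K s ns) (hΦu : Z.Φ (s * t) = opA K (s * t) nu)
    (hΦt : Z.Φ t = opA K t nt) (hΨs : Z.Ψ s = opA K s ms)
    (hΨu : Z.Ψ (s * t) = opA K (s * t) mu) (hΨt : Z.Ψ t = opA K t r')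
    (hKs : ∀ y, Z.Kc (s ^ per s y) y = 0)
    (hKu : ∀ y, Z.Kc ((s * t) ^ per (s * t) y) y = 0) :
    ∑ᶠ o : MulAction.orbitRel.Quotient (Subgroup.zpowers t) X,
        Z.Kc (t ^ per t (Quotient.out o)) (Quotient.out o)
      = ip K (ns - nu) (Z.Ψ s - opA K s r') := by
  rw [Z.finsum_Kc_cusps hΦt hΨt]
  have e1 := Z.tot_Kc_of_vanish hΦs hΨs hKs
  have e2 := Z.tot_Kc_of_vanish hΦu hΨu hKu
  have e3 : tot (Z.Kc (s * t)) = tot (Z.Kc s) + tot (Z.Kc t) + ip K (Z.Φ s) (act K s (Z.Ψ t)) := by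
    rw [Z.Kc_mul, tot_add, tot_add, tot_act, tot_mul]
  -- the relation between the primitives
  have E1 : opA K (s * t) nu = opA K s ns + act K s (opA K t nt) := by
    rw [← hΦu, ← hΦs, ← hΦt, Z.Φ_mul]
  have E1' := congrArg (fun f => ip K f (act K (s * t) r')) E1
  simp only [opA_apply, map_sub, map_add, LinearMap.sub_apply, LinearMap.add_apply, act_mul] at E1'
  simp only [ip_act] at E1'
  rw [Z.Ψ_mul, hΨt] at e2
  rw [hΦs, hΨt] at e3
  rw [hΨt]
  simp only [opA_apply, map_sub, map_add, LinearMap.sub_apply] at e2 e3 ⊢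
  simp only [ip_act] at e3
  linear_combination -e3 + e2 - e1 + E1'

end HCocycle

end Total

section HeisenbergGroup

variable (G : Type*) [Group G] (X : Type*) [MulAction G X] (K : Type*) [Field K]

/-- the semidirect product of the Heisenberg group of `X → K` with `G`. -/
@[ext]
structure HG where
  /-- first component -/
  a : X → K
  /-- second component -/
  b : X → K
  /-- central component -/
  c : X → K
  /-- group component -/
  g : G

variable {G X K}

namespace HG

instance : Mul (HG G X K) :=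
  ⟨fun p q => ⟨p.a + act K p.g q.a, p.b + act K p.g q.b,
    p.c + act K p.g q.c + p.a * act K p.g q.b, p.g * q.g⟩⟩

instance : One (HG G X K) := ⟨⟨0, 0, 0, 1⟩⟩

instance : Inv (HG G X K) :=
  ⟨fun p => ⟨-act K p.g⁻¹ p.a, -act K p.g⁻¹ p.b, act K p.g⁻¹ (p.a * p.b - p.c), p.g⁻¹⟩⟩

@[simp] theorem mul_a (p q : HG G X K) : (p * q).a = p.a + act K p.g q.a := rfl
@[simp] theorem mul_b (p q : HG G X K) : (p * q).b = p.b + act K p.g q.b := rfl
@[simp] theorem mul_c (p q : HG G X K) :
    (p * q).c = p.c + act K p.g q.c + p.a * act K p.g q.b := rfl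
@[simp] theorem mul_g (p q : HG G X K) : (p * q).g = p.g * q.g := rfl
omit [MulAction G X] in
@[simp] theorem one_a : (1 : HG G X K).a = 0 := rfl
omit [MulAction G X] in
@[simp] theorem one_b : (1 : HG G X K).b = 0 := rfl
omit [MulAction G X] in
@[simp] theorem one_c : (1 : HG G X K).c = 0 := rfl
omit [MulAction G X] in
@[simp] theorem one_g : (1 : HG G X K).g = 1 := rfl
@[simp] theorem inv_a (p : HG G X K) : (p⁻¹).a = -act K p.g⁻¹ p.a := rfl
@[simp] theorem inv_b (p : HG G X K) : (p⁻¹).b = -act K p.g⁻¹ p.b := rfl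
@[simp] theorem inv_c (p : HG G X K) : (p⁻¹).c = act K p.g⁻¹ (p.a * p.b - p.c) := rfl
@[simp] theorem inv_g (p : HG G X K) : (p⁻¹).g = p.g⁻¹ := rfl

instance : Group (HG G X K) :=
  Group.ofLeftAxioms
    (fun p q r => by
      ext1
      · simp only [mul_a, mul_g, map_add, act_mul]; abel
      · simp only [mul_b, mul_g, map_add, act_mul]; abel
      · simp only [mul_a, mul_b, mul_c, mul_g, map_add, act_mul, act_mul_fun]; ring
      · simp only [mul_g, mul_assoc])
    (fun p => by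
      ext1 <;> simp [act_one])
    (fun p => by
      ext1
      · simp only [mul_a, inv_a, inv_g, one_a]; abel
      · simp only [mul_b, inv_b, inv_g, one_b]; abel
      · simp only [mul_c, inv_a, inv_c, inv_g, one_c, map_sub, act_mul_fun]; ring
      · simp)

/-- the inclusion of `G`. -/
def ι : G →* HG G X K where
  toFun g := ⟨0, 0, 0, g⟩
  map_one' := rfl
  map_mul' g h := by ext1 <;> simp

@[simp] theorem ι_a (g : G) : (ι g : HG G X K).a = 0 := rfl
@[simp] theorem ι_b (g : G) : (ι g : HG G X K).b = 0 := rfl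
@[simp] theorem ι_c (g : G) : (ι g : HG G X K).c = 0 := rfl
@[simp] theorem ι_g (g : G) : (ι g : HG G X K).g = g := rfl

/-- the projection to `G`. -/
def proj : HG G X K →* G where
  toFun p := p.g
  map_one' := rfl
  map_mul' _ _ := rfl

@[simp] theorem proj_apply (p : HG G X K) : proj p = p.g := rfl

/-- the element `(-n, -m, 0; 1)`. -/
def ρ (n m : X → K) : HG G X K := ⟨-n, -m, 0, 1⟩

/-- components of the conjugate of `ι g` by `ρ n m`. -/
theorem conj_ρ_a (n m : X → K) (g : G) : (ρ n m * ι g * (ρ n m)⁻¹ : HG G X K).a = opA K g n := by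
  simp [ρ, act_one]; abel

theorem conj_ρ_b (n m : X → K) (g : G) : (ρ n m * ι g * (ρ n m)⁻¹ : HG G X K).b = opA K g m := by
  simp [ρ, act_one]; abel

theorem conj_ρ_g (n m : X → K) (g : G) : (ρ n m * ι g * (ρ n m)⁻¹ : HG G X K).g = g := by
  simp [ρ]

/-- an element of `G` acting trivially on `X` is central relative to the Heisenberg part. -/
theorem ι_comm_ρ {z : G} (hz : ∀ x : X, z • x = x) (n m : X → K) :
    (ι z : HG G X K) * ρ n m = ρ n m * ι z := by
  have hact : ∀ f : X → K, act K z f = f := by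
    intro f
    have := act_pow_eq_of_smul_eq K (g := z) (d := 1) (by simpa using hz) f
    simpa using this
  ext1 <;> simp [ρ, hact, act_one]

theorem conj_ρ_of_trivial {z : G} (hz : ∀ x : X, z • x = x) (n m : X → K) :
    (ρ n m * ι z * (ρ n m)⁻¹ : HG G X K) = ι z := by
  rw [← ι_comm_ρ hz, mul_inv_cancel_right]

/-- the central component of a conjugate of `ι g₀` vanishes at the fixed points. -/
theorem conj_c_apply (W : HG G X K) (g₀ : G) {x : X} (hx : (W.g * g₀ * W.g⁻¹) • x = x) :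
    (W * ι g₀ * W⁻¹).c x = 0 := by
  have hx' : (W.g * g₀ * W.g⁻¹)⁻¹ • x = x := by
    rw [inv_smul_eq_iff]; exact hx.symm
  have h1 : W.g⁻¹⁻¹ • (W.g * g₀)⁻¹ • x = x := by
    rw [← mul_smul, ← mul_inv_rev]; exact hx'
  simp only [mul_c, mul_a, mul_g, ι_a, ι_b, ι_c, ι_g, inv_c, inv_b, map_zero, add_zero,
    mul_zero, Pi.add_apply, Pi.mul_apply, act_apply, Pi.neg_apply, Pi.sub_apply, h1]
  ring

end HG

end HeisenbergGroup

section Lifts

variable {G : Type*} [Group G] (Γ : Subgroup G) {K : Type*} [Field K]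

/-- `κ` is a Heisenberg lift of the pair of characters `(φ, ψ)`. -/
def IsHeisLift (φ ψ : Additive Γ →+ K) (κ : Γ → K) : Prop :=
  ∀ γ δ : Γ, κ (γ * δ) = κ γ + κ δ + φ (Additive.ofMul γ) * ψ (Additive.ofMul δ)

/-- `κ` vanishes on all conjugates of powers of `s` lying in `Γ`. -/
def VanishOn (κ : Γ → K) (s : G) : Prop :=
  ∀ (g : G) (k : ℕ) (h : g * s ^ k * g⁻¹ ∈ Γ), κ ⟨_, h⟩ = 0

/-- the `(G ⧸ Γ → K)`-valued cochain induced by `κ` (same recipe as `coc`). -/
def kap (κ : Γ → K) (g : G) : (G ⧸ Γ) → K := fun y => κ (gam Γ g (g⁻¹ • y))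

variable {Γ}

omit [Field K] in
theorem kap_apply (κ : Γ → K) (g : G) (y : G ⧸ Γ) : kap Γ κ g y = κ (gam Γ g (g⁻¹ • y)) := rfl

omit [Field K] in
theorem kap_apply_of_smul_eq (κ : Γ → K) {g : G} {y : G ⧸ Γ} (hy : g • y = y) :
    kap Γ κ g y = κ (gam Γ g y) := by
  have h2 : g⁻¹ • y = y := by
    conv_lhs => rw [← hy]
    rw [inv_smul_smul]
  rw [kap_apply, h2]

theorem gam_eq_of_smul_eq {g : G} {y : G ⧸ Γ} (hy : g • y = y)
    (h : (sec Γ y)⁻¹ * g * sec Γ y ∈ Γ) : gam Γ g y = ⟨(sec Γ y)⁻¹ * g * sec Γ y, h⟩ := by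
  apply Subtype.ext
  simp only [gam]
  rw [hy]

/-- a lift vanishing on the conjugates of powers of `s` has vanishing cochain at `s ^ d` on the
fixed points of `s ^ d`. -/
theorem kap_pow_apply_eq_zero {κ : Γ → K} {s : G} (hκ : VanishOn Γ κ s) {d : ℕ} {y : G ⧸ Γ}
    (hd : s ^ d • y = y) : kap Γ κ (s ^ d) y = 0 := by
  have hmem : (sec Γ y)⁻¹ * s ^ d * sec Γ y ∈ Γ := by
    have h := gam_mem Γ (s ^ d) y
    rwa [hd] at h
  rw [kap_apply_of_smul_eq κ hd, gam_eq_of_smul_eq hd hmem]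
  have h2 : (sec Γ y)⁻¹ * s ^ d * ((sec Γ y)⁻¹)⁻¹ ∈ Γ := by rwa [inv_inv]
  have := hκ (sec Γ y)⁻¹ d h2
  convert this using 2
  exact Subtype.ext (by simp only [inv_inv])

/-- the Heisenberg cocycle attached to a Heisenberg lift. -/
def liftCocycle (φ ψ : Additive Γ →+ K) (κ : Γ → K) (hκ : IsHeisLift Γ φ ψ κ) :
    HCocycle G (G ⧸ Γ) K where
  Φ := coc φ
  Ψ := coc ψ
  Kc := kap Γ κ
  Φ_mul := coc_mul φ
  Ψ_mul := coc_mul ψ
  Kc_mul g h := by
    funext y
    have e1 : h • (g * h)⁻¹ • y = g⁻¹ • y := by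
      rw [mul_inv_rev, mul_smul, smul_inv_smul]
    have e2 : (g * h)⁻¹ • y = h⁻¹ • g⁻¹ • y := by
      rw [mul_inv_rev, mul_smul]
    simp only [kap_apply, Pi.add_apply, Pi.mul_apply, act_apply, coc_apply]
    rw [gam_mul, hκ, e1, e2]

/-- **(H1), coset form.**  For a Heisenberg lift `κ` of `(φ, ψ)` vanishing on the conjugates of
powers of `s` and of `s * t`, the sum of `κ` over the `t`-cusps is
`⟪n_s - n_u, c_ψ(s) - (s - 1) r'⟫`. -/
theorem cusp_sum_lift [Fintype (G ⧸ Γ)] (φ ψ : Additive Γ →+ K) (κ : Γ → K)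
    (hκ : IsHeisLift Γ φ ψ κ) (s t : G) (hs : VanishOn Γ κ s) (hu : VanishOn Γ κ (s * t))
    {ns nu nt ms mu r' : G ⧸ Γ → K}
    (hΦs : coc φ s = opA K s ns) (hΦu : coc φ (s * t) = opA K (s * t) nu)
    (hΦt : coc φ t = opA K t nt) (hΨs : coc ψ s = opA K s ms)
    (hΨu : coc ψ (s * t) = opA K (s * t) mu) (hΨt : coc ψ t = opA K t r') :
    ∑ᶠ o : MulAction.orbitRel.Quotient (Subgroup.zpowers t) (G ⧸ Γ),
        κ (gam Γ (t ^ per t (Quotient.out o)) (Quotient.out o))
      = ip K (ns - nu) (coc ψ s - opA K s r') := by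
  have h := (liftCocycle φ ψ κ hκ).cusp_sum s t hΦs hΦu hΦt hΨs hΨu hΨt
    (fun y => kap_pow_apply_eq_zero hs (pow_per_smul s y))
    (fun y => kap_pow_apply_eq_zero hu (pow_per_smul (s * t) y))
  refine Eq.trans ?_ h
  apply finsum_congr
  intro o
  exact (kap_apply_of_smul_eq κ (pow_per_smul t _)).symm

/-- a cocycle is determined by its values on a generating set. -/
theorem cocycle_ext {X : Type*} [MulAction G X] (c c' : G → X → K)
    (hc : ∀ g h, c (g * h) = c g + act K g (c h))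
    (hc' : ∀ g h, c' (g * h) = c' g + act K g (c' h))
    (S : Set G) (hgen : Subgroup.closure S = ⊤) (hS : ∀ g ∈ S, c g = c' g) (g : G) :
    c g = c' g := by
  have h1 : ∀ d : G → X → K, (∀ g h, d (g * h) = d g + act K g (d h)) → d 1 = 0 := by
    intro d hd
    have h := hd 1 1
    rw [mul_one, act_one] at h
    exact left_eq_add.mp h
  have hinv : ∀ d : G → X → K, (∀ g h, d (g * h) = d g + act K g (d h)) →
      ∀ x, d x⁻¹ = - act K x⁻¹ (d x) := by
    intro d hd x
    have h := hd x⁻¹ x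
    rw [inv_mul_cancel, h1 d hd] at h
    exact eq_neg_of_add_eq_zero_left h.symm
  have hg : g ∈ Subgroup.closure S := by rw [hgen]; trivial
  induction hg using Subgroup.closure_induction with
  | mem x hx => exact hS x hx
  | one => rw [h1 c hc, h1 c' hc']
  | mul x y _ _ hx hy => rw [hc, hc', hx, hy]
  | inv x _ hx => rw [hinv c hc, hinv c' hc', hx]

theorem smul_basePt_of_mem {γ : G} (hγ : γ ∈ Γ) : γ • basePt Γ = basePt Γ := by
  rw [smul_basePt]
  show ((γ : G) : G ⧸ Γ) = ((1 : G) : G ⧸ Γ)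
  rw [QuotientGroup.eq, mul_one]
  exact Γ.inv_mem hγ

/-- the Shapiro cocycle at the base point recovers the character. -/
theorem coc_basePt (φ : Additive Γ →+ K) (γ : Γ) :
    coc φ (γ : G) (basePt Γ) = φ (Additive.ofMul γ) := by
  have hfix : (γ : G) • basePt Γ = basePt Γ := smul_basePt_of_mem γ.2
  have hc : sec Γ (basePt Γ) ∈ Γ := by
    have := mk_sec Γ (basePt Γ)
    conv_rhs at this => rw [basePt]
    rw [QuotientGroup.eq] at this
    have h2 := Γ.inv_mem this
    simpa using h2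
  have hmem : (sec Γ (basePt Γ))⁻¹ * (γ : G) * sec Γ (basePt Γ) ∈ Γ :=
    Γ.mul_mem (Γ.mul_mem (Γ.inv_mem hc) γ.2) hc
  rw [coc_apply_of_smul_eq φ hfix hmem]
  set c : Γ := ⟨sec Γ (basePt Γ), hc⟩ with hcdef
  have h4 : (⟨(sec Γ (basePt Γ))⁻¹ * (γ : G) * sec Γ (basePt Γ), hmem⟩ : Γ) = c⁻¹ * γ * c := by
    apply Subtype.ext; simp [hcdef]
  rw [h4, ofMul_mul, ofMul_mul, map_add, map_add, ofMul_inv, map_neg]
  abel

namespace IsHeisLift

variable {φ ψ : Additive Γ →+ K} {κ : Γ → K}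

theorem map_one (hκ : IsHeisLift Γ φ ψ κ) : κ 1 = 0 := by
  have h := hκ 1 1
  rw [mul_one, ofMul_one, map_zero, zero_mul, add_zero] at h
  exact left_eq_add.mp h

theorem map_inv (hκ : IsHeisLift Γ φ ψ κ) (δ : Γ) :
    κ δ⁻¹ = - κ δ + φ (Additive.ofMul δ) * ψ (Additive.ofMul δ) := by
  have h := hκ δ δ⁻¹
  rw [mul_inv_cancel, hκ.map_one, ofMul_inv, map_neg] at h
  linear_combination -h

/-- `κ` is invariant under `Γ`-conjugation on the elements killed by `φ` and `ψ`. -/
theorem conj_eq (hκ : IsHeisLift Γ φ ψ κ) {γ : Γ} (hφ : φ (Additive.ofMul γ) = 0)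
    (hψ : ψ (Additive.ofMul γ) = 0) (δ : Γ) : κ (δ * γ * δ⁻¹) = κ γ := by
  rw [hκ, hκ, hκ.map_inv, ofMul_mul, map_add, ofMul_inv, map_neg, hφ, hψ]
  ring

end IsHeisLift

end Lifts

section SL2Z

open scoped MatrixGroups
open ModularGroup Matrix

variable (K : Type*) [Field K] (Γ : Subgroup SL(2, ℤ))

/-- **(H1)**: for a Heisenberg lift `κ` of `(φ, ψ)` vanishing on the elliptic elements (and `± 1`),
the sum of `κ` over the positively oriented generators of the cusp stabilisers is the Poincare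
pairing `pairing ψ φ = - pairing φ ψ`. -/
theorem cusp_sum_eq_pairing [Fintype (SL(2, ℤ) ⧸ Γ)] (hneg : (-1 : SL(2, ℤ)) ∈ Γ)
    (φ ψ : homPE K Γ K) (κ : Γ → K)
    (hκ : IsHeisLift Γ (φ : Additive Γ →+ K) (ψ : Additive Γ →+ K) κ)
    (hS : VanishOn Γ κ (S : SL(2, ℤ))) (hU : VanishOn Γ κ (S * T : SL(2, ℤ))) :
    ∑ᶠ o : MulAction.orbitRel.Quotient (Subgroup.zpowers (T : SL(2, ℤ))) (SL(2, ℤ) ⧸ Γ),
        κ (gam Γ (T ^ per (T : SL(2, ℤ)) (Quotient.out o)) (Quotient.out o))
      = pairing K Γ hneg ψ φ := by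
  obtain ⟨⟨ns, hns⟩, ⟨nu, hnu⟩, ⟨nt, hnt⟩⟩ := coc_mem_range_opA K Γ φ.2
  obtain ⟨⟨ms, hms⟩, ⟨mu, hmu⟩, ⟨r', hr'⟩⟩ := coc_mem_range_opA K Γ ψ.2
  rw [cusp_sum_lift (φ : Additive Γ →+ K) (ψ : Additive Γ →+ K) κ hκ S T hS hU
    hns.symm hnu.symm hnt.symm hms.symm hmu.symm hr'.symm]
  rw [pairing_eq K Γ hneg ψ φ r' nt (ns - nt) (nu - nt) hr'.symm hnt.symm ?_ ?_]
  · rw [sub_sub_sub_cancel_right]; rfl
  · rw [map_sub, hns]; rfl
  · rw [cycOf_eq K Γ φ nt hnt.symm, map_sub, hnu]

/-- **(H2)**: every pair of parabolic characters has a Heisenberg lift vanishing on the elliptic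
elements (and on `± 1`).  The lift is obtained from the presentation
`SL(2,ℤ) = ⟨s, u | s⁴, s² = u³⟩`: the two generators are sent to conjugates of `ι S`, `ι (S * T)` in
the semidirect product `HG` of the Heisenberg group of functions on the cosets with `SL(2,ℤ)`. -/
theorem exists_heisLift [Finite (SL(2, ℤ) ⧸ Γ)] (hneg : (-1 : SL(2, ℤ)) ∈ Γ)
    (φ ψ : homPE K Γ K) :
    ∃ κ : Γ → K, IsHeisLift Γ (φ : Additive Γ →+ K) (ψ : Additive Γ →+ K) κ ∧
      VanishOn Γ κ (S : SL(2, ℤ)) ∧ VanishOn Γ κ (S * T : SL(2, ℤ)) := by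
  obtain ⟨⟨ns, hns⟩, ⟨nu, hnu⟩, -⟩ := coc_mem_range_opA K Γ φ.2
  obtain ⟨⟨ms, hms⟩, ⟨mu, hmu⟩, -⟩ := coc_mem_range_opA K Γ ψ.2
  -- the images of the two generators
  set A : HG SL(2, ℤ) (SL(2, ℤ) ⧸ Γ) K := HG.ρ ns ms * HG.ι S * (HG.ρ ns ms)⁻¹ with hAdef
  set B : HG SL(2, ℤ) (SL(2, ℤ) ⧸ Γ) K := HG.ρ nu mu * HG.ι (S * T) * (HG.ρ nu mu)⁻¹ with hBdef
  have hz : ∀ x : SL(2, ℤ) ⧸ Γ, (-1 : SL(2, ℤ)) • x = x := neg_one_smul_coset Γ hneg
  have hA4 : A ^ 4 = 1 := by
    rw [hAdef, conj_pow, ← map_pow, Fermat.Agent.S41.PD.S_pow_four, map_one, mul_one,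
      mul_inv_cancel]
  have hA2 : A ^ 2 = HG.ι (-1) := by
    rw [hAdef, conj_pow, ← map_pow, S_sq]
    exact HG.conj_ρ_of_trivial hz ns ms
  have hB3 : B ^ 3 = HG.ι (-1) := by
    rw [hBdef, conj_pow, ← map_pow, ST_cube]
    exact HG.conj_ρ_of_trivial hz nu mu
  obtain ⟨f, hfS, hfST⟩ := SL2Z_lift A B hA4 (hA2.trans hB3.symm)
  -- the group component of `f g` is `g`
  have hg : ∀ g, (f g).g = g := by
    intro g
    have h : (HG.proj (G := SL(2, ℤ)) (X := SL(2, ℤ) ⧸ Γ) (K := K)).comp f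
        = MonoidHom.id SL(2, ℤ) := by
      apply SL2Z_hom_ext
      · rw [MonoidHom.comp_apply, hfS, HG.proj_apply, hAdef, HG.conj_ρ_g]; rfl
      · rw [MonoidHom.comp_apply, hfST, HG.proj_apply, hBdef, HG.conj_ρ_g]; rfl
    exact DFunLike.congr_fun h g
  -- the first two components are the Shapiro cocycles
  have ha : ∀ g, (f g).a = coc (φ : Additive Γ →+ K) g := by
    apply cocycle_ext (fun g => (f g).a) (coc (φ : Additive Γ →+ K)) _ (coc_mul _)
      {S, S * T} Fermat.Agent.S41.PD.closure_S_ST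
    · rintro g (rfl | rfl)
      · show (f S).a = _
        rw [hfS, hAdef, HG.conj_ρ_a, hns]
      · show (f (S * T)).a = _
        rw [hfST, hBdef, HG.conj_ρ_a, hnu]
    · intro g h
      show (f (g * h)).a = (f g).a + act K g (f h).a
      rw [map_mul, HG.mul_a, hg]
  have hb : ∀ g, (f g).b = coc (ψ : Additive Γ →+ K) g := by
    apply cocycle_ext (fun g => (f g).b) (coc (ψ : Additive Γ →+ K)) _ (coc_mul _)
      {S, S * T} Fermat.Agent.S41.PD.closure_S_ST
    · rintro g (rfl | rfl)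
      · show (f S).b = _
        rw [hfS, hAdef, HG.conj_ρ_b, hms]
      · show (f (S * T)).b = _
        rw [hfST, hBdef, HG.conj_ρ_b, hmu]
    · intro g h
      show (f (g * h)).b = (f g).b + act K g (f h).b
      rw [map_mul, HG.mul_b, hg]
  -- vanishing on conjugates of powers, for both generators at once
  have hvan : ∀ (s : SL(2, ℤ)) (n m : SL(2, ℤ) ⧸ Γ → K),
      f s = HG.ρ n m * HG.ι s * (HG.ρ n m)⁻¹ →
      ∀ (g : SL(2, ℤ)) (k : ℕ), g * s ^ k * g⁻¹ ∈ Γ →
        (f (g * s ^ k * g⁻¹)).c (basePt Γ) = 0 := by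
    intro s n m hs g k hmem
    have e : f (g * s ^ k * g⁻¹)
        = (f g * HG.ρ n m) * HG.ι (s ^ k) * (f g * HG.ρ n m)⁻¹ := by
      rw [map_mul, map_mul, map_pow, map_inv, hs, conj_pow, map_pow]
      group
    rw [e]
    apply HG.conj_c_apply
    have hW : (f g * HG.ρ n m : HG SL(2, ℤ) (SL(2, ℤ) ⧸ Γ) K).g = g := by
      rw [HG.mul_g, hg]
      show g * 1 = g
      rw [mul_one]
    rw [hW]
    exact smul_basePt_of_mem hmem
  refine ⟨fun γ => (f (γ : SL(2, ℤ))).c (basePt Γ), ?_, ?_, ?_⟩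
  · intro γ δ
    have hfix : ((γ : SL(2, ℤ)))⁻¹ • basePt Γ = basePt Γ := smul_basePt_of_mem (Γ.inv_mem γ.2)
    show (f ((γ * δ : Γ) : SL(2, ℤ))).c (basePt Γ) = _
    rw [Subgroup.coe_mul, map_mul, HG.mul_c, hg, ha, hb]
    simp only [Pi.add_apply, Pi.mul_apply, act_apply, hfix, coc_basePt]
  · intro g k h
    exact hvan S ns ms hfS g k h
  · intro g k h
    exact hvan (S * T) nu mu hfST g k h

end SL2Z

end Fermat.Agent.S41.PD
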