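/-
helper23 (P-S41, block (B5) "Poincare duality", part PD6): the Poincare pairing is invariant
under a cusp isomorphism `c : Γ₁ ≃* Γ₂` (`IsCuspIso c`, e.g. conjugation by an integral matrix of
positive determinant, `isCuspIso_of_matrix`).

The proof uses the intrinsic characterisation (PD4) of the pairing: a Heisenberg lift `κ₂` of a
pair of characters of `Γ₂` vanishing on the elliptic elements pulls back along `c` to such a lift
on `Γ₁`, and the generators of the cusp stabilisers of `Γ₁` are mapped by `c` to `Γ₂`-conjugates of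
the generators of the cusp stabilisers of `Γ₂` (`cuspEquiv_spec`).
-/
import Fermat.Agent.S41.PD.Cusps
import Fermat.Agent.S41.PD.Heisenberg
import Fermat.Agent.Gateway.A2.SL2Z

set_option autoImplicit false

namespace Fermat.Agent.S41.PD

open scoped MatrixGroups
open Matrix ModularGroup Fermat.Agent.Gateway.A2 SL2

section Elliptic

/-- the trace in entry form is invariant under conjugation. -/
theorem trace_entries_conj (g x : SL(2, ℤ)) :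
    (g * x * g⁻¹) 0 0 + (g * x * g⁻¹) 1 1 = x 0 0 + x 1 1 := by
  have h := trace_conj g x
  rw [Matrix.trace_fin_two, Matrix.trace_fin_two] at h
  exact h

theorem isPE_iff_entries (γ : SL(2, ℤ)) : IsPE γ ↔ (γ 0 0 + γ 1 1) ^ 2 ≤ 4 := by
  unfold IsPE
  rw [Matrix.trace_fin_two]

theorem S_sq_eq_neg_one : (S : SL(2, ℤ)) ^ 2 = -1 := by
  ext i j
  fin_cases i <;> fin_cases j <;>
    simp [pow_succ, coe_S, Matrix.mul_apply, Fin.sum_univ_two]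

theorem ST_cube_eq_neg_one : ((S * T : SL(2, ℤ))) ^ 3 = -1 := by
  ext i j
  fin_cases i <;> fin_cases j <;>
    simp [pow_succ, coe_S, coe_T, Matrix.mul_apply, Fin.sum_univ_two]

/-- a power of `S` is `1`, `-1` or has trace `t` with `t ^ 2 < 4`. -/
theorem S_pow_trichotomy (k : ℕ) :
    (S : SL(2, ℤ)) ^ k = 1 ∨ (S : SL(2, ℤ)) ^ k = -1 ∨
      (((S : SL(2, ℤ)) ^ k) 0 0 + ((S : SL(2, ℤ)) ^ k) 1 1) ^ 2 < 4 := by
  rw [pow_eq_pow_mod k S_pow_four]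
  have hk : k % 4 < 4 := Nat.mod_lt _ (by norm_num)
  interval_cases (k % 4)
  · left; rw [pow_zero]
  · right; right
    simp [coe_S]
  · right; left; exact S_sq_eq_neg_one
  · right; right
    simp [pow_succ, coe_S, Matrix.mul_apply, Fin.sum_univ_two]

/-- a power of `S * T` is `1`, `-1` or has trace `t` with `t ^ 2 < 4`. -/
theorem ST_pow_trichotomy (k : ℕ) :
    (S * T : SL(2, ℤ)) ^ k = 1 ∨ (S * T : SL(2, ℤ)) ^ k = -1 ∨
      (((S * T : SL(2, ℤ)) ^ k) 0 0 + ((S * T : SL(2, ℤ)) ^ k) 1 1) ^ 2 < 4 := by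
  rw [pow_eq_pow_mod k ST_pow_six]
  have hk : k % 6 < 6 := Nat.mod_lt _ (by norm_num)
  interval_cases (k % 6)
  · left; rw [pow_zero]
  · right; right
    simp [coe_S, coe_T, Matrix.mul_apply, Fin.sum_univ_two]
  · right; right
    simp [pow_succ, coe_S, coe_T, Matrix.mul_apply, Fin.sum_univ_two]
  · right; left; exact ST_cube_eq_neg_one
  · right; right
    simp [pow_succ, coe_S, coe_T, Matrix.mul_apply, Fin.sum_univ_two]
  · right; right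
    simp [pow_succ, coe_S, coe_T, Matrix.mul_apply, Fin.sum_univ_two]

end Elliptic

section Transport

variable {K : Type*} [Field K] {Γ₁ Γ₂ : Subgroup SL(2, ℤ)}

/-- an element of `Γ` which is `SL(2, ℤ)`-conjugate to a power of `S` or of `S * T` is killed by a
function vanishing on these conjugates. -/
theorem eq_zero_of_isEllConj {κ : Γ₂ → K} (hS : VanishOn Γ₂ κ (S : SL(2, ℤ)))
    (hU : VanishOn Γ₂ κ (S * T : SL(2, ℤ))) (γ : Γ₂) (hγ : IsEllConj (γ : SL(2, ℤ))) :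
    κ γ = 0 := by
  obtain ⟨g, k, h | h⟩ := hγ
  · have hmem : g * S ^ k * g⁻¹ ∈ Γ₂ := h ▸ γ.2
    have := hS g k hmem
    rwa [show (⟨g * S ^ k * g⁻¹, hmem⟩ : Γ₂) = γ from Subtype.ext h.symm] at this
  · have hmem : g * (S * T) ^ k * g⁻¹ ∈ Γ₂ := h ▸ γ.2
    have := hU g k hmem
    rwa [show (⟨g * (S * T) ^ k * g⁻¹, hmem⟩ : Γ₂) = γ from Subtype.ext h.symm] at this

/-- the key case distinction: if `s ^ k` is `1`, `-1` or of trace `t` with `t ^ 2 < 4`, a lift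
on `Γ₂` vanishing on elliptic elements vanishes, after transport by `c`, on the conjugates of
`s ^ k` in `Γ₁`. -/
theorem comp_eq_zero_of_cases {c : Γ₁ ≃* Γ₂} (hc : IsCuspIso c) {κ : Γ₂ → K} (hone : κ 1 = 0)
    (hS : VanishOn Γ₂ κ (S : SL(2, ℤ))) (hU : VanishOn Γ₂ κ (S * T : SL(2, ℤ)))
    (x : SL(2, ℤ)) (hx : x = 1 ∨ x = -1 ∨ (x 0 0 + x 1 1) ^ 2 < 4)
    (g : SL(2, ℤ)) (h : g * x * g⁻¹ ∈ Γ₁) : κ (c ⟨_, h⟩) = 0 := by
  rcases hx with hx | hx | hx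
  · have h1 : (⟨_, h⟩ : Γ₁) = 1 := by
      apply Subtype.ext
      show g * x * g⁻¹ = 1
      rw [hx, mul_one, mul_inv_cancel]
    rw [h1, map_one, hone]
  · have h1 : ((⟨_, h⟩ : Γ₁) : SL(2, ℤ)) = -(((1 : Γ₁) : Γ₁) : SL(2, ℤ)) := by
      show g * x * g⁻¹ = -1
      rw [hx, mul_neg, mul_one, neg_mul, mul_inv_cancel]
    have h2 := (hc.neg 1 ⟨_, h⟩).mp h1
    rw [map_one] at h2
    apply eq_zero_of_isEllConj hS hU
    refine ⟨1, 2, Or.inl ?_⟩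
    rw [h2, S_sq_eq_neg_one]
    simp
  · apply eq_zero_of_isEllConj hS hU
    apply isEllConj_of_trace_sq_lt
    rw [hc.trace_eq]
    show ((g * x * g⁻¹) 0 0 + (g * x * g⁻¹) 1 1) ^ 2 < 4
    rw [trace_entries_conj]
    exact hx

/-- transport of the vanishing on elliptic elements. -/
theorem vanishOn_comp_S {c : Γ₁ ≃* Γ₂} (hc : IsCuspIso c) {κ : Γ₂ → K} (hone : κ 1 = 0)
    (hS : VanishOn Γ₂ κ (S : SL(2, ℤ))) (hU : VanishOn Γ₂ κ (S * T : SL(2, ℤ))) :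
    VanishOn Γ₁ (fun γ => κ (c γ)) (S : SL(2, ℤ)) :=
  fun g k h => comp_eq_zero_of_cases hc hone hS hU _ (S_pow_trichotomy k) g h

theorem vanishOn_comp_ST {c : Γ₁ ≃* Γ₂} (hc : IsCuspIso c) {κ : Γ₂ → K} (hone : κ 1 = 0)
    (hS : VanishOn Γ₂ κ (S : SL(2, ℤ))) (hU : VanishOn Γ₂ κ (S * T : SL(2, ℤ))) :
    VanishOn Γ₁ (fun γ => κ (c γ)) (S * T : SL(2, ℤ)) :=
  fun g k h => comp_eq_zero_of_cases hc hone hS hU _ (ST_pow_trichotomy k) g h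

/-- transport of a Heisenberg lift. -/
theorem isHeisLift_comp (c : Γ₁ ≃* Γ₂) {φ ψ : Additive Γ₂ →+ K} {κ : Γ₂ → K}
    (hκ : IsHeisLift Γ₂ φ ψ κ) :
    IsHeisLift Γ₁ (φ.comp (MonoidHom.toAdditive c.toMonoidHom))
      (ψ.comp (MonoidHom.toAdditive c.toMonoidHom)) (fun γ => κ (c γ)) := by
  intro γ δ
  show κ (c (γ * δ)) = κ (c γ) + κ (c δ) + φ (Additive.ofMul (c γ)) * ψ (Additive.ofMul (c δ))
  rw [map_mul, hκ]

/-- a cusp isomorphism preserves the elements of trace `t` with `t ^ 2 ≤ 4`. -/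
theorem IsCuspIso.isPE_iff {c : Γ₁ ≃* Γ₂} (hc : IsCuspIso c) (γ : Γ₁) :
    IsPE ((c γ : Γ₂) : SL(2, ℤ)) ↔ IsPE (γ : SL(2, ℤ)) := by
  rw [isPE_iff_entries, isPE_iff_entries, hc.trace_eq]

/-- the transport of a parabolic character by a cusp isomorphism is parabolic. -/
theorem IsCuspIso.comp_mem_homPE {c : Γ₁ ≃* Γ₂} (hc : IsCuspIso c) {R : Type*} [Semiring R]
    {B : Type*} [AddCommGroup B] [Module R B] {φ : Additive Γ₂ →+ B} (hφ : φ ∈ homPE R Γ₂ B) :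
    φ.comp (MonoidHom.toAdditive c.toMonoidHom) ∈ homPE R Γ₁ B :=
  fun γ hγ => hφ (c γ) ((hc.isPE_iff γ).mpr hγ)

theorem isPE_cuspGen (Γ : Subgroup SL(2, ℤ)) [Finite (SL(2, ℤ) ⧸ Γ)] (x : SL(2, ℤ) ⧸ Γ) :
    IsPE ((cuspGen Γ x : Γ) : SL(2, ℤ)) := by
  rw [isPE_iff_entries, (isPosPar_cuspGen Γ x).1]
  norm_num

end Transport

section Main

variable (K : Type*) [Field K] {Γ₁ Γ₂ : Subgroup SL(2, ℤ)}
  [Fintype (SL(2, ℤ) ⧸ Γ₁)] [Fintype (SL(2, ℤ) ⧸ Γ₂)]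

/-- the cusp sums of a Heisenberg lift and of its transport agree. -/
theorem finsum_cuspGen_comp {c : Γ₁ ≃* Γ₂} (hc : IsCuspIso c) (h₁ : (-1 : SL(2, ℤ)) ∈ Γ₁)
    (h₂ : (-1 : SL(2, ℤ)) ∈ Γ₂) (φ ψ : homPE K Γ₂ K) {κ : Γ₂ → K}
    (hκ : IsHeisLift Γ₂ (φ : Additive Γ₂ →+ K) (ψ : Additive Γ₂ →+ K) κ) :
    ∑ᶠ o : CuspOrb Γ₁, κ (c (cuspGen Γ₁ (Quotient.out o)))
      = ∑ᶠ o : CuspOrb Γ₂, κ (cuspGen Γ₂ (Quotient.out o)) := by
  rw [← finsum_comp_equiv (cuspEquiv hc h₁ h₂)]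
  refine finsum_congr fun o => ?_
  obtain ⟨δ, hδ⟩ := cuspEquiv_spec hc h₁ h₂ o
  rw [hδ]
  have hPE := isPE_cuspGen Γ₂ (Quotient.out (cuspEquiv hc h₁ h₂ o))
  have := hκ.conj_eq (φ.2 _ hPE) (ψ.2 _ hPE) δ⁻¹
  rwa [inv_inv] at this

/-- **(PD6)**: the Poincare pairing is invariant under a cusp isomorphism. -/
theorem pairing_comp_eq {c : Γ₁ ≃* Γ₂} (hc : IsCuspIso c) (h₁ : (-1 : SL(2, ℤ)) ∈ Γ₁)
    (h₂ : (-1 : SL(2, ℤ)) ∈ Γ₂) (φ ψ : homPE K Γ₂ K)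
    (hφ : (φ : Additive Γ₂ →+ K).comp (MonoidHom.toAdditive c.toMonoidHom) ∈ homPE K Γ₁ K)
    (hψ : (ψ : Additive Γ₂ →+ K).comp (MonoidHom.toAdditive c.toMonoidHom) ∈ homPE K Γ₁ K) :
    pairing K Γ₁ h₁ ⟨_, hφ⟩ ⟨_, hψ⟩ = pairing K Γ₂ h₂ φ ψ := by
  obtain ⟨κ, hκ, hS, hU⟩ := exists_heisLift K Γ₂ h₂ ψ φ
  have hκ₁ := isHeisLift_comp c hκ
  have hS₁ := vanishOn_comp_S hc hκ.map_one hS hU
  have hU₁ := vanishOn_comp_ST hc hκ.map_one hS hU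
  rw [← cusp_sum_eq_pairing K Γ₂ h₂ ψ φ κ hκ hS hU,
    ← cusp_sum_eq_pairing K Γ₁ h₁ ⟨_, hψ⟩ ⟨_, hφ⟩ (fun γ => κ (c γ)) hκ₁ hS₁ hU₁]
  exact finsum_cuspGen_comp K hc h₁ h₂ ψ φ hκ

end Main

end Fermat.Agent.S41.PD
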