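/-
helper23 (P-S41, block (B5) "Poincare duality", part PD6): the interface `ConjInvariant` of
`S41/PD/Main.lean` for cusp isomorphisms, and its instance for `degEquiv N q`
(conjugation by `diag(q, 1)`).
-/
import Fermat.Agent.S41.PD.Conj
import Fermat.Agent.S41.PD.Main

set_option autoImplicit false

namespace Fermat.Agent.S41.PD

open Fermat.Agent.Gateway.A2 CongruenceSubgroup Fermat.Agent.S41
open scoped MatrixGroups

/-- **(PD6)** in the shape of the interface: the Poincare pairing is invariant under every cusp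
isomorphism. -/
theorem conjInvariant_of_isCuspIso (K : Type*) [Field K] {Γ₁ Γ₂ : Subgroup SL(2, ℤ)}
    {c : Γ₁ ≃* Γ₂} (hc : IsCuspIso c)
    [Fintype (SL(2, ℤ) ⧸ Γ₁)] [Fintype (SL(2, ℤ) ⧸ Γ₂)]
    (h₁ : (-1 : SL(2, ℤ)) ∈ Γ₁) (h₂ : (-1 : SL(2, ℤ)) ∈ Γ₂) :
    ConjInvariant K Γ₁ Γ₂ c h₁ h₂ :=
  fun φ ψ hφ hψ => pairing_comp_eq K hc h₁ h₂ φ ψ hφ hψ

/-- conjugation by an integral matrix of positive determinant leaves the Poincare pairing
invariant. -/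
theorem conjInvariant_of_matrix (K : Type*) [Field K] {Γ₁ Γ₂ : Subgroup SL(2, ℤ)}
    (c : Γ₁ ≃* Γ₂) (α : Matrix (Fin 2) (Fin 2) ℤ) (hα : 0 < α.det)
    (h : ∀ γ : Γ₁, α * ((γ : SL(2, ℤ)) : Matrix (Fin 2) (Fin 2) ℤ)
      = (((c γ : Γ₂) : SL(2, ℤ)) : Matrix (Fin 2) (Fin 2) ℤ) * α)
    [Fintype (SL(2, ℤ) ⧸ Γ₁)] [Fintype (SL(2, ℤ) ⧸ Γ₂)]
    (h₁ : (-1 : SL(2, ℤ)) ∈ Γ₁) (h₂ : (-1 : SL(2, ℤ)) ∈ Γ₂) :
    ConjInvariant K Γ₁ Γ₂ c h₁ h₂ :=
  conjInvariant_of_isCuspIso K (isCuspIso_of_matrix c α hα h) h₁ h₂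

variable (N q : ℕ) [NeZero q]

/-- `degEquiv N q` (conjugation by `diag(q, 1)`) is a cusp isomorphism. -/
theorem isCuspIso_degEquiv : IsCuspIso (degEquiv N q) := by
  refine isCuspIso_of_matrix (degEquiv N q) !![(q : ℤ), 0; 0, 1] ?_ (fun γ => diag_mul_eq N q γ)
  rw [Matrix.det_fin_two_of, mul_one, mul_zero, sub_zero]
  exact_mod_cast Nat.pos_of_ne_zero (NeZero.ne q)

/-- **(PD6) for the second degeneracy map**: the Poincare pairings of `Γ₀(N q)` and of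
`degRange N q = diag(q,1) Γ₀(N q) diag(q,1)⁻¹` correspond under `degEquiv N q`; for any choice of
the `Fintype` structures on the coset spaces. -/
theorem conjInvariant_degEquiv (K : Type*) [Field K]
    [Fintype (SL(2, ℤ) ⧸ Gamma0 (N * q))] [Fintype (SL(2, ℤ) ⧸ degRange N q)]
    (h₁ : (-1 : SL(2, ℤ)) ∈ Gamma0 (N * q)) (h₂ : (-1 : SL(2, ℤ)) ∈ degRange N q) :
    ConjInvariant K (Gamma0 (N * q)) (degRange N q) (degEquiv N q) h₁ h₂ :=
  conjInvariant_of_isCuspIso K (isCuspIso_degEquiv N q) h₁ h₂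

section PDHypShape

variable [NeZero N] (p : ℕ) [Fact p.Prime]

attribute [local instance] fintypeCosetGamma0 fintypeCosetDegRange

/-- the field `conj` of `PDHyp N q p`, literally. -/
theorem pdHyp_conj :
    ConjInvariant (ZMod p) (Gamma0 (N * q)) (degRange N q) (degEquiv N q)
      (neg_one_mem_Gamma0 (N * q)) (neg_one_mem_degRange N q) :=
  conjInvariant_degEquiv N q (ZMod p) _ _

end PDHypShape

end Fermat.Agent.S41.PD
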