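/-
helper29 (P-S41, block (4) "Poincare duality", part PD5): restriction and corestriction in the
coset model.

Part A (abstract): for a `G`-equivariant map `p : X₂ → X₁` of finite `G`-sets, the pull-back
`pull` and the push-forward `push` (sum over the fibres) of functions commute with the action,
are adjoint for the standard form `ip`, preserve cycles and boundary loops, and the induced maps
`pullV`, `pushV` on `parV` are adjoint for the intersection form `formV`.

Part B: the projection `G ⧸ Γ₂ → G ⧸ Γ₁` for `Γ₂ ≤ Γ₁`; its fibres have `Γ₂.relIndex Γ₁` elements.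

Part C: restriction `res` and corestriction (transfer) `cores` of additive characters, and their
Shapiro cocycles: `coc (res φ) g = pull (coc φ g) + (g - 1) h`,
`coc (cores ψ) g = push (coc ψ g) + (g - 1) h'`, `cores (res φ) = index • φ`.
-/
import Fermat.Agent.S41.PD.Model
import Fermat.Agent.Gateway.A2.Bound

set_option autoImplicit false

noncomputable section

namespace Fermat.Agent.S41.PD

open Fermat.Agent.Gateway.A2

/-! ### Part A: pull-back and push-forward of functions -/

section PullPush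

variable {G : Type*} [Group G] {X₁ X₂ : Type*} [MulAction G X₁] [MulAction G X₂]
  (K : Type*) [Field K] (p : X₂ → X₁)

/-- pull-back of functions along `p`. -/
def pull : (X₁ → K) →ₗ[K] (X₂ → K) := LinearMap.funLeft K K p

@[simp] theorem pull_apply (m : X₁ → K) (x : X₂) : pull K p m x = m (p x) := rfl

open Classical in
/-- push-forward of functions along `p`: sum over the fibres. -/
def push [Fintype X₂] : (X₂ → K) →ₗ[K] (X₁ → K) where
  toFun n x₁ := ∑ x₂ ∈ Finset.univ.filter (fun x₂ => p x₂ = x₁), n x₂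
  map_add' n n' := by
    funext x₁
    simp only [Pi.add_apply, Finset.sum_add_distrib]
  map_smul' c n := by
    funext x₁
    simp only [Pi.smul_apply, smul_eq_mul, RingHom.id_apply, Finset.mul_sum]

theorem push_apply [Fintype X₂] [DecidableEq X₁] (n : X₂ → K) (x₁ : X₁) :
    push K p n x₁ = ∑ x₂ ∈ Finset.univ.filter (fun x₂ => p x₂ = x₁), n x₂ := by
  simp only [push, LinearMap.coe_mk, AddHom.coe_mk]
  congr!

/-- `pull` and `push` are adjoint for the standard forms. -/
theorem ip_pull [Fintype X₁] [Fintype X₂] (m : X₁ → K) (n : X₂ → K) :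
    ip K (pull K p m) n = ip K m (push K p n) := by
  classical
  simp only [ip_apply, pull_apply, push_apply, Finset.mul_sum]
  rw [← Finset.sum_fiberwise (s := Finset.univ) (g := p)]
  refine Finset.sum_congr rfl fun x₁ _ => Finset.sum_congr rfl fun x₂ hx₂ => ?_
  rw [(Finset.mem_filter.mp hx₂).2]

theorem ip_push [Fintype X₁] [Fintype X₂] (n : X₂ → K) (m : X₁ → K) :
    ip K (push K p n) m = ip K n (pull K p m) := by
  rw [ip_comm, ← ip_pull, ip_comm]

variable {p}

theorem pull_act (hp : ∀ (g : G) (x : X₂), p (g • x) = g • p x) (g : G) (m : X₁ → K) :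
    pull K p (act K g m) = act K g (pull K p m) := by
  funext x
  simp only [pull_apply, act_apply, hp]

theorem push_act [Fintype X₂] (hp : ∀ (g : G) (x : X₂), p (g • x) = g • p x) (g : G)
    (n : X₂ → K) : push K p (act K g n) = act K g (push K p n) := by
  classical
  funext x₁
  simp only [push_apply, act_apply]
  refine Finset.sum_equiv (MulAction.toPerm g⁻¹) ?_ fun x₂ _ => rfl
  intro x₂
  simp only [Finset.mem_filter, Finset.mem_univ, true_and, MulAction.toPerm_apply, hp]
  constructor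
  · intro h; rw [h]
  · intro h
    have := congrArg (fun y => g • y) h
    simpa using this

theorem pull_opA (hp : ∀ (g : G) (x : X₂), p (g • x) = g • p x) (g : G) (m : X₁ → K) :
    pull K p (opA K g m) = opA K g (pull K p m) := by
  rw [opA_apply, opA_apply, map_sub, pull_act K hp]

theorem push_opA [Fintype X₂] (hp : ∀ (g : G) (x : X₂), p (g • x) = g • p x) (g : G)
    (n : X₂ → K) : push K p (opA K g n) = opA K g (push K p n) := by
  rw [opA_apply, opA_apply, map_sub, push_act K hp]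

variable (p)

/-- if all fibres of `p` have `d` elements, then `push ∘ pull = d`. -/
theorem push_pull [Fintype X₂] [DecidableEq X₁] {d : ℕ}
    (hd : ∀ x₁ : X₁, (Finset.univ.filter (fun x₂ => p x₂ = x₁)).card = d) (m : X₁ → K) :
    push K p (pull K p m) = (d : K) • m := by
  funext x₁
  rw [push_apply, Pi.smul_apply, smul_eq_mul, ← hd x₁, ← nsmul_eq_mul, ← Finset.sum_const]
  refine Finset.sum_congr rfl fun x₂ hx₂ => ?_
  rw [pull_apply, (Finset.mem_filter.mp hx₂).2]

end PullPush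

/-! ### Cycles, boundary loops and the intersection form -/

section Cycles

variable {G : Type*} [Group G] {X₁ X₂ : Type*} [MulAction G X₁] [MulAction G X₂]
  (K : Type*) [Field K] {p : X₂ → X₁} (hp : ∀ (g : G) (x : X₂), p (g • x) = g • p x) (s u : G)

include hp

theorem pull_mem_range_opA (g : G) {x : X₁ → K} (hx : x ∈ LinearMap.range (opA K g)) :
    pull K p x ∈ LinearMap.range (opA K g (X := X₂)) := by
  obtain ⟨m, rfl⟩ := hx
  exact ⟨pull K p m, (pull_opA K hp g m).symm⟩

theorem push_mem_range_opA [Fintype X₂] (g : G) {x : X₂ → K}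
    (hx : x ∈ LinearMap.range (opA K g)) :
    push K p x ∈ LinearMap.range (opA K g (X := X₁)) := by
  obtain ⟨m, rfl⟩ := hx
  exact ⟨push K p m, (push_opA K hp g m).symm⟩

theorem pull_mem_ker_opA (g : G) {x : X₁ → K} (hx : x ∈ LinearMap.ker (opA K g)) :
    pull K p x ∈ LinearMap.ker (opA K g (X := X₂)) := by
  rw [LinearMap.mem_ker] at hx ⊢
  rw [← pull_opA K hp, hx, map_zero]

theorem push_mem_ker_opA [Fintype X₂] (g : G) {x : X₂ → K}
    (hx : x ∈ LinearMap.ker (opA K g)) :
    push K p x ∈ LinearMap.ker (opA K g (X := X₁)) := by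
  rw [LinearMap.mem_ker] at hx ⊢
  rw [← push_opA K hp, hx, map_zero]

theorem pull_mem_cyc {x : X₁ → K} (hx : x ∈ cyc K s u) : pull K p x ∈ cyc K s u (X := X₂) :=
  ⟨pull_mem_range_opA K hp s hx.1, pull_mem_range_opA K hp u hx.2⟩

theorem push_mem_cyc [Fintype X₂] {x : X₂ → K} (hx : x ∈ cyc K s u) :
    push K p x ∈ cyc K s u (X := X₁) :=
  ⟨push_mem_range_opA K hp s hx.1, push_mem_range_opA K hp u hx.2⟩

theorem pull_mem_bdry {x : X₁ → K} (hx : x ∈ bdry K s u) : pull K p x ∈ bdry K s u (X := X₂) := by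
  obtain ⟨n, hn, rfl⟩ := hx
  exact ⟨pull K p n, pull_mem_ker_opA K hp _ hn, (pull_opA K hp s n).symm⟩

theorem push_mem_bdry [Fintype X₂] {x : X₂ → K} (hx : x ∈ bdry K s u) :
    push K p x ∈ bdry K s u (X := X₁) := by
  obtain ⟨n, hn, rfl⟩ := hx
  exact ⟨push K p n, push_mem_ker_opA K hp _ hn, (push_opA K hp s n).symm⟩

/-- pull-back of cycles. -/
def pullC : cyc K s u (X := X₁) →ₗ[K] cyc K s u (X := X₂) :=
  (pull K p).restrict fun _ hx => pull_mem_cyc K hp s u hx

/-- push-forward of cycles. -/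
def pushC [Fintype X₂] : cyc K s u (X := X₂) →ₗ[K] cyc K s u (X := X₁) :=
  (push K p).restrict fun _ hx => push_mem_cyc K hp s u hx

@[simp] theorem coe_pullC (x : cyc K s u (X := X₁)) :
    (pullC K hp s u x : X₂ → K) = pull K p (x : X₁ → K) := rfl

@[simp] theorem coe_pushC [Fintype X₂] (x : cyc K s u (X := X₂)) :
    (pushC K hp s u x : X₁ → K) = push K p (x : X₂ → K) := rfl

theorem pullC_mem_bdryC {x : cyc K s u (X := X₁)} (hx : x ∈ bdryC K s u) :
    pullC K hp s u x ∈ bdryC K s u :=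
  pull_mem_bdry K hp s u hx

theorem pushC_mem_bdryC [Fintype X₂] {x : cyc K s u (X := X₂)} (hx : x ∈ bdryC K s u) :
    pushC K hp s u x ∈ bdryC K s u :=
  push_mem_bdry K hp s u hx

/-- the intersection forms: `⟨p^* y, x⟩₂ = ⟨y, p_* x⟩₁`. -/
theorem form_pullC_left [Fintype X₁] [Fintype X₂] (y : cyc K s u (X := X₁))
    (x : cyc K s u (X := X₂)) :
    form K s u (pullC K hp s u y) x = form K s u y (pushC K hp s u x) := by
  obtain ⟨m₁, hm₁⟩ := x.2.1
  obtain ⟨m₂, hm₂⟩ := x.2.2
  rw [form_eq K s u x (pullC K hp s u y) m₁ m₂ hm₁ hm₂,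
    form_eq K s u (pushC K hp s u x) y (push K p m₁) (push K p m₂)
      (by rw [← push_opA K hp, hm₁, coe_pushC]) (by rw [← push_opA K hp, hm₂, coe_pushC]),
    ← map_sub, coe_pullC, ip_push, ip_comm]

/-- the intersection forms: `⟨x, p^* y⟩₂ = ⟨p_* x, y⟩₁`. -/
theorem form_pullC_right [Fintype X₁] [Fintype X₂] (x : cyc K s u (X := X₂))
    (y : cyc K s u (X := X₁)) :
    form K s u x (pullC K hp s u y) = form K s u (pushC K hp s u x) y := by
  obtain ⟨m₁, hm₁⟩ := y.2.1
  obtain ⟨m₂, hm₂⟩ := y.2.2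
  rw [form_eq K s u y (pushC K hp s u x) m₁ m₂ hm₁ hm₂,
    form_eq K s u (pullC K hp s u y) x (pull K p m₁) (pull K p m₂)
      (by rw [← pull_opA K hp, hm₁, coe_pullC]) (by rw [← pull_opA K hp, hm₂, coe_pullC]),
    ← map_sub, coe_pushC, ip_pull]

/-- pull-back on `V = cyc / bdry`. -/
def pullV : parV K s u (X := X₁) →ₗ[K] parV K s u (X := X₂) :=
  Submodule.mapQ _ _ (pullC K hp s u) fun _ hx => pullC_mem_bdryC K hp s u hx

/-- push-forward on `V = cyc / bdry`. -/
def pushV [Fintype X₂] : parV K s u (X := X₂) →ₗ[K] parV K s u (X := X₁) :=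
  Submodule.mapQ _ _ (pushC K hp s u) fun _ hx => pushC_mem_bdryC K hp s u hx

@[simp] theorem pullV_mk (x : cyc K s u (X := X₁)) :
    pullV K hp s u (Submodule.Quotient.mk x) = Submodule.Quotient.mk (pullC K hp s u x) := rfl

@[simp] theorem pushV_mk [Fintype X₂] (x : cyc K s u (X := X₂)) :
    pushV K hp s u (Submodule.Quotient.mk x) = Submodule.Quotient.mk (pushC K hp s u x) := rfl

/-- **adjointness** of `pullV` and `pushV` for the intersection forms. -/
theorem formV_pullV_left [Fintype X₁] [Fintype X₂]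
    (hs₁ : ∀ m : X₁ → K, act K s (act K s m) = m) (hs₂ : ∀ m : X₂ → K, act K s (act K s m) = m)
    (a : parV K s u (X := X₁)) (b : parV K s u (X := X₂)) :
    formV K s u hs₂ (pullV K hp s u a) b = formV K s u hs₁ a (pushV K hp s u b) := by
  obtain ⟨y, rfl⟩ := Submodule.Quotient.mk_surjective _ a
  obtain ⟨x, rfl⟩ := Submodule.Quotient.mk_surjective _ b
  rw [pullV_mk, pushV_mk, formV_mk, formV_mk, form_pullC_left]

theorem formV_pullV_right [Fintype X₁] [Fintype X₂]
    (hs₁ : ∀ m : X₁ → K, act K s (act K s m) = m) (hs₂ : ∀ m : X₂ → K, act K s (act K s m) = m)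
    (b : parV K s u (X := X₂)) (a : parV K s u (X := X₁)) :
    formV K s u hs₂ b (pullV K hp s u a) = formV K s u hs₁ (pushV K hp s u b) a := by
  obtain ⟨y, rfl⟩ := Submodule.Quotient.mk_surjective _ a
  obtain ⟨x, rfl⟩ := Submodule.Quotient.mk_surjective _ b
  rw [pullV_mk, pushV_mk, formV_mk, formV_mk, form_pullC_right]

/-- if all fibres of `p` have `d` elements, then `pushV ∘ pullV = d`. -/
theorem pushV_pullV [Fintype X₂] [DecidableEq X₁] {d : ℕ}
    (hd : ∀ x₁ : X₁, (Finset.univ.filter (fun x₂ => p x₂ = x₁)).card = d)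
    (a : parV K s u (X := X₁)) :
    pushV K hp s u (pullV K hp s u a) = (d : K) • a := by
  obtain ⟨y, rfl⟩ := Submodule.Quotient.mk_surjective _ a
  rw [pullV_mk, pushV_mk, ← Submodule.Quotient.mk_smul]
  congr 1
  apply Subtype.ext
  rw [coe_pushC, coe_pullC, push_pull K p hd]
  rfl

end Cycles

/-! ### Part B: the projection `G ⧸ Γ₂ → G ⧸ Γ₁` -/

section Proj

variable {G : Type*} [Group G] {Γ₁ Γ₂ : Subgroup G} (h : Γ₂ ≤ Γ₁)

/-- the projection `G ⧸ Γ₂ → G ⧸ Γ₁`. -/
def proj : G ⧸ Γ₂ → G ⧸ Γ₁ := Subgroup.quotientMapOfLE h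

@[simp] theorem proj_mk (g : G) : proj h (g : G ⧸ Γ₂) = (g : G ⧸ Γ₁) := rfl

theorem proj_smul (g : G) (x : G ⧸ Γ₂) : proj h (g • x) = g • proj h x := by
  induction x using QuotientGroup.induction_on with
  | H a => rfl

theorem proj_surjective : Function.Surjective (proj h) := by
  intro x
  induction x using QuotientGroup.induction_on with
  | H a => exact ⟨(a : G ⧸ Γ₂), rfl⟩

theorem proj_basePt : proj h (basePt Γ₂) = basePt Γ₁ := rfl

/-- all fibres of the projection have `Γ₂.relIndex Γ₁` elements. -/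
theorem card_fiber_proj [Fintype (G ⧸ Γ₂)] [DecidableEq (G ⧸ Γ₁)] (x₁ : G ⧸ Γ₁) :
    (Finset.univ.filter (fun x₂ : G ⧸ Γ₂ => proj h x₂ = x₁)).card = Γ₂.relIndex Γ₁ := by
  classical
  let e := Subgroup.quotientEquivProdOfLE h
  have he : ∀ x₂ : G ⧸ Γ₂, (e x₂).1 = proj h x₂ := fun x₂ => rfl
  have : Finite (Γ₁ ⧸ Γ₂.subgroupOf Γ₁) :=
    Finite.of_injective (fun q => e.symm (x₁, q)) fun a b hab => by
      have := e.symm.injective hab
      exact (Prod.ext_iff.mp this).2
  have := Fintype.ofFinite (Γ₁ ⧸ Γ₂.subgroupOf Γ₁)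
  rw [Subgroup.relIndex, Subgroup.index, Nat.card_eq_fintype_card, ← Finset.card_univ]
  refine Finset.card_bij' (fun x₂ _ => (e x₂).2) (fun q _ => e.symm (x₁, q)) ?_ ?_ ?_ ?_
  · intro _ _; exact Finset.mem_univ _
  · intro q _
    simp only [Finset.mem_filter, Finset.mem_univ, true_and]
    rw [← he, Equiv.apply_symm_apply]
  · intro x₂ hx₂
    have h1 : (e x₂).1 = x₁ := by
      rw [he]; exact (Finset.mem_filter.mp hx₂).2
    have : e x₂ = (x₁, (e x₂).2) := Prod.ext h1 rfl
    rw [← this, Equiv.symm_apply_apply]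
  · intro q _
    rw [Equiv.apply_symm_apply]

end Proj

/-! ### Part C: the inverse of Shapiro's lemma on cocycles -/

section InvShapiro

variable {G : Type*} [Group G] (Γ : Subgroup G) {K : Type*} [Field K]

/-- `1`-cocycles of `G` with values in the functions on `G ⧸ Γ`. -/
def IsCoc (c : G → (G ⧸ Γ) → K) : Prop := ∀ g h : G, c (g * h) = c g + act K g (c h)

variable {Γ}

theorem isCoc_coc (φ : Additive Γ →+ K) : IsCoc Γ (coc φ) := coc_mul φ

theorem IsCoc.map_one {c : G → (G ⧸ Γ) → K} (hc : IsCoc Γ c) : c 1 = 0 := by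
  have h := hc 1 1
  rw [mul_one, act_one] at h
  exact left_eq_add.mp h

theorem IsCoc.map_inv {c : G → (G ⧸ Γ) → K} (hc : IsCoc Γ c) (g : G) :
    c g⁻¹ = - act K g⁻¹ (c g) := by
  have h := hc g⁻¹ g
  rw [inv_mul_cancel, hc.map_one] at h
  exact eq_neg_of_add_eq_zero_left h.symm

theorem smul_basePt_of_mem' {γ : G} (hγ : γ ∈ Γ) : γ • basePt Γ = basePt Γ := by
  rw [smul_basePt, basePt, QuotientGroup.eq, mul_one]
  exact Γ.inv_mem hγ

theorem sec_smul_basePt (y : G ⧸ Γ) : sec Γ y • basePt Γ = y := by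
  rw [smul_basePt, mk_sec]

/-- the character of `Γ` attached to a cocycle: evaluation at the base point. -/
def charOf (c : G → (G ⧸ Γ) → K) (hc : IsCoc Γ c) : Additive Γ →+ K where
  toFun γ := c ((Additive.toMul γ : Γ) : G) (basePt Γ)
  map_zero' := by
    show c ((1 : Γ) : G) (basePt Γ) = 0
    rw [Subgroup.coe_one, hc.map_one]
    rfl
  map_add' γ δ := by
    show c (((Additive.toMul γ * Additive.toMul δ : Γ)) : G) (basePt Γ) = _
    rw [Subgroup.coe_mul, hc, Pi.add_apply, act_apply,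
      smul_basePt_of_mem' (Γ.inv_mem (Additive.toMul γ).2)]

@[simp] theorem charOf_apply (c : G → (G ⧸ Γ) → K) (hc : IsCoc Γ c) (γ : Γ) :
    charOf c hc (Additive.ofMul γ) = c (γ : G) (basePt Γ) := rfl

/-- **inverse Shapiro**: the Shapiro cocycle of `charOf c` is cohomologous to `c`. -/
theorem coc_charOf (c : G → (G ⧸ Γ) → K) (hc : IsCoc Γ c) (g : G) :
    coc (charOf c hc) g = c g + opA K g (fun y => c (sec Γ y) y) := by
  funext y
  rw [coc_apply, charOf_apply]
  have h1 : ((gam Γ g (g⁻¹ • y) : Γ) : G) = (sec Γ y)⁻¹ * g * sec Γ (g⁻¹ • y) := by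
    simp only [gam, smul_inv_smul]
  rw [h1, hc, hc, hc.map_inv]
  simp only [Pi.add_apply, Pi.neg_apply, act_apply, opA_apply, Pi.sub_apply, inv_inv, mul_inv_rev,
    mul_smul, sec_smul_basePt]
  ring

end InvShapiro

/-! ### Restriction and corestriction of characters -/

section ResCores

variable {G : Type*} [Group G] {Γ₁ Γ₂ : Subgroup G} (h : Γ₂ ≤ Γ₁) (K : Type*) [Field K]

/-- restriction of additive characters from `Γ₁` to `Γ₂`. -/
def res : (Additive Γ₁ →+ K) →ₗ[K] (Additive Γ₂ →+ K) where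
  toFun φ := φ.comp (MonoidHom.toAdditive (Subgroup.inclusion h))
  map_add' _ _ := rfl
  map_smul' _ _ := rfl

@[simp] theorem res_apply (φ : Additive Γ₁ →+ K) (γ : Γ₂) :
    res h K φ (Additive.ofMul γ) = φ (Additive.ofMul (Subgroup.inclusion h γ)) := rfl

theorem resGauge_mem (y₂ : G ⧸ Γ₂) : (sec Γ₁ (proj h y₂))⁻¹ * sec Γ₂ y₂ ∈ Γ₁ := by
  rw [← QuotientGroup.eq, mk_sec, ← proj_mk h, mk_sec]

/-- the gauge function comparing the Shapiro cocycles of `φ` and `res φ`:
`y₂ ↦ φ (sec₁ (p y₂)⁻¹ * sec₂ y₂)`. -/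
def resGauge (φ : Additive Γ₁ →+ K) : (G ⧸ Γ₂) → K := fun y₂ =>
  φ (Additive.ofMul ⟨(sec Γ₁ (proj h y₂))⁻¹ * sec Γ₂ y₂, resGauge_mem h y₂⟩)

/-- the Shapiro cocycle of `res φ` is the pull-back of the Shapiro cocycle of `φ`, up to the
coboundary of `resGauge`. -/
theorem coc_res (φ : Additive Γ₁ →+ K) (g : G) :
    coc (res h K φ) g = pull K (proj h) (coc φ g) + opA K g (resGauge h K φ) := by
  funext y₂
  simp only [Pi.add_apply, opA_apply, Pi.sub_apply, act_apply, pull_apply, coc_apply, res_apply,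
    resGauge]
  have key : Subgroup.inclusion h (gam Γ₂ g (g⁻¹ • y₂)) =
      (⟨(sec Γ₁ (proj h y₂))⁻¹ * sec Γ₂ y₂, resGauge_mem h y₂⟩ : Γ₁)⁻¹ *
        gam Γ₁ g (g⁻¹ • proj h y₂) *
        ⟨(sec Γ₁ (proj h (g⁻¹ • y₂)))⁻¹ * sec Γ₂ (g⁻¹ • y₂), resGauge_mem h (g⁻¹ • y₂)⟩ := by
    apply Subtype.ext
    simp only [gam, smul_inv_smul, Subgroup.coe_inclusion, Subgroup.coe_mul, Subgroup.coe_inv,
      proj_smul]
    group
  rw [key, ofMul_mul, ofMul_mul, ofMul_inv, map_add, map_add, map_neg]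
  ring

/-- the cocycle `g ↦ push (coc ψ g)`. -/
theorem isCoc_push_coc [Fintype (G ⧸ Γ₂)] (ψ : Additive Γ₂ →+ K) :
    IsCoc Γ₁ (fun g => push K (proj h) (coc ψ g)) := by
  intro g g'
  simp only [coc_mul, map_add, push_act K (proj_smul h)]

/-- corestriction (transfer) of additive characters from `Γ₂` to `Γ₁`:
`(cores ψ) γ = ∑ over the fibre of the base point of coc ψ γ`. -/
def cores [Fintype (G ⧸ Γ₂)] : (Additive Γ₂ →+ K) →ₗ[K] (Additive Γ₁ →+ K) where
  toFun ψ := charOf _ (isCoc_push_coc h K ψ)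
  map_add' ψ ψ' := by
    refine AddMonoidHom.ext fun γ' => ?_
    obtain ⟨γ, rfl⟩ := Additive.ofMul.surjective γ'
    simp only [charOf_apply, AddMonoidHom.add_apply, coc_add, map_add, Pi.add_apply]
  map_smul' c ψ := by
    refine AddMonoidHom.ext fun γ' => ?_
    obtain ⟨γ, rfl⟩ := Additive.ofMul.surjective γ'
    simp only [charOf_apply, coc_smul, map_smul, Pi.smul_apply, RingHom.id_apply]
    rfl

theorem cores_apply [Fintype (G ⧸ Γ₂)] (ψ : Additive Γ₂ →+ K) (γ : Γ₁) :
    cores h K ψ (Additive.ofMul γ) = push K (proj h) (coc ψ (γ : G)) (basePt Γ₁) := rfl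

/-- the gauge function comparing the Shapiro cocycle of `cores ψ` with the push-forward of the
Shapiro cocycle of `ψ`. -/
def coresGauge [Fintype (G ⧸ Γ₂)] (ψ : Additive Γ₂ →+ K) : (G ⧸ Γ₁) → K :=
  fun y => push K (proj h) (coc ψ (sec Γ₁ y)) y

/-- the Shapiro cocycle of `cores ψ` is the push-forward of the Shapiro cocycle of `ψ`, up to the
coboundary of `coresGauge`. -/
theorem coc_cores [Fintype (G ⧸ Γ₂)] (ψ : Additive Γ₂ →+ K) (g : G) :
    coc (cores h K ψ) g = push K (proj h) (coc ψ g) + opA K g (coresGauge h K ψ) :=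
  coc_charOf _ (isCoc_push_coc h K ψ) g

/-- `cores ∘ res` is multiplication by the index. -/
theorem cores_res [Fintype (G ⧸ Γ₂)] (φ : Additive Γ₁ →+ K) :
    cores h K (res h K φ) = (Γ₂.relIndex Γ₁ : K) • φ := by
  classical
  rw [← sub_eq_zero, sub_eq_add_neg, ← neg_smul]
  refine eq_zero_of_coc_eq_coboundary _
    (push K (proj h) (resGauge h K φ) + coresGauge h K (res h K φ)) fun g => ?_
  rw [coc_add, coc_smul, coc_cores, coc_res, map_add, push_pull K (proj h) (card_fiber_proj h),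
    push_opA K (proj_smul h), ← opA_apply, map_add]
  simp only [neg_smul]
  abel

/-! ### Gauge lemmas (used to compare the classes of `φ`, `res φ`, `cores ψ` in `parV`) -/

theorem coc_res_eq_opA {φ : Additive Γ₁ →+ K} {t : G} {r : (G ⧸ Γ₁) → K}
    (hr : coc φ t = opA K t r) :
    coc (res h K φ) t = opA K t (pull K (proj h) r + resGauge h K φ) := by
  rw [coc_res, hr, pull_opA K (proj_smul h), map_add]

theorem coc_res_sub_opA (φ : Additive Γ₁ →+ K) (s : G) (r : (G ⧸ Γ₁) → K) :
    coc (res h K φ) s - opA K s (pull K (proj h) r + resGauge h K φ) =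
      pull K (proj h) (coc φ s - opA K s r) := by
  rw [coc_res, map_add, map_sub, pull_opA K (proj_smul h)]
  abel

theorem coc_cores_eq_opA [Fintype (G ⧸ Γ₂)] {ψ : Additive Γ₂ →+ K} {t : G} {r : (G ⧸ Γ₂) → K}
    (hr : coc ψ t = opA K t r) :
    coc (cores h K ψ) t = opA K t (push K (proj h) r + coresGauge h K ψ) := by
  rw [coc_cores, hr, push_opA K (proj_smul h), map_add]

theorem coc_cores_sub_opA [Fintype (G ⧸ Γ₂)] (ψ : Additive Γ₂ →+ K) (s : G)
    (r : (G ⧸ Γ₂) → K) :
    coc (cores h K ψ) s - opA K s (push K (proj h) r + coresGauge h K ψ) =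
      push K (proj h) (coc ψ s - opA K s r) := by
  rw [coc_cores, map_add, map_sub, push_opA K (proj_smul h)]
  abel

end ResCores

end Fermat.Agent.S41.PD
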