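/-
helper29 (P-S41, block (4) "Poincare duality", part PD5, second file): restriction and
corestriction of parabolic characters are adjoint for the Poincare duality pairings.

* `corAlong_inclusion_eq_cores` : the Mathlib transfer `corAlong (inclusion h)` is the
  coset-model corestriction `cores h` of `ResCores.lean`;
* `toV_res`, `toV_cores` : under `toV`, restriction is `pullV` and corestriction is `pushV`;
* `resCorAdjoint` : the statement `ResCorAdjoint` of `Main.lean` (PD5);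
* `cores_mem_homPE`, `corAlong_inclusion_mem_homPE` : corestriction preserves `homPE`;
* `corAlong_resAlong_inclusion` : `cores ∘ res = index`.
-/
import Fermat.Agent.S41.PD.ResCores
import Fermat.Agent.S41.PD.Main
import Fermat.Agent.Gateway.Hecke.CohPE

set_option autoImplicit false

noncomputable section

namespace Fermat.Agent.S41.PD

open Fermat.Agent.Gateway.A2 Fermat.Agent.S41

/-! ### The transfer is the coset-model corestriction -/

section Transfer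

variable {G : Type*} [Group G] {Γ₁ Γ₂ : Subgroup G} (h : Γ₂ ≤ Γ₁) (K : Type*) [Field K]

theorem resAlong_inclusion_eq_res (φ : Additive Γ₁ →+ K) :
    resAlong (Subgroup.inclusion h) K φ = res h K φ := rfl

theorem mem_range_inclusion {x : Γ₁} : x ∈ (Subgroup.inclusion h).range ↔ (x : G) ∈ Γ₂ := by
  constructor
  · rintro ⟨y, rfl⟩
    exact y.2
  · intro hx
    exact ⟨⟨x, hx⟩, rfl⟩

theorem sec_mem_of_proj_eq {y₂ : G ⧸ Γ₂} (hy : proj h y₂ = basePt Γ₁) : sec Γ₂ y₂ ∈ Γ₁ := by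
  have h1 : ((sec Γ₂ y₂ : G) : G ⧸ Γ₁) = ((1 : G) : G ⧸ Γ₁) := by
    rw [← proj_mk h, mk_sec, hy]
    rfl
  rw [QuotientGroup.eq, mul_one] at h1
  simpa using Γ₁.inv_mem h1

theorem proj_smul_eq_basePt {γ : G} (hγ : γ ∈ Γ₁) {y₂ : G ⧸ Γ₂} (hy : proj h y₂ = basePt Γ₁) :
    proj h (γ • y₂) = basePt Γ₁ := by
  rw [proj_smul, hy, smul_basePt_of_mem' hγ]

open Classical in
/-- the Mathlib transfer along the inclusion `Γ₂ ≤ Γ₁` is the corestriction `cores`. -/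
theorem corAlong_inclusion_eq_cores [Fintype (G ⧸ Γ₂)]
    [(Subgroup.inclusion h).range.FiniteIndex] (ψ : Additive Γ₂ →+ K) :
    corAlong (Subgroup.inclusion h) (Subgroup.inclusion_injective h) K ψ = cores h K ψ := by
  refine AddMonoidHom.ext fun γ' => ?_
  obtain ⟨γ, rfl⟩ := Additive.ofMul.surjective γ'
  -- the index type: the fibre of the base point
  let ι := {y₂ : G ⧸ Γ₂ // proj h y₂ = basePt Γ₁}
  let r : ι → Γ₁ := fun i => ⟨sec Γ₂ i.1, sec_mem_of_proj_eq h i.2⟩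
  have hr : Function.Bijective (fun i => (r i : Γ₁ ⧸ (Subgroup.inclusion h).range)) := by
    constructor
    · intro i i' hii
      have h1 : (r i)⁻¹ * r i' ∈ (Subgroup.inclusion h).range := QuotientGroup.eq.mp hii
      rw [mem_range_inclusion] at h1
      have h2 : ((sec Γ₂ i.1 : G) : G ⧸ Γ₂) = ((sec Γ₂ i'.1 : G) : G ⧸ Γ₂) :=
        QuotientGroup.eq.mpr h1
      rw [mk_sec, mk_sec] at h2
      exact Subtype.ext h2
    · intro q
      obtain ⟨δ, rfl⟩ := QuotientGroup.mk_surjective q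
      have hδ : proj h ((δ : G) : G ⧸ Γ₂) = basePt Γ₁ := by
        rw [proj_mk, ← smul_basePt, smul_basePt_of_mem' δ.2]
      refine ⟨⟨((δ : G) : G ⧸ Γ₂), hδ⟩, ?_⟩
      show ((r ⟨((δ : G) : G ⧸ Γ₂), hδ⟩ : Γ₁) : Γ₁ ⧸ (Subgroup.inclusion h).range) = (δ : _)
      rw [QuotientGroup.eq, mem_range_inclusion]
      show (sec Γ₂ ((δ : G) : G ⧸ Γ₂))⁻¹ * (δ : G) ∈ Γ₂
      rw [← QuotientGroup.eq, mk_sec]
  let σ : ι → ι := fun i => ⟨(γ : G) • i.1, proj_smul_eq_basePt h γ.2 i.2⟩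
  let hh : ι → Γ₂ := fun i => gam Γ₂ (γ : G) i.1
  have hg : ∀ i, γ * r i = r (σ i) * Subgroup.inclusion h (hh i) := by
    intro i
    apply Subtype.ext
    show (γ : G) * sec Γ₂ i.1 = sec Γ₂ ((γ : G) • i.1) * ((sec Γ₂ ((γ : G) • i.1))⁻¹ * γ * sec Γ₂ i.1)
    group
  rw [corAlong_apply_of_reps (Subgroup.inclusion h) (Subgroup.inclusion_injective h) K ψ r hr γ σ
    hh hg, cores_apply, push_apply]
  -- reindex along `σ`
  let σe : ι ≃ ι :=
    { toFun := σ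
      invFun := fun i => ⟨(γ : G)⁻¹ • i.1, proj_smul_eq_basePt h (Γ₁.inv_mem γ.2) i.2⟩
      left_inv := fun i => Subtype.ext (inv_smul_smul _ _)
      right_inv := fun i => Subtype.ext (smul_inv_smul _ _) }
  rw [Finset.sum_subtype (Finset.univ.filter fun x₂ : G ⧸ Γ₂ => proj h x₂ = basePt Γ₁)
    (p := fun x₂ => proj h x₂ = basePt Γ₁) (by simp) (fun x₂ => coc ψ (γ : G) x₂)]
  rw [← Equiv.sum_comp σe.symm]
  exact Finset.sum_congr rfl fun i _ => rfl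

end Transfer

/-! ### Restriction and corestriction under `toV` -/

section SL2

open scoped MatrixGroups
open ModularGroup

variable (K : Type*) [Field K] {Γ₁ Γ₂ : Subgroup SL(2, ℤ)} (h : Γ₂ ≤ Γ₁)

theorem res_mem_homPE {φ : Additive Γ₁ →+ K} (hφ : φ ∈ homPE K Γ₁ K) :
    res h K φ ∈ homPE K Γ₂ K :=
  fun γ hγ => hφ (Subgroup.inclusion h γ) hγ

/-- restriction of parabolic characters. -/
def resPE : homPE K Γ₁ K →ₗ[K] homPE K Γ₂ K :=
  (res h K).restrict fun _ hφ => res_mem_homPE K h hφ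

@[simp] theorem coe_resPE (φ : homPE K Γ₁ K) :
    (resPE K h φ : Additive Γ₂ →+ K) = res h K (φ : Additive Γ₁ →+ K) := rfl

/-- under `toV`, restriction of characters is the pull-back of cycles. -/
theorem toV_res [Finite (SL(2, ℤ) ⧸ Γ₁)] [Finite (SL(2, ℤ) ⧸ Γ₂)] (φ : homPE K Γ₁ K)
    (hres : res h K (φ : Additive Γ₁ →+ K) ∈ homPE K Γ₂ K) :
    toV K Γ₂ ⟨_, hres⟩ = pullV K (proj_smul h) (S : SL(2, ℤ)) (S * T) (toV K Γ₁ φ) := by
  have hr := triv_spec K Γ₁ φ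
  rw [toV_eq K Γ₁ φ _ hr,
    toV_eq K Γ₂ ⟨_, hres⟩ _ (coc_res_eq_opA h K hr), pullV_mk]
  congr 1
  apply Subtype.ext
  exact coc_res_sub_opA h K (φ : Additive Γ₁ →+ K) S (triv K Γ₁ φ)

/-- under `toV`, corestriction of characters is the push-forward of cycles. -/
theorem toV_cores [Finite (SL(2, ℤ) ⧸ Γ₁)] [Fintype (SL(2, ℤ) ⧸ Γ₂)] (ψ : homPE K Γ₂ K)
    (hcor : cores h K (ψ : Additive Γ₂ →+ K) ∈ homPE K Γ₁ K) :
    toV K Γ₁ ⟨_, hcor⟩ = pushV K (proj_smul h) (S : SL(2, ℤ)) (S * T) (toV K Γ₂ ψ) := by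
  have hr := triv_spec K Γ₂ ψ
  rw [toV_eq K Γ₂ ψ _ hr,
    toV_eq K Γ₁ ⟨_, hcor⟩ _ (coc_cores_eq_opA h K hr), pushV_mk]
  congr 1
  apply Subtype.ext
  exact coc_cores_sub_opA h K (ψ : Additive Γ₂ →+ K) S (triv K Γ₂ ψ)

/-- **(PD5), coset-model form**: `res` and `cores` are adjoint for the duality pairings. -/
theorem pairing_res_cores [Fintype (SL(2, ℤ) ⧸ Γ₁)] [Fintype (SL(2, ℤ) ⧸ Γ₂)]
    (hneg : (-1 : SL(2, ℤ)) ∈ Γ₂) (φ : homPE K Γ₁ K) (ψ : homPE K Γ₂ K)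
    (hres : res h K (φ : Additive Γ₁ →+ K) ∈ homPE K Γ₂ K)
    (hcor : cores h K (ψ : Additive Γ₂ →+ K) ∈ homPE K Γ₁ K) :
    pairing K Γ₂ hneg ⟨_, hres⟩ ψ = pairing K Γ₁ (h hneg) φ ⟨_, hcor⟩ := by
  rw [pairing_apply, pairing_apply, toV_res K h φ hres, toV_cores K h ψ hcor]
  exact formV_pullV_left K (proj_smul h) S (S * T) (act_S_act_S K Γ₁ (h hneg))
    (act_S_act_S K Γ₂ hneg) _ _

/-- the second variable: `⟨ψ, res φ⟩ = ⟨cores ψ, φ⟩`. -/
theorem pairing_cores_res [Fintype (SL(2, ℤ) ⧸ Γ₁)] [Fintype (SL(2, ℤ) ⧸ Γ₂)]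
    (hneg : (-1 : SL(2, ℤ)) ∈ Γ₂) (φ : homPE K Γ₁ K) (ψ : homPE K Γ₂ K)
    (hres : res h K (φ : Additive Γ₁ →+ K) ∈ homPE K Γ₂ K)
    (hcor : cores h K (ψ : Additive Γ₂ →+ K) ∈ homPE K Γ₁ K) :
    pairing K Γ₂ hneg ψ ⟨_, hres⟩ = pairing K Γ₁ (h hneg) ⟨_, hcor⟩ φ := by
  rw [pairing_apply, pairing_apply, toV_res K h φ hres, toV_cores K h ψ hcor]
  exact formV_pullV_right K (proj_smul h) S (S * T) (act_S_act_S K Γ₁ (h hneg))
    (act_S_act_S K Γ₂ hneg) _ _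

/-- **(PD5)**: the statement `ResCorAdjoint` of `Main.lean`. -/
theorem resCorAdjoint [Fintype (SL(2, ℤ) ⧸ Γ₁)] [Fintype (SL(2, ℤ) ⧸ Γ₂)]
    [(Subgroup.inclusion h).range.FiniteIndex] (hneg : (-1 : SL(2, ℤ)) ∈ Γ₂) :
    ResCorAdjoint K Γ₁ Γ₂ h hneg := by
  intro φ ψ hres hcor
  have hcor' : cores h K (ψ : Additive Γ₂ →+ K) ∈ homPE K Γ₁ K := by
    rw [← corAlong_inclusion_eq_cores]; exact hcor
  have e : (⟨_, hcor⟩ : homPE K Γ₁ K) = ⟨_, hcor'⟩ :=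
    Subtype.ext (corAlong_inclusion_eq_cores h K _)
  rw [e]
  exact pairing_res_cores K h hneg φ ψ hres hcor'

/-! ### Corestriction preserves parabolic characters -/

theorem mem_parab_of_mem_homPE {ψ : Additive Γ₂ →+ K} (hψ : ψ ∈ homPE K Γ₂ K)
    {γ : SL(2, ℤ)} (hγ : IsPE γ) : ψ ∈ parab Γ₂ K γ := by
  intro g k hmem
  apply hψ
  show IsPE (g * γ ^ k * g⁻¹)
  rw [isPE_conj_iff]
  exact Fermat.Agent.Gateway.HeckeCoh.isPE_pow hγ k

theorem cores_mem_homPE [Fintype (SL(2, ℤ) ⧸ Γ₁)] [Fintype (SL(2, ℤ) ⧸ Γ₂)]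
    {ψ : Additive Γ₂ →+ K} (hψ : ψ ∈ homPE K Γ₂ K) : cores h K ψ ∈ homPE K Γ₁ K := by
  classical
  intro γ hγ
  rw [cores_apply, ← ip_single K (push K (proj h) (coc ψ (γ : SL(2, ℤ)))) (basePt Γ₁), ip_push]
  have h1 : (Pi.single (basePt Γ₁) (1 : K) : SL(2, ℤ) ⧸ Γ₁ → K) ∈
      LinearMap.ker (opA K (γ : SL(2, ℤ))) := by
    rw [mem_ker_opA]
    funext x
    rw [act_apply, Pi.single_apply, Pi.single_apply]
    have : (γ : SL(2, ℤ))⁻¹ • x = basePt Γ₁ ↔ x = basePt Γ₁ := by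
      rw [inv_smul_eq_iff, smul_basePt_of_mem' γ.2]
    simp only [this]
  have h2 := pull_mem_ker_opA K (proj_smul h) (γ : SL(2, ℤ)) h1
  have h3 : coc ψ (γ : SL(2, ℤ)) ∈ LinearMap.range (opA K (γ : SL(2, ℤ))) := by
    rw [← perKer_eq_range_opA]
    exact coc_mem_perKer (mem_parab_of_mem_homPE K hψ hγ)
  rw [ip_comm]
  exact ip_eq_zero_of_mem_ker_of_mem_range K h2 h3

/-- corestriction of parabolic characters. -/
def coresPE [Fintype (SL(2, ℤ) ⧸ Γ₁)] [Fintype (SL(2, ℤ) ⧸ Γ₂)] :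
    homPE K Γ₂ K →ₗ[K] homPE K Γ₁ K :=
  (cores h K).restrict fun _ hψ => cores_mem_homPE K h hψ

@[simp] theorem coe_coresPE [Fintype (SL(2, ℤ) ⧸ Γ₁)] [Fintype (SL(2, ℤ) ⧸ Γ₂)]
    (ψ : homPE K Γ₂ K) :
    (coresPE K h ψ : Additive Γ₁ →+ K) = cores h K (ψ : Additive Γ₂ →+ K) := rfl

theorem pairing_resPE_coresPE [Fintype (SL(2, ℤ) ⧸ Γ₁)] [Fintype (SL(2, ℤ) ⧸ Γ₂)]
    (hneg : (-1 : SL(2, ℤ)) ∈ Γ₂) (φ : homPE K Γ₁ K) (ψ : homPE K Γ₂ K) :
    pairing K Γ₂ hneg (resPE K h φ) ψ = pairing K Γ₁ (h hneg) φ (coresPE K h ψ) :=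
  pairing_res_cores K h hneg φ ψ _ _

theorem coresPE_resPE [Fintype (SL(2, ℤ) ⧸ Γ₁)] [Fintype (SL(2, ℤ) ⧸ Γ₂)] (φ : homPE K Γ₁ K) :
    coresPE K h (resPE K h φ) = (Γ₂.relIndex Γ₁ : K) • φ :=
  Subtype.ext (cores_res h K (φ : Additive Γ₁ →+ K))

/-- the hypothesis `hcor` of `Main.lean`: the Mathlib transfer preserves parabolic characters. -/
theorem corAlong_inclusion_mem_homPE [Fintype (SL(2, ℤ) ⧸ Γ₁)] [Fintype (SL(2, ℤ) ⧸ Γ₂)]
    [(Subgroup.inclusion h).range.FiniteIndex] {ψ : Additive Γ₂ →+ K}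
    (hψ : ψ ∈ homPE K Γ₂ K) :
    corAlong (Subgroup.inclusion h) (Subgroup.inclusion_injective h) K ψ ∈ homPE K Γ₁ K := by
  rw [corAlong_inclusion_eq_cores]
  exact cores_mem_homPE K h hψ

/-- `cores ∘ res` is multiplication by the index, for the Mathlib transfer. -/
theorem corAlong_resAlong_inclusion [Fintype (SL(2, ℤ) ⧸ Γ₂)]
    [(Subgroup.inclusion h).range.FiniteIndex] (φ : Additive Γ₁ →+ K) :
    corAlong (Subgroup.inclusion h) (Subgroup.inclusion_injective h) K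
      (resAlong (Subgroup.inclusion h) K φ) = (Γ₂.relIndex Γ₁ : K) • φ := by
  rw [corAlong_inclusion_eq_cores, resAlong_inclusion_eq_res, cores_res]

end SL2

end Fermat.Agent.S41.PD
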