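/-
helper63 (P-S41, block (B5)): the consumer theorem (I2) with (PD5) (helper29, `resCorAdjoint`) and
(I1a) (helper86, `cor_i_mem_homPE`) plugged in.  The only remaining hypothesis is (PD6): the
invariance `ConjHyp` of the duality pairing under conjugation by `diag(q, 1)`.
-/
import Fermat.Agent.S41.PD.Main
import Fermat.Agent.S41.PD.ResCoresAdjoint
import Fermat.Agent.S41.Degeneracy.PE

set_option autoImplicit false

namespace Fermat.Agent.S41.PD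

open Fermat.Agent.Gateway.A2 CongruenceSubgroup Fermat.Agent.S41 Module
open scoped MatrixGroups

variable (N q : ℕ) [NeZero N] [NeZero q] (p : ℕ) [Fact p.Prime]

attribute [local instance] fintypeCosetGamma0 fintypeCosetDegRange
  inclusion_Gamma0_range_finiteIndex inclusion_degRange_range_finiteIndex

/-- statement of (PD6) at the pair `(N, q)`: the duality pairing of `Γ₀(N q)` is the transport of
the duality pairing of `degRange N q = diag(q,1) Γ₀(N q) diag(q,1)⁻¹` along `degEquiv`. -/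
def ConjHyp : Prop :=
  ConjInvariant (ZMod p) (Gamma0 (N * q)) (degRange N q) (degEquiv N q)
    (neg_one_mem_Gamma0 (N * q)) (neg_one_mem_degRange N q)

variable {N q p}

theorem pdHyp_of_conjHyp (h : ConjHyp N q p) : PDHyp N q p where
  adj₁ := resCorAdjoint (ZMod p) (Gamma0_mul_le N q) (neg_one_mem_Gamma0 (N * q))
  adj₂ := resCorAdjoint (ZMod p) (degRange_le N q) (neg_one_mem_degRange N q)
  conj := h

variable (N q p)

/-- **(I2)(ii)**, both degeneracy maps. -/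
theorem pairingGamma0_res_cor (h : ConjHyp N q p)
    (φ : homPE (ZMod p) (Gamma0 N) (ZMod p)) (ψ : homPE (ZMod p) (Gamma0 (N * q)) (ZMod p)) :
    pairingGamma0 (N * q) p ⟨res₁ N q (ZMod p) (φ : Additive (Gamma0 N) →+ ZMod p),
          res₁_mem_homPE N q φ.2⟩ ψ
        = pairingGamma0 N p φ ⟨cor₁ N q (ZMod p) (ψ : Additive (Gamma0 (N * q)) →+ ZMod p),
          Degeneracy.cor₁_mem_homPE N q (ZMod p) (ZMod p) ψ.2⟩
      ∧ pairingGamma0 (N * q) p ⟨res₂ N q (ZMod p) (φ : Additive (Gamma0 N) →+ ZMod p),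
          res₂_mem_homPE N q φ.2⟩ ψ
        = pairingGamma0 N p φ ⟨cor₂ N q (ZMod p) (ψ : Additive (Gamma0 (N * q)) →+ ZMod p),
          Degeneracy.cor₂_mem_homPE N q (ZMod p) (ZMod p) ψ.2⟩ :=
  ⟨pairingGamma0_res₁_cor₁ N q p (pdHyp_of_conjHyp h).adj₁ φ ψ _,
    pairingGamma0_res₂_cor₂ N q p (pdHyp_of_conjHyp h).adj₂ h φ ψ _⟩

/-- **(I2), consumer form for `η = T - c`** (see `exists_cor_eq_sub_smul`), with (PD5) and (I1a)
plugged in. -/
theorem exists_cor_eq_sub_smul_of_conjHyp (hq : ConjHyp N q p) (l : ℕ) [NeZero l]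
    (hl : ConjHyp N l p)
    (T : (Additive (Gamma0 N) →+ ZMod p) →+ (Additive (Gamma0 N) →+ ZMod p))
    (hT₁ : ∀ φ ∈ homPE (ZMod p) (Gamma0 N) (ZMod p),
      T φ = cor₁ N l (ZMod p) (res₂ N l (ZMod p) φ))
    (hT₂ : ∀ φ ∈ homPE (ZMod p) (Gamma0 N) (ZMod p),
      T φ = cor₂ N l (ZMod p) (res₁ N l (ZMod p) φ))
    (c : ℤ)
    (hker : ∀ φ₁ ∈ homPE (ZMod p) (Gamma0 N) (ZMod p),
      ∀ φ₂ ∈ homPE (ZMod p) (Gamma0 N) (ZMod p),
      res₁ N q (ZMod p) φ₁ + res₂ N q (ZMod p) φ₂ = 0 → T φ₁ = c • φ₁ ∧ T φ₂ = c • φ₂)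
    (φ₁ φ₂ : Additive (Gamma0 N) →+ ZMod p)
    (h₁ : φ₁ ∈ homPE (ZMod p) (Gamma0 N) (ZMod p))
    (h₂ : φ₂ ∈ homPE (ZMod p) (Gamma0 N) (ZMod p)) :
    ∃ ψ ∈ homPE (ZMod p) (Gamma0 (N * q)) (ZMod p),
      cor₁ N q (ZMod p) ψ = T φ₁ - c • φ₁ ∧ cor₂ N q (ZMod p) ψ = T φ₂ - c • φ₂ := by
  have hTmem : ∀ φ ∈ homPE (ZMod p) (Gamma0 N) (ZMod p),
      T φ ∈ homPE (ZMod p) (Gamma0 N) (ZMod p) := by
    intro φ hφ
    rw [hT₁ φ hφ]
    exact Degeneracy.cor₁_mem_homPE N l (ZMod p) (ZMod p) (res₂_mem_homPE N l hφ)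
  exact exists_cor_eq_sub_smul N q p (pdHyp_of_conjHyp hq) l (pdHyp_of_conjHyp hl)
    (fun ψ hψ => Degeneracy.cor₁_mem_homPE N q (ZMod p) (ZMod p) hψ)
    (fun ψ hψ => Degeneracy.cor₂_mem_homPE N q (ZMod p) (ZMod p) hψ)
    T hT₁ hT₂ hTmem c hker φ₁ φ₂ h₁ h₂

end Fermat.Agent.S41.PD
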