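/-
helper23 (P-S41, block (B5) "Poincare duality"): (PD6) plugged into the consumer theorems of
`S41/PD/Consumer.lean`: `ConjHyp N q p` and `PDHyp N q p` hold unconditionally, hence so do
(I2)(ii) and the consumer form of (I2).
-/
import Fermat.Agent.S41.PD.ConjDeg
import Fermat.Agent.S41.PD.Consumer

set_option autoImplicit false

namespace Fermat.Agent.S41.PD

open Fermat.Agent.Gateway.A2 CongruenceSubgroup Fermat.Agent.S41 Module
open scoped MatrixGroups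

variable (N q : ℕ) [NeZero N] [NeZero q] (p : ℕ) [Fact p.Prime]

attribute [local instance] fintypeCosetGamma0 fintypeCosetDegRange
  inclusion_Gamma0_range_finiteIndex inclusion_degRange_range_finiteIndex

/-- **(PD6)** at the pair `(N, q)`. -/
theorem conjHyp_holds : ConjHyp N q p := pdHyp_conj N q p

/-- **(PD5) + (PD6)** at the pair `(N, q)`. -/
theorem pdHyp_holds : PDHyp N q p := pdHyp_of_conjHyp (conjHyp_holds N q p)

/-- **(I2)(ii)**, both degeneracy maps, unconditionally. -/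
theorem pairingGamma0_res_cor_holds
    (φ : homPE (ZMod p) (Gamma0 N) (ZMod p)) (ψ : homPE (ZMod p) (Gamma0 (N * q)) (ZMod p)) :
    pairingGamma0 (N * q) p ⟨res₁ N q (ZMod p) (φ : Additive (Gamma0 N) →+ ZMod p),
          res₁_mem_homPE N q φ.2⟩ ψ
        = pairingGamma0 N p φ ⟨cor₁ N q (ZMod p) (ψ : Additive (Gamma0 (N * q)) →+ ZMod p),
          Degeneracy.cor₁_mem_homPE N q (ZMod p) (ZMod p) ψ.2⟩
      ∧ pairingGamma0 (N * q) p ⟨res₂ N q (ZMod p) (φ : Additive (Gamma0 N) →+ ZMod p),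
          res₂_mem_homPE N q φ.2⟩ ψ
        = pairingGamma0 N p φ ⟨cor₂ N q (ZMod p) (ψ : Additive (Gamma0 (N * q)) →+ ZMod p),
          Degeneracy.cor₂_mem_homPE N q (ZMod p) (ZMod p) ψ.2⟩ :=
  pairingGamma0_res_cor N q p (conjHyp_holds N q p) φ ψ

/-- **(I2), consumer form for `η = T - c`**, unconditionally: `T = cor₁ res₂ = cor₂ res₁` for an
auxiliary pair `(N, l)` and `c : ℤ`; if `T φ_i = c φ_i` whenever `res₁ φ₁ + res₂ φ₂ = 0`, then every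
`((T - c) φ₁, (T - c) φ₂)` is `(cor₁ ψ, cor₂ ψ)` for some `ψ ∈ H(N q; 𝔽_p)`. -/
theorem exists_cor_eq_sub_smul_holds (l : ℕ) [NeZero l]
    (T : (Additive (Gamma0 N) →+ ZMod p) →+ (Additive (Gamma0 N) →+ ZMod p))
    (hT₁ : ∀ φ ∈ homPE (ZMod p) (Gamma0 N) (ZMod p),
      T φ = cor₁ N l (ZMod p) (res₂ N l (ZMod p) φ))
    (hT₂ : ∀ φ ∈ homPE (ZMod p) (Gamma0 N) (ZMod p),
      T φ = cor₂ N l (ZMod p) (res₁ N l (ZMod p) φ))
    (c : ℤ)
    (hker : ∀ φ₁ ∈ homPE (ZMod p) (Gamma0 N) (ZMod p),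
      ∀ φ₂ ∈ homPE (ZMod p) (Gamma0 N) (ZMod p),
      res₁ N q (ZMod p) φ₁ + res₂ N q (ZMod p) φ₂ = 0 → T φ₁ = c • φ₁ ∧ T φ₂ = c • φ₂)
    (φ₁ φ₂ : Additive (Gamma0 N) →+ ZMod p)
    (h₁ : φ₁ ∈ homPE (ZMod p) (Gamma0 N) (ZMod p))
    (h₂ : φ₂ ∈ homPE (ZMod p) (Gamma0 N) (ZMod p)) :
    ∃ ψ ∈ homPE (ZMod p) (Gamma0 (N * q)) (ZMod p),
      cor₁ N q (ZMod p) ψ = T φ₁ - c • φ₁ ∧ cor₂ N q (ZMod p) ψ = T φ₂ - c • φ₂ :=
  exists_cor_eq_sub_smul_of_conjHyp N q p (conjHyp_holds N q p) l (conjHyp_holds N l p)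
    T hT₁ hT₂ c hker φ₁ φ₂ h₁ h₂

end Fermat.Agent.S41.PD
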