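/-
helper63 (P-S41, block (B5), part of PD6): classification of the elliptic elements of `SL(2, ℤ)`.

* `exists_conj_S_pow_of_trace_eq_zero` : an element of trace `0` is conjugate to a power of `S`;
* `exists_conj_ST_pow_of_trace` : an element of trace `± 1` is conjugate to a power of `S * T`;
* `vanishOn_comp` : transport of the vanishing conditions of (H1) along an isomorphism induced by
  an integral matrix of nonzero determinant.
-/
import Fermat.Agent.S41.PD.Heisenberg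

set_option autoImplicit false

namespace Fermat.Agent.S41.PD

open Matrix ModularGroup
open scoped MatrixGroups

section Entries

/-- the trace of an element of `SL(2, ℤ)`. -/
def trZ (ε : SL(2, ℤ)) : ℤ := ε 0 0 + ε 1 1

theorem trZ_eq_trace (ε : SL(2, ℤ)) : trZ ε = (ε : Matrix (Fin 2) (Fin 2) ℤ).trace := by
  rw [Matrix.trace_fin_two]
  rfl

theorem trZ_conj (g ε : SL(2, ℤ)) : trZ (g * ε * g⁻¹) = trZ ε := by
  rw [trZ_eq_trace, trZ_eq_trace, Matrix.SpecialLinearGroup.coe_mul,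
    Matrix.SpecialLinearGroup.coe_mul, Matrix.trace_mul_cycle, ← Matrix.SpecialLinearGroup.coe_mul,
    inv_mul_cancel, Matrix.SpecialLinearGroup.coe_one, Matrix.one_mul]

theorem det_entries (ε : SL(2, ℤ)) : ε 0 0 * ε 1 1 - ε 0 1 * ε 1 0 = 1 := by
  have h := ε.det_coe
  rw [Matrix.det_fin_two] at h
  exact h

theorem T_zpow_conj_one_zero (n : ℤ) (ε : SL(2, ℤ)) : (T ^ n * ε * (T ^ n)⁻¹) 1 0 = ε 1 0 := by
  show ((T ^ n * ε * (T ^ n)⁻¹ : SL(2, ℤ)) : Matrix (Fin 2) (Fin 2) ℤ) 1 0 = _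
  rw [Matrix.SpecialLinearGroup.coe_mul, Matrix.SpecialLinearGroup.coe_mul,
    Matrix.SpecialLinearGroup.coe_inv, coe_T_zpow, Matrix.adjugate_fin_two_of]
  simp [Matrix.mul_apply, Fin.sum_univ_two, Matrix.vecMul, dotProduct]

theorem T_zpow_conj_zero_zero (n : ℤ) (ε : SL(2, ℤ)) :
    (T ^ n * ε * (T ^ n)⁻¹) 0 0 = ε 0 0 + n * ε 1 0 := by
  show ((T ^ n * ε * (T ^ n)⁻¹ : SL(2, ℤ)) : Matrix (Fin 2) (Fin 2) ℤ) 0 0 = _
  rw [Matrix.SpecialLinearGroup.coe_mul, Matrix.SpecialLinearGroup.coe_mul,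
    Matrix.SpecialLinearGroup.coe_inv, coe_T_zpow, Matrix.adjugate_fin_two_of]
  simp [Matrix.mul_apply, Fin.sum_univ_two, Matrix.vecMul, dotProduct]

theorem S_conj_one_zero (ε : SL(2, ℤ)) : (S * ε * S⁻¹) 1 0 = - ε 0 1 := by
  show ((S * ε * S⁻¹ : SL(2, ℤ)) : Matrix (Fin 2) (Fin 2) ℤ) 1 0 = _
  rw [Matrix.SpecialLinearGroup.coe_mul, Matrix.SpecialLinearGroup.coe_mul,
    Matrix.SpecialLinearGroup.coe_inv, coe_S, Matrix.adjugate_fin_two_of]
  simp [Matrix.mul_apply, Fin.sum_univ_two, Matrix.vecMul, dotProduct]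

end Entries

section Descent

/-- **descent**: an element of trace `0, ± 1` is conjugate to one with upper left entry `0` and
lower left entry `± 1`. -/
theorem exists_conj_small (ε : SL(2, ℤ)) (h1 : -1 ≤ trZ ε) (h2 : trZ ε ≤ 1) :
    ∃ g : SL(2, ℤ), (g * ε * g⁻¹) 0 0 = 0 ∧ ((g * ε * g⁻¹) 1 0).natAbs = 1 := by
  induction hm : (ε 1 0).natAbs using Nat.strong_induction_on generalizing ε with
  | _ m ih =>
    have hdet := det_entries ε
    have hc : ε 1 0 ≠ 0 := by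
      intro h0
      rw [h0, mul_zero, sub_zero] at hdet
      unfold trZ at h1 h2
      rcases Int.eq_one_or_neg_one_of_mul_eq_one hdet with h | h
      · rw [h, one_mul] at hdet
        rw [h, hdet] at h2
        omega
      · rw [h] at hdet
        have hd : ε 1 1 = -1 := by linarith
        rw [h, hd] at h1
        omega
    have hmpos : 0 < m := by
      rw [← hm]
      exact Int.natAbs_pos.mpr hc
    set n : ℤ := - ((ε 0 0).bdiv m) * (ε 1 0).sign with hn
    set ε₁ : SL(2, ℤ) := T ^ n * ε * (T ^ n)⁻¹ with hε₁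
    have hc1 : ε₁ 1 0 = ε 1 0 := T_zpow_conj_one_zero n ε
    have ha1 : ε₁ 0 0 = (ε 0 0).bmod m := by
      rw [hε₁, T_zpow_conj_zero_zero, hn]
      have hb := Int.bmod_add_bdiv (ε 0 0) m
      have hs : (ε 1 0).sign * ε 1 0 = (m : ℤ) := by
        rw [Int.sign_mul_self_eq_natAbs, hm]
      have : - ((ε 0 0).bdiv m) * (ε 1 0).sign * ε 1 0 = - ((m : ℤ) * (ε 0 0).bdiv m) := by
        rw [mul_assoc, hs]
        ring
      rw [this]
      linarith
    have hlo := Int.le_bmod (x := ε 0 0) hmpos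
    have hhi := Int.bmod_le (x := ε 0 0) hmpos
    rw [← ha1] at hlo hhi
    have htr1 : trZ ε₁ = trZ ε := trZ_conj _ _
    by_cases hm1 : m = 1
    · -- base case
      refine ⟨T ^ n, ?_, ?_⟩
      · show ε₁ 0 0 = 0
        rw [hm1] at hlo hhi
        norm_num at hlo hhi
        omega
      · show (ε₁ 1 0).natAbs = 1
        rw [hc1, hm, hm1]
    · -- descent step
      have hm2 : 2 ≤ m := by omega
      have hdet1 := det_entries ε₁
      have hbound : (ε₁ 0 1).natAbs < m := by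
        by_contra hcon
        rw [not_lt] at hcon
        have hmc : ((ε₁ 1 0).natAbs : ℤ) = m := by rw [hc1, hm]
        have hprod : ((ε₁ 0 1).natAbs : ℤ) * ((ε₁ 1 0).natAbs : ℤ)
            = |ε₁ 0 1 * ε₁ 1 0| := by
          rw [abs_mul, Int.abs_eq_natAbs, Int.abs_eq_natAbs]
        have hd1 : ε₁ 1 1 = trZ ε - ε₁ 0 0 := by
          rw [← htr1]
          unfold trZ
          ring
        have hbc : ε₁ 0 1 * ε₁ 1 0 = ε₁ 0 0 * (trZ ε - ε₁ 0 0) - 1 := by
          rw [← hd1]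
          linarith
        have h2a_lo : -(m : ℤ) ≤ 2 * ε₁ 0 0 := by omega
        have h2a_hi : 2 * ε₁ 0 0 ≤ (m : ℤ) := by omega
        have hm2' : (2 : ℤ) ≤ m := by exact_mod_cast hm2
        have hcon' : (m : ℤ) ≤ ((ε₁ 0 1).natAbs : ℤ) := by exact_mod_cast hcon
        have habs : |ε₁ 0 1 * ε₁ 1 0| < (m : ℤ) * m := by
          rw [hbc, abs_lt]
          constructor <;> nlinarith
        rw [← hprod, hmc] at habs
        nlinarith
      obtain ⟨g₂, hg1, hg2⟩ := ih (ε₁ 0 1).natAbs hbound (S * ε₁ * S⁻¹)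
        (by rw [trZ_conj, htr1]; exact h1) (by rw [trZ_conj, htr1]; exact h2)
        (by rw [S_conj_one_zero, Int.natAbs_neg])
      refine ⟨g₂ * S * T ^ n, ?_, ?_⟩
      · have e : g₂ * S * T ^ n * ε * (g₂ * S * T ^ n)⁻¹ = g₂ * (S * ε₁ * S⁻¹) * g₂⁻¹ := by
          rw [hε₁]
          group
        rw [e]
        exact hg1
      · have e : g₂ * S * T ^ n * ε * (g₂ * S * T ^ n)⁻¹ = g₂ * (S * ε₁ * S⁻¹) * g₂⁻¹ := by
          rw [hε₁]
          group
        rw [e]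
        exact hg2

end Descent

section Classification

theorem eq_of_coe_eq {η η' : SL(2, ℤ)} (a b c d : ℤ)
    (h : (η' : Matrix (Fin 2) (Fin 2) ℤ) = !![a, b; c, d])
    (h00 : η 0 0 = a) (h01 : η 0 1 = b) (h10 : η 1 0 = c) (h11 : η 1 1 = d) : η = η' := by
  apply Subtype.ext
  rw [h]
  ext i j
  fin_cases i <;> fin_cases j
  · exact h00
  · exact h01
  · exact h10
  · exact h11

theorem eq_conj_of_conj_eq {g ε η : SL(2, ℤ)} (h : g * ε * g⁻¹ = η) :
    ε = g⁻¹ * η * (g⁻¹)⁻¹ := by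
  rw [← h]
  group

/-- **elliptic elements of order 4**: an element of trace `0` is conjugate to a power of `S`. -/
theorem exists_conj_S_pow_of_trace_eq_zero (ε : SL(2, ℤ)) (h : trZ ε = 0) :
    ∃ (g : SL(2, ℤ)) (k : ℕ), ε = g * S ^ k * g⁻¹ := by
  obtain ⟨g, h0, h1⟩ := exists_conj_small ε (by omega) (by omega)
  set η : SL(2, ℤ) := g * ε * g⁻¹ with hη
  have htr : trZ η = 0 := by rw [hη, trZ_conj, h]
  have hdet := det_entries η
  have h11 : η 1 1 = 0 := by
    unfold trZ at htr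
    omega
  rw [h0, h11] at hdet
  rcases Int.natAbs_eq_iff.mp h1 with hc | hc
  · -- `η = S`
    have h01 : η 0 1 = -1 := by
      rw [hc] at hdet
      push_cast at hdet
      linarith
    refine ⟨g⁻¹, 1, ?_⟩
    apply eq_conj_of_conj_eq
    rw [← hη]
    exact eq_of_coe_eq 0 (-1) 1 0 (by decide) h0 h01 (by rw [hc]; rfl) h11
  · -- `η = S ^ 3`
    have h01 : η 0 1 = 1 := by
      rw [hc] at hdet
      push_cast at hdet
      linarith
    refine ⟨g⁻¹, 3, ?_⟩
    apply eq_conj_of_conj_eq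
    rw [← hη]
    exact eq_of_coe_eq 0 1 (-1) 0 (by decide) h0 h01 (by rw [hc]; rfl) h11

/-- **elliptic elements of order 3 and 6**: an element of trace `± 1` is conjugate to a power of
`S * T`. -/
theorem exists_conj_ST_pow_of_trace (ε : SL(2, ℤ)) (h : trZ ε = 1 ∨ trZ ε = -1) :
    ∃ (g : SL(2, ℤ)) (k : ℕ), ε = g * (S * T) ^ k * g⁻¹ := by
  obtain ⟨g, h0, h1⟩ := exists_conj_small ε (by omega) (by omega)
  set η : SL(2, ℤ) := g * ε * g⁻¹ with hη
  have htr : trZ η = trZ ε := by rw [hη, trZ_conj]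
  have hdet := det_entries η
  have h11 : η 1 1 = trZ ε := by
    rw [← htr]
    unfold trZ
    omega
  rw [h0] at hdet
  rcases Int.natAbs_eq_iff.mp h1 with hc | hc
  · have h01 : η 0 1 = -1 := by
      rw [hc] at hdet
      push_cast at hdet
      linarith
    rcases h with ht | ht
    · -- `η = S * T`
      refine ⟨g⁻¹, 1, ?_⟩
      apply eq_conj_of_conj_eq
      rw [← hη]
      exact eq_of_coe_eq 0 (-1) 1 1 (by decide) h0 h01 (by rw [hc]; rfl) (by rw [h11, ht])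
    · -- `η = S * (S * T) ^ 2 * S⁻¹`
      refine ⟨g⁻¹ * S, 2, ?_⟩
      have e : g⁻¹ * S * (S * T) ^ 2 * (g⁻¹ * S)⁻¹
          = g⁻¹ * (S * (S * T) ^ 2 * S⁻¹) * (g⁻¹)⁻¹ := by group
      rw [e]
      apply eq_conj_of_conj_eq
      rw [← hη]
      exact eq_of_coe_eq 0 (-1) 1 (-1) (by decide) h0 h01 (by rw [hc]; rfl) (by rw [h11, ht])
  · have h01 : η 0 1 = 1 := by
      rw [hc] at hdet
      push_cast at hdet
      linarith
    rcases h with ht | ht
    · -- `η = S * (S * T) ^ 5 * S⁻¹`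
      refine ⟨g⁻¹ * S, 5, ?_⟩
      have e : g⁻¹ * S * (S * T) ^ 5 * (g⁻¹ * S)⁻¹
          = g⁻¹ * (S * (S * T) ^ 5 * S⁻¹) * (g⁻¹)⁻¹ := by group
      rw [e]
      apply eq_conj_of_conj_eq
      rw [← hη]
      exact eq_of_coe_eq 0 1 (-1) 1 (by decide) h0 h01 (by rw [hc]; rfl) (by rw [h11, ht])
    · -- `η = (S * T) ^ 4`
      refine ⟨g⁻¹, 4, ?_⟩
      apply eq_conj_of_conj_eq
      rw [← hη]
      exact eq_of_coe_eq 0 1 (-1) (-1) (by decide) h0 h01 (by rw [hc]; rfl) (by rw [h11, ht])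

end Classification

section Powers

theorem S_pow_cases (k : ℕ) :
    (S : SL(2, ℤ)) ^ k = 1 ∨ (S : SL(2, ℤ)) ^ k = -1 ∨ (S : SL(2, ℤ)) ^ k = S
      ∨ (S : SL(2, ℤ)) ^ k = -S := by
  induction k with
  | zero => exact Or.inl (pow_zero _)
  | succ k ih =>
    rw [pow_succ]
    rcases ih with h | h | h | h <;> rw [h]
    · exact Or.inr (Or.inr (Or.inl (one_mul _)))
    · exact Or.inr (Or.inr (Or.inr (by rw [neg_mul, one_mul])))
    · exact Or.inr (Or.inl (S_mul_S))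
    · exact Or.inl (by rw [neg_mul, S_mul_S, neg_neg])

theorem ST_pow_cases (k : ℕ) :
    (S * T : SL(2, ℤ)) ^ k = 1 ∨ (S * T : SL(2, ℤ)) ^ k = -1
      ∨ (S * T : SL(2, ℤ)) ^ k = S * T ∨ (S * T : SL(2, ℤ)) ^ k = -(S * T)
      ∨ (S * T : SL(2, ℤ)) ^ k = (S * T) ^ 2 ∨ (S * T : SL(2, ℤ)) ^ k = -(S * T) ^ 2 := by
  induction k with
  | zero => exact Or.inl (pow_zero _)
  | succ k ih =>
    rw [pow_succ]
    rcases ih with h | h | h | h | h | h <;> rw [h]
    · exact Or.inr (Or.inr (Or.inl (one_mul _)))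
    · exact Or.inr (Or.inr (Or.inr (Or.inl (by rw [neg_mul, one_mul]))))
    · exact Or.inr (Or.inr (Or.inr (Or.inr (Or.inl (by rw [pow_two])))))
    · exact Or.inr (Or.inr (Or.inr (Or.inr (Or.inr (by rw [neg_mul, pow_two])))))
    · exact Or.inr (Or.inl (by rw [← pow_succ]; exact ST_cube))
    · exact Or.inl (by rw [neg_mul, ← pow_succ]; rw [show 2 + 1 = 3 from rfl, ST_cube, neg_neg])

theorem conj_neg_one (g : SL(2, ℤ)) : g * (-1) * g⁻¹ = -1 := by
  rw [mul_neg, mul_one, neg_mul, mul_inv_cancel]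

theorem trZ_neg (ε : SL(2, ℤ)) : trZ (-ε) = - trZ ε := by
  unfold trZ
  rw [Matrix.SpecialLinearGroup.coe_neg]
  simp only [Matrix.neg_apply]
  ring

end Powers

section Transport

variable {K : Type*} [Field K] {Γ₁ Γ₂ : Subgroup SL(2, ℤ)}

theorem mul_right_cancel_of_det_ne_zero {α M M' : Matrix (Fin 2) (Fin 2) ℤ} (hα : α.det ≠ 0)
    (h : M * α = M' * α) : M = M' := by
  have h2 : M * (α * α.adjugate) = M' * (α * α.adjugate) := by
    rw [← Matrix.mul_assoc, ← Matrix.mul_assoc, h]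
  rw [Matrix.mul_adjugate, Matrix.mul_smul, Matrix.mul_smul, Matrix.mul_one, Matrix.mul_one] at h2
  exact smul_right_injective _ hα h2

theorem trZ_eq_of_intertwine {α : Matrix (Fin 2) (Fin 2) ℤ} (hα : α.det ≠ 0) {γ γ' : SL(2, ℤ)}
    (h : α * (γ : Matrix (Fin 2) (Fin 2) ℤ) = (γ' : Matrix (Fin 2) (Fin 2) ℤ) * α) :
    trZ γ' = trZ γ := by
  have e1 : (α * (γ : Matrix (Fin 2) (Fin 2) ℤ) * α.adjugate).trace
      = α.det * (γ : Matrix (Fin 2) (Fin 2) ℤ).trace := by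
    rw [Matrix.trace_mul_cycle, Matrix.adjugate_mul, Matrix.smul_mul, Matrix.one_mul,
      Matrix.trace_smul, smul_eq_mul]
  have e2 : ((γ' : Matrix (Fin 2) (Fin 2) ℤ) * α * α.adjugate).trace
      = α.det * (γ' : Matrix (Fin 2) (Fin 2) ℤ).trace := by
    rw [Matrix.mul_assoc, Matrix.mul_adjugate, Matrix.mul_smul, Matrix.mul_one,
      Matrix.trace_smul, smul_eq_mul]
  rw [h, e2] at e1
  rw [trZ_eq_trace, trZ_eq_trace]
  exact mul_left_cancel₀ hα e1

variable (c : Γ₁ ≃* Γ₂) (α : Matrix (Fin 2) (Fin 2) ℤ) (hα : α.det ≠ 0)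
  (hc : ∀ γ : Γ₁, α * ((γ : SL(2, ℤ)) : Matrix (Fin 2) (Fin 2) ℤ)
    = ((c γ : SL(2, ℤ)) : Matrix (Fin 2) (Fin 2) ℤ) * α)

include hα hc

theorem trZ_map_of_intertwine (γ : Γ₁) : trZ (c γ : SL(2, ℤ)) = trZ (γ : SL(2, ℤ)) :=
  trZ_eq_of_intertwine hα (hc γ)

theorem map_eq_neg_one_of_intertwine (γ : Γ₁) (h : (γ : SL(2, ℤ)) = -1) :
    (c γ : SL(2, ℤ)) = -1 := by
  apply Subtype.ext
  apply mul_right_cancel_of_det_ne_zero hα
  rw [← hc γ, h, Matrix.SpecialLinearGroup.coe_neg, Matrix.SpecialLinearGroup.coe_one,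
    Matrix.mul_neg, Matrix.mul_one, Matrix.neg_mul, Matrix.one_mul]

omit hα hc in
theorem map_eq_one_of_eq_one (γ : Γ₁) (h : (γ : SL(2, ℤ)) = 1) : (c γ : SL(2, ℤ)) = 1 := by
  have : γ = 1 := Subtype.ext h
  rw [this, map_one]
  rfl

omit hα hc in
theorem vanishOn_apply {Γ : Subgroup SL(2, ℤ)} {κ : Γ → K} {s : SL(2, ℤ)} (h : VanishOn Γ κ s)
    (γ : Γ) (g : SL(2, ℤ)) (k : ℕ) (e : (γ : SL(2, ℤ)) = g * s ^ k * g⁻¹) : κ γ = 0 := by
  have hmem : g * s ^ k * g⁻¹ ∈ Γ := by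
    rw [← e]
    exact γ.2
  have := h g k hmem
  rw [← this]
  congr 1
  exact Subtype.ext e

/-- transport of the vanishing conditions of (H1) along an isomorphism induced by an integral
matrix of nonzero determinant. -/
theorem vanishOn_comp (κ : Γ₂ → K) (hS : VanishOn Γ₂ κ (S : SL(2, ℤ)))
    (hU : VanishOn Γ₂ κ (S * T : SL(2, ℤ))) :
    VanishOn Γ₁ (κ ∘ c) (S : SL(2, ℤ)) ∧ VanishOn Γ₁ (κ ∘ c) (S * T : SL(2, ℤ)) := by
  have hone : ∀ γ : Γ₁, (γ : SL(2, ℤ)) = 1 → κ (c γ) = 0 := by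
    intro γ h
    apply vanishOn_apply hS (c γ) 1 0
    rw [map_eq_one_of_eq_one c γ h]
    simp
  have hneg : ∀ γ : Γ₁, (γ : SL(2, ℤ)) = -1 → κ (c γ) = 0 := by
    intro γ h
    apply vanishOn_apply hS (c γ) 1 2
    rw [map_eq_neg_one_of_intertwine c α hα hc γ h, S_sq]
    simp
  have hzero : ∀ γ : Γ₁, trZ (γ : SL(2, ℤ)) = 0 → κ (c γ) = 0 := by
    intro γ h
    obtain ⟨g, k, e⟩ := exists_conj_S_pow_of_trace_eq_zero (c γ : SL(2, ℤ))
      (by rw [trZ_map_of_intertwine c α hα hc, h])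
    exact vanishOn_apply hS (c γ) g k e
  have hpm : ∀ γ : Γ₁, trZ (γ : SL(2, ℤ)) = 1 ∨ trZ (γ : SL(2, ℤ)) = -1 → κ (c γ) = 0 := by
    intro γ h
    obtain ⟨g, k, e⟩ := exists_conj_ST_pow_of_trace (c γ : SL(2, ℤ))
      (by rw [trZ_map_of_intertwine c α hα hc]; exact h)
    exact vanishOn_apply hU (c γ) g k e
  constructor
  · intro g k h
    show κ (c ⟨_, h⟩) = 0
    rcases S_pow_cases k with e | e | e | e
    · apply hone
      show g * S ^ k * g⁻¹ = 1
      rw [e, mul_one, mul_inv_cancel]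
    · apply hneg
      show g * S ^ k * g⁻¹ = -1
      rw [e, conj_neg_one]
    · apply hzero
      show trZ (g * S ^ k * g⁻¹) = 0
      rw [trZ_conj, e]
      decide
    · apply hzero
      show trZ (g * S ^ k * g⁻¹) = 0
      rw [trZ_conj, e, trZ_neg]
      decide
  · intro g k h
    show κ (c ⟨_, h⟩) = 0
    rcases ST_pow_cases k with e | e | e | e | e | e
    · apply hone
      show g * (S * T) ^ k * g⁻¹ = 1
      rw [e, mul_one, mul_inv_cancel]
    · apply hneg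
      show g * (S * T) ^ k * g⁻¹ = -1
      rw [e, conj_neg_one]
    · apply hpm
      left
      show trZ (g * (S * T) ^ k * g⁻¹) = 1
      rw [trZ_conj, e]
      decide
    · apply hpm
      right
      show trZ (g * (S * T) ^ k * g⁻¹) = -1
      rw [trZ_conj, e, trZ_neg]
      decide
    · apply hpm
      right
      show trZ (g * (S * T) ^ k * g⁻¹) = -1
      rw [trZ_conj, e]
      decide
    · apply hpm
      left
      show trZ (g * (S * T) ^ k * g⁻¹) = 1
      rw [trZ_conj, e, trZ_neg]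
      decide

end Transport

end Fermat.Agent.S41.PD
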