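/-
helper63 (P-S41, block (B5), part of PD6): the pairing is invariant under an isomorphism
`c : Γ₁ ≃* Γ₂` induced by an integral matrix of nonzero determinant, PROVIDED the cusp sums of
conjugation invariant functions correspond under `c` (`CuspSumComp`, = (Q3), which holds when the
determinant is positive).  Assembly of (H1) + (H2) (`Heisenberg.lean`) and `vanishOn_comp`
(`Torsion.lean`).
-/
import Fermat.Agent.S41.PD.Torsion
import Fermat.Agent.S41.PD.Main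

set_option autoImplicit false

namespace Fermat.Agent.S41.PD

open Fermat.Agent.Gateway.A2 Matrix ModularGroup
open scoped MatrixGroups

section

variable (K : Type*) [Field K] (Γ₁ Γ₂ : Subgroup SL(2, ℤ)) (c : Γ₁ ≃* Γ₂)

/-- statement of (Q3): for every function `f` on `Γ₂` which is invariant under `Γ₂`-conjugation on
the elements of trace `2`, the sum of `f ∘ c` over the cusp generators of `Γ₁` is the sum of `f`
over the cusp generators of `Γ₂`. -/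
def CuspSumComp : Prop :=
  ∀ f : Γ₂ → K,
    (∀ γ δ : Γ₂, ((γ : SL(2, ℤ)) : Matrix (Fin 2) (Fin 2) ℤ).trace = 2 → f (δ * γ * δ⁻¹) = f γ) →
    ∑ᶠ o : MulAction.orbitRel.Quotient (Subgroup.zpowers (T : SL(2, ℤ))) (SL(2, ℤ) ⧸ Γ₁),
        f (c (gam Γ₁ (T ^ per (T : SL(2, ℤ)) (Quotient.out o)) (Quotient.out o)))
      = ∑ᶠ o : MulAction.orbitRel.Quotient (Subgroup.zpowers (T : SL(2, ℤ))) (SL(2, ℤ) ⧸ Γ₂),
        f (gam Γ₂ (T ^ per (T : SL(2, ℤ)) (Quotient.out o)) (Quotient.out o))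

variable {K Γ₁ Γ₂}

/-- transport of a Heisenberg lift along an isomorphism. -/
theorem IsHeisLift.comp_mulEquiv {φ ψ : Additive Γ₂ →+ K} {κ : Γ₂ → K}
    (hκ : IsHeisLift Γ₂ φ ψ κ) :
    IsHeisLift Γ₁ (φ.comp (MonoidHom.toAdditive c.toMonoidHom))
      (ψ.comp (MonoidHom.toAdditive c.toMonoidHom)) (κ ∘ c) := by
  intro γ δ
  show κ (c (γ * δ)) = κ (c γ) + κ (c δ)
    + φ (Additive.ofMul (c γ)) * ψ (Additive.ofMul (c δ))
  rw [map_mul, hκ]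

/-- **(PD6), core**: if `c` is induced by an integral matrix of nonzero determinant and the cusp
sums correspond, then `c` is an isometry for the duality pairings. -/
theorem conjInvariant_of_cuspSumComp [Fintype (SL(2, ℤ) ⧸ Γ₁)] [Fintype (SL(2, ℤ) ⧸ Γ₂)]
    (h₁ : (-1 : SL(2, ℤ)) ∈ Γ₁) (h₂ : (-1 : SL(2, ℤ)) ∈ Γ₂)
    (α : Matrix (Fin 2) (Fin 2) ℤ) (hα : α.det ≠ 0)
    (hc : ∀ γ : Γ₁, α * ((γ : SL(2, ℤ)) : Matrix (Fin 2) (Fin 2) ℤ)
      = ((c γ : SL(2, ℤ)) : Matrix (Fin 2) (Fin 2) ℤ) * α)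
    (hQ : CuspSumComp K Γ₁ Γ₂ c) : ConjInvariant K Γ₁ Γ₂ c h₁ h₂ := by
  intro φ ψ hφ hψ
  -- a Heisenberg lift of `(ψ, φ)` on `Γ₂`, and its transport
  obtain ⟨κ, hκ, hS, hU⟩ := exists_heisLift K Γ₂ h₂ ψ φ
  have hκ' := IsHeisLift.comp_mulEquiv c hκ
  obtain ⟨hS', hU'⟩ := vanishOn_comp c α hα hc κ hS hU
  have e₂ := cusp_sum_eq_pairing K Γ₂ h₂ ψ φ κ hκ hS hU
  have e₁ := cusp_sum_eq_pairing K Γ₁ h₁ ⟨_, hψ⟩ ⟨_, hφ⟩ (κ ∘ c) hκ' hS' hU'
  rw [← e₁, ← e₂]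
  apply hQ κ
  intro γ δ hγ
  have hpe : IsPE (γ : SL(2, ℤ)) := by
    unfold IsPE
    rw [hγ]
    norm_num
  exact hκ.conj_eq (ψ.2 γ hpe) (φ.2 γ hpe) δ

end

end Fermat.Agent.S41.PD
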