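/-
P-S41 block (4), complement to PD4: the cusp terms `κ (gam Γ (t ^ per t y) y)` of
`cusp_sum_eq_pairing` do not depend on the choice of the point `y` in its `⟨t⟩`-orbit, nor on the
choice of coset representatives: they are the values of `κ` on the elements `h⁻¹ * t ^ d * h ∈ Γ`.
-/
import Fermat.Agent.S41.PD.Heisenberg

set_option autoImplicit false

noncomputable section

namespace Fermat.Agent.S41.PD

open Fermat.Agent.Gateway.A2

section CuspRep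

variable {G : Type*} [Group G] {Γ : Subgroup G} {K : Type*} [Field K]
  {φ ψ : Additive Γ →+ K} {κ : Γ → K} {t : G}

/-- a character in `parab Γ K t` kills `h⁻¹ * t ^ d * h`. -/
theorem parab_apply_conj {χ : Additive Γ →+ K} (hχ : χ ∈ parab Γ K t) (h : G) (d : ℕ)
    (hmem : h⁻¹ * t ^ d * h ∈ Γ) : χ (Additive.ofMul ⟨_, hmem⟩) = 0 := by
  have h2 : h⁻¹ * t ^ d * (h⁻¹)⁻¹ ∈ Γ := by rwa [inv_inv]
  have := hχ h⁻¹ d h2
  convert this using 3
  exact Subtype.ext (by simp only [inv_inv])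

/-- changing the representative `h` of the coset `h Γ` does not change `κ (h⁻¹ * t ^ d * h)`. -/
theorem kappa_conj_rep_mul (hκ : IsHeisLift Γ φ ψ κ) (hφ : φ ∈ parab Γ K t)
    (hψ : ψ ∈ parab Γ K t) (h : G) (d : ℕ) (δ : Γ) (h1 : h⁻¹ * t ^ d * h ∈ Γ)
    (h2 : (h * δ)⁻¹ * t ^ d * (h * δ) ∈ Γ) : κ ⟨_, h2⟩ = κ ⟨_, h1⟩ := by
  have e : (⟨_, h2⟩ : Γ) = δ⁻¹ * ⟨_, h1⟩ * (δ⁻¹)⁻¹ := by
    apply Subtype.ext
    simp only [Subgroup.coe_mul, Subgroup.coe_inv, inv_inv, mul_inv_rev]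
    group
  rw [e]
  exact hκ.conj_eq (parab_apply_conj hφ h d h1) (parab_apply_conj hψ h d h1) δ⁻¹

/-- the cusp term at the coset `h Γ` is the value of `κ` at `h⁻¹ * t ^ d * h`, for ANY
representative `h`. -/
theorem kappa_gam_eq_conj (hκ : IsHeisLift Γ φ ψ κ) (hφ : φ ∈ parab Γ K t)
    (hψ : ψ ∈ parab Γ K t) (h : G) (d : ℕ) (hmem : h⁻¹ * t ^ d * h ∈ Γ) :
    κ (gam Γ (t ^ d) ((h : G) : G ⧸ Γ)) = κ ⟨_, hmem⟩ := by
  set y : G ⧸ Γ := ((h : G) : G ⧸ Γ) with hy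
  have hfix : t ^ d • y = y := by
    rw [hy]
    show (((t ^ d * h : G)) : G ⧸ Γ) = ((h : G) : G ⧸ Γ)
    rw [QuotientGroup.eq]
    have : (t ^ d * h)⁻¹ * h = (h⁻¹ * t ^ d * h)⁻¹ := by group
    rw [this]
    exact Γ.inv_mem hmem
  have hδ : h⁻¹ * sec Γ y ∈ Γ := by
    have := mk_sec Γ y
    conv_rhs at this => rw [hy]
    rw [eq_comm, QuotientGroup.eq] at this
    exact this
  set δ : Γ := ⟨h⁻¹ * sec Γ y, hδ⟩ with hδdef
  have hsec : sec Γ y = h * δ := by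
    rw [hδdef]; simp
  have hmem' : (sec Γ y)⁻¹ * t ^ d * sec Γ y ∈ Γ := by
    have h3 := gam_mem Γ (t ^ d) y
    rwa [hfix] at h3
  rw [gam_eq_of_smul_eq hfix hmem']
  have h2 : (h * δ)⁻¹ * t ^ d * (h * δ) ∈ Γ := by rwa [← hsec]
  have e : (⟨(sec Γ y)⁻¹ * t ^ d * sec Γ y, hmem'⟩ : Γ) = ⟨_, h2⟩ := by
    apply Subtype.ext
    simp only [hsec]
  rw [e]
  exact kappa_conj_rep_mul hκ hφ hψ h d δ hmem h2

/-- the period under `t` is constant along `⟨t⟩`-orbits. -/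
theorem per_eq_of_mem_orbit {X : Type*} [MulAction G X] {y y' : X}
    (h : y' ∈ MulAction.orbit (Subgroup.zpowers t) y) : per t y' = per t y := by
  obtain ⟨⟨g, hg⟩, rfl⟩ := h
  obtain ⟨j, rfl⟩ := hg
  show Function.minimalPeriod (fun x : X => t • x) ((t ^ j) • y)
    = Function.minimalPeriod (fun x : X => t • x) y
  rw [Function.minimalPeriod_eq_minimalPeriod_iff]
  intro n
  simp only [Function.IsPeriodicPt, Function.IsFixedPt, smul_iterate]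
  have hc : t ^ n * t ^ j = t ^ j * t ^ n := by
    rw [← zpow_natCast, ← zpow_add, ← zpow_add, add_comm]
  constructor
  · intro h1
    rw [← mul_smul, hc, mul_smul] at h1
    exact smul_left_cancel _ h1
  · intro h1
    rw [← mul_smul, hc, mul_smul, h1]

/-- the cusp term does not depend on the point of the `⟨t⟩`-orbit. -/
theorem kappa_gam_eq_of_mem_orbit (hκ : IsHeisLift Γ φ ψ κ) (hφ : φ ∈ parab Γ K t)
    (hψ : ψ ∈ parab Γ K t) {y y' : G ⧸ Γ} (h : y' ∈ MulAction.orbit (Subgroup.zpowers t) y) :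
    κ (gam Γ (t ^ per t y') y') = κ (gam Γ (t ^ per t y) y) := by
  rw [per_eq_of_mem_orbit h]
  set d := per t y with hd
  obtain ⟨⟨g, hg⟩, rfl⟩ := h
  have hg' := hg
  obtain ⟨j, rfl⟩ := hg'
  obtain ⟨h₀, rfl⟩ := QuotientGroup.mk_surjective y
  have hfix : t ^ d • ((h₀ : G) : G ⧸ Γ) = ((h₀ : G) : G ⧸ Γ) := pow_per_smul t _
  have hmem : h₀⁻¹ * t ^ d * h₀ ∈ Γ := by
    have h3 : (((t ^ d * h₀ : G)) : G ⧸ Γ) = ((h₀ : G) : G ⧸ Γ) := hfix
    rw [QuotientGroup.eq] at h3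
    have : (t ^ d * h₀)⁻¹ * h₀ = (h₀⁻¹ * t ^ d * h₀)⁻¹ := by group
    rw [this] at h3
    simpa using Γ.inv_mem h3
  have hcomm : (t ^ j)⁻¹ * t ^ d * t ^ j = t ^ d := by
    rw [← zpow_natCast, ← zpow_neg, ← zpow_add, ← zpow_add]
    congr 1
    ring
  have hmem2 : (t ^ j * h₀)⁻¹ * t ^ d * (t ^ j * h₀) ∈ Γ := by
    have : (t ^ j * h₀)⁻¹ * t ^ d * (t ^ j * h₀) = h₀⁻¹ * ((t ^ j)⁻¹ * t ^ d * t ^ j) * h₀ := by
      group
    rw [this, hcomm]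
    exact hmem
  show κ (gam Γ (t ^ d) (((t ^ j * h₀ : G)) : G ⧸ Γ)) = κ (gam Γ (t ^ d) ((h₀ : G) : G ⧸ Γ))
  rw [kappa_gam_eq_conj hκ hφ hψ (t ^ j * h₀) d hmem2, kappa_gam_eq_conj hκ hφ hψ h₀ d hmem]
  congr 1
  apply Subtype.ext
  show (t ^ j * h₀)⁻¹ * t ^ d * (t ^ j * h₀) = h₀⁻¹ * t ^ d * h₀
  have : (t ^ j * h₀)⁻¹ * t ^ d * (t ^ j * h₀) = h₀⁻¹ * ((t ^ j)⁻¹ * t ^ d * t ^ j) * h₀ := by
    group
  rw [this, hcomm]

/-- the cusp sum may be computed with any system of representatives of the `⟨t⟩`-orbits. -/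
theorem finsum_cusp_eq_of_reps (hκ : IsHeisLift Γ φ ψ κ) (hφ : φ ∈ parab Γ K t)
    (hψ : ψ ∈ parab Γ K t)
    (r : MulAction.orbitRel.Quotient (Subgroup.zpowers t) (G ⧸ Γ) → G ⧸ Γ)
    (hr : ∀ o, (Quotient.mk'' (r o) : MulAction.orbitRel.Quotient (Subgroup.zpowers t) (G ⧸ Γ))
      = o) :
    ∑ᶠ o, κ (gam Γ (t ^ per t (r o)) (r o))
      = ∑ᶠ o : MulAction.orbitRel.Quotient (Subgroup.zpowers t) (G ⧸ Γ),
          κ (gam Γ (t ^ per t (Quotient.out o)) (Quotient.out o)) := by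
  apply finsum_congr
  intro o
  apply kappa_gam_eq_of_mem_orbit hκ hφ hψ
  have h1 : (Quotient.mk'' (r o) : MulAction.orbitRel.Quotient (Subgroup.zpowers t) (G ⧸ Γ))
      = Quotient.mk'' (Quotient.out o) := by
    rw [hr, Quotient.out_eq']
  have h2 := Quotient.exact' h1
  rwa [MulAction.orbitRel_apply] at h2

end CuspRep

end Fermat.Agent.S41.PD
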