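/-
helper29 (P-S41, block (4)): the (PD5) half of `PDHyp` of `Main.lean` as theorems, and the
membership hypotheses `hcor₁`, `hcor₂` of `exists_cor_eq_of_kills_ker`.
-/
import Fermat.Agent.S41.PD.ResCoresAdjoint

set_option autoImplicit false

namespace Fermat.Agent.S41.PD

open Fermat.Agent.Gateway.A2 CongruenceSubgroup Fermat.Agent.S41
open scoped MatrixGroups

variable (K : Type*) [Field K] (N q : ℕ) [NeZero N] [NeZero q]

attribute [local instance] fintypeCosetGamma0 fintypeCosetDegRange
  inclusion_Gamma0_range_finiteIndex inclusion_degRange_range_finiteIndex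

/-- (PD5) for `Γ₀(N q) ≤ Γ₀(N)`. -/
theorem resCorAdjoint_Gamma0 :
    ResCorAdjoint K (Gamma0 N) (Gamma0 (N * q)) (Gamma0_mul_le N q)
      (neg_one_mem_Gamma0 (N * q)) :=
  resCorAdjoint K (Gamma0_mul_le N q) (neg_one_mem_Gamma0 (N * q))

/-- (PD5) for `degRange N q ≤ Γ₀(N)`. -/
theorem resCorAdjoint_degRange :
    ResCorAdjoint K (Gamma0 N) (degRange N q) (degRange_le N q) (neg_one_mem_degRange N q) :=
  resCorAdjoint K (degRange_le N q) (neg_one_mem_degRange N q)

/-- the first corestriction preserves parabolic characters. -/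
theorem cor₁_mem_homPE {ψ : Additive (Gamma0 (N * q)) →+ K}
    (hψ : ψ ∈ homPE K (Gamma0 (N * q)) K) : cor₁ N q K ψ ∈ homPE K (Gamma0 N) K :=
  corAlong_inclusion_mem_homPE K (Gamma0_mul_le N q) hψ

/-- the second corestriction preserves parabolic characters. -/
theorem cor₂_mem_homPE {ψ : Additive (Gamma0 (N * q)) →+ K}
    (hψ : ψ ∈ homPE K (Gamma0 (N * q)) K) : cor₂ N q K ψ ∈ homPE K (Gamma0 N) K := by
  rw [cor₂_eq]
  exact corAlong_inclusion_mem_homPE K (degRange_le N q)
    (comp_degEquiv_symm_mem_homPE (R := K) N q hψ)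

end Fermat.Agent.S41.PD
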